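/-
Project MLT, stream TWO (helper7): **Taylor–Wiles primes for the non-strict ordinary condition**
(`mlto_ordContract : MltTWOOrdContract`).

`tw_main` (Lib/TW/Wiring) is generic in the condition at `p`; the global contracts are the theorems
used for S56; the local contract at `p` for `IsOrdinaryAt` follows from the strict ordinary one and
the case C hypothesis `MltTWOOrdFirstOrderStrict`.
-/
import Fermat.Agent.Lib.TW.S56Reduce3
import Fermat.Agent.Lib.MLT.Contracts.TWO

set_option autoImplicit false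
set_option linter.unusedSectionVars false
set_option linter.style.haveILetI false

open Fermat.Agent.S53Lib IsLocalRing groupCohomology ExtCitation CategoryTheory GaloisRep Polynomial
open scoped TensorProduct

namespace Fermat.Agent.MLT

open Fermat.Agent.TW

/-! ## Base change of the ordinary condition -/

section BaseChange

variable {A B : Type} [CommRing A] [IsLocalRing A] [CommRing B] [IsLocalRing B]

theorem mlto_isOrdinaryAt_baseChangeAlong (φ : A →+* B) (hφ : IsLocalHom φ)
    (ρ : GaloisRepAdic A) {p : ℕ} (h : ρ.IsOrdinaryAt p) :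
    (ρ.baseChangeAlong φ hφ).IsOrdinaryAt p := by
  letI : Algebra A B := φ.toAlgebra
  intro P hP
  obtain ⟨L, ⟨b, hb⟩, hD, hI⟩ := h P hP
  refine ⟨(B ∙ ((1 : B) ⊗ₜ[A] b 0) : Submodule B (B ⊗[A] ρ.V)),
    ⟨Algebra.TensorProduct.basis B b, ?_⟩, ?_, ?_⟩
  · show (B ∙ ((1 : B) ⊗ₜ[A] b 0) : Submodule B (B ⊗[A] ρ.V)) =
      B ∙ (Algebra.TensorProduct.basis B b 0)
    rw [Algebra.TensorProduct.basis_apply]
  · intro σ hσ v hv
    exact bc_baseChange_span_stable hb (ρ.ρ σ) (hD σ hσ) v hv
  · intro σ hσ v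
    exact bc_baseChange_sub_mem_span (B := B) hb (ρ.ρ σ) (hI σ hσ) v

end BaseChange

/-! ## The residual representation of a matrix lift to the dual numbers -/

section Residual

variable {k : Type} [Field k]

lemma mlto_residue_eq_fst (x : DualNumber k) :
    residue (DualNumber k) x = mltoDualResidueHom k (TrivSqZeroExt.fst x) := by
  show residue (DualNumber k) x =
    residue (DualNumber k) (algebraMap k (DualNumber k) (TrivSqZeroExt.fst x))
  rw [← sub_eq_zero, ← map_sub, residue_eq_zero_iff, dn_mem_maximalIdeal_iff]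
  rw [TrivSqZeroExt.fst_sub]
  show TrivSqZeroExt.fst x - TrivSqZeroExt.fst (TrivSqZeroExt.inl (TrivSqZeroExt.fst x)) = 0
  rw [TrivSqZeroExt.fst_inl, sub_self]

theorem mlto_residual_ofMat_isEquiv (ρbar : ResidualGaloisRep k)
    (b : Module.Basis (Fin 2) k ρbar.V)
    (r : GQ →* Matrix (Fin 2) (Fin 2) (DualNumber k)) (h : MatCts (DualNumber k) r)
    (hr : IsDualLift ρbar b r) :
    (ofMat r h).residual.IsEquiv (ρbar.baseChangeAlong (mltoDualResidueHom k)) := by
  refine ⟨⟨(residualBasis (ofMat r h) (ofMatBasis r h)).equiv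
    (resBaseChangeBasis (mltoDualResidueHom k) ρbar b) (Equiv.refl _), fun σ x => ?_⟩⟩
  apply basis_equiv_intertwine
  rw [toMatrix_residual, toMatrix_resBaseChange, toMatrixRep_ofMat]
  ext i j
  rw [Matrix.map_apply, Matrix.map_apply, mlto_residue_eq_fst]
  congr 1
  have := hr σ
  exact congrFun (congrFun this i) j

end Residual

/-! ## The local contract at `p` -/

section Local

variable {k : Type} [Field k] (p : ℕ) [Fact p.Prime] (ρbar : ResidualGaloisRep k)
  (b : Module.Basis (Fin 2) k ρbar.V)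

/-- the (non-strict) ordinary condition at `p` for lifts to `k[ε]` -/
def mltoCondOrd : GaloisRepAdic (DualNumber k) → Prop :=
  fun ρ' => ρ'.DetIsCyclotomic p ∧ ρ'.IsOrdinaryAt p

/-- **(C-LOC-p) for the ordinary condition** from the strict one, in case C. -/
theorem mlto_contractLocP_ord (hC : MltTWOOrdFirstOrderStrict p ρbar)
    (hstr : ContractLocP p ρbar b (condStrictOrd p)) :
    ContractLocP p ρbar b (mltoCondOrd p) := by
  obtain ⟨Lp, hle, hdim, hin⟩ := hstr
  refine ⟨Lp, hle, hdim, ?_⟩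
  intro ρ' r h hr hdet he hcond
  refine hin ρ' r h hr hdet he ⟨hcond.1, ?_⟩
  refine hC ρ' ?_ hcond.1 hcond.2
  obtain ⟨e⟩ := he
  obtain ⟨e'⟩ := mlto_residual_ofMat_isEquiv ρbar b r h hr
  exact ⟨(GaloisRepAdic.Equiv.residual e).trans e'⟩

end Local

/-! ## The theorem -/

theorem mlto_ordContract : MltTWOOrdContract := by
  intro 𝒪 _ _ _ _ _ p _ hp2 hp𝒪 ρbar habs hdet hsplit hTW S Smin hpSmin hSmin _hS hmin hC
  letI : Algebra (ZMod p) (ResidueField 𝒪) := tw_algebraZModResidue p hp𝒪
  have hp : p.Prime := Fact.out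
  have hpk : (p : ResidueField 𝒪) = 0 := by
    rw [← map_natCast (residue 𝒪)]
    exact (residue_eq_zero_iff _).2 hp𝒪
  have h3 : 3 ≤ p := by
    have := hp.two_le
    omega
  have h2 : (2 : ResidueField 𝒪) ≠ 0 := by
    haveI : CharP (ResidueField 𝒪) p := (CharP.charP_iff_prime_eq_zero hp).2 hpk
    intro h
    have h' : ((2 : ℕ) : ResidueField 𝒪) = 0 := by exact_mod_cast h
    rw [CharP.cast_eq_zero_iff (ResidueField 𝒪) p] at h'
    have := Nat.le_of_dvd (by norm_num) h'
    omega
  let b : Module.Basis (Fin 2) (ResidueField 𝒪) ρbar.V :=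
    Module.finBasisOfFinrankEq _ _ ρbar.finrank_eq
  have hPerf : ContractPerf (tlTP p (ad0Rep ρbar)) :=
    tl_contractPerf p (ad0Rep ρbar) (isSmoothRep_ad0 ρbar)
  have hGW : ContractGW p (ad0Rep ρbar) (tateDual p (ad0Rep ρbar)) (tlTP p (ad0Rep ρbar)) :=
    tl_contractGW p (ad0Rep ρbar) (isSmoothRep_ad0 ρbar) hp2
      (fun S' hpS h₀ => tl_eulerFormula_tlPTc p (ad0Rep ρbar) (isSmoothRep_ad0 ρbar) hp2 S' hpS h₀)
  have hR3 := tk_R3 p h3 (k := ResidueField 𝒪)
  have hstr : ContractLocP p ρbar b (condStrictOrd p) :=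
    tw_contractLocP_ord' h3 h2 hdet hR3.1 hR3.2
  have key := tw_main p ρbar b (fun _ _ _ ρ => ρ.IsOrdinaryAt p)
    (fun _ _ _ φ hφ _ ρ h => mlto_isOrdinaryAt_baseChangeAlong φ hφ ρ h)
    hpk S Smin hpSmin hSmin hmin (tlTP p (ad0Rep ρbar)) hGW
    (mlto_contractLocP_ord p ρbar b hC hstr)
    (tw_contractLocMin ρbar b p hpk h2 (fun q _ => tw_finrank_twUr_ad0_le ρbar q))
    (tw_contractLocTW p ρbar hpk)
    (tw_contractArch ρbar h2 (tw_det_complexConjugation ρbar p hdet))
    (tw_contractH0 ρbar h2 habs hsplit)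
    (fun L => tw_contractTW p ρbar (fun q => tw_localSurj_mod q) hp2 hpk habs hdet hsplit hTW S
      Smin hpSmin hmin _ hPerf L)
  exact key

end Fermat.Agent.MLT
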