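/-
Project MLT, stream TWO (helper7), D4: the matrix condition behind "ordinary at `p`".

For a representation with cyclotomic determinant (`p` odd) the ordinary line at a place `P | p` is
canonical: `L = im (ρ(σ₀) - 1)` for any `σ₀ ∈ I_P` with `χ(σ₀) ≢ 1 mod p`.  With `N = r σ₀ - 1`,
`c = det (r σ₀) - 1` (a unit) and `K = c - N`, "ordinary" becomes the polynomial identities
`K N = 0`, `tr N = c`, `K (r σ) N = 0` (`σ ∈ D_P`), `K (r σ - 1) = 0` (`σ ∈ I_P`).
-/
import Fermat.Agent.Lib.MLT.TWO.DefCondDet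

set_option autoImplicit false
set_option linter.unusedSectionVars false
set_option linter.style.haveILetI false

open Fermat.Agent.S53Lib IsLocalRing GaloisRep
open Fermat.Agent.TW

namespace Fermat.Agent.MLT

local notation "Qb" => AlgebraicClosure ℚ

section X

variable {A : Type} [CommRing A]

/-- `K = c • 1 - N`, `c = det M₀ - 1`, `N = M₀ - 1` -/
def mltoK (M₀ : Matrix (Fin 2) (Fin 2) A) : Matrix (Fin 2) (Fin 2) A :=
  (M₀.det - 1) • (1 : Matrix (Fin 2) (Fin 2) A) - (M₀ - 1)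

def mltoX1 (M₀ : Matrix (Fin 2) (Fin 2) A) : Matrix (Fin 2) (Fin 2) A := mltoK M₀ * (M₀ - 1)

def mltoX2 (M₀ : Matrix (Fin 2) (Fin 2) A) : A := (M₀ - 1).trace - (M₀.det - 1)

def mltoX3 (M₀ M : Matrix (Fin 2) (Fin 2) A) : Matrix (Fin 2) (Fin 2) A :=
  mltoK M₀ * M * (M₀ - 1)

def mltoX4 (M₀ M : Matrix (Fin 2) (Fin 2) A) : Matrix (Fin 2) (Fin 2) A := mltoK M₀ * (M - 1)

variable {B : Type} [CommRing B] (f : A →+* B)

theorem mlto_map_one' : (1 : Matrix (Fin 2) (Fin 2) A).map f = 1 :=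
  Matrix.map_one f (map_zero f) (map_one f)

theorem mlto_det_map' (M : Matrix (Fin 2) (Fin 2) A) : (M.map f).det = f M.det := by
  rw [← RingHom.mapMatrix_apply, ← RingHom.map_det]

theorem mlto_sub_one_map (M : Matrix (Fin 2) (Fin 2) A) : (M - 1).map f = M.map f - 1 := by
  rw [Matrix.map_sub f (map_sub f), mlto_map_one']

theorem mltoK_map (M₀ : Matrix (Fin 2) (Fin 2) A) : mltoK (M₀.map f) = (mltoK M₀).map f := by
  unfold mltoK
  rw [Matrix.map_sub f (map_sub f), Matrix.map_smul' f _ _ (map_mul f), mlto_map_one',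
    mlto_sub_one_map, mlto_det_map', map_sub, map_one]

theorem mltoX1_map (M₀ : Matrix (Fin 2) (Fin 2) A) : mltoX1 (M₀.map f) = (mltoX1 M₀).map f := by
  unfold mltoX1
  rw [Matrix.map_mul, mltoK_map, mlto_sub_one_map]

theorem mltoX2_map (M₀ : Matrix (Fin 2) (Fin 2) A) : mltoX2 (M₀.map f) = f (mltoX2 M₀) := by
  unfold mltoX2
  rw [map_sub, map_sub, map_one, ← mlto_det_map', ← mlto_sub_one_map]
  congr 1
  rw [Matrix.trace_fin_two, Matrix.trace_fin_two, map_add, Matrix.map_apply, Matrix.map_apply]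

theorem mltoX3_map (M₀ M : Matrix (Fin 2) (Fin 2) A) :
    mltoX3 (M₀.map f) (M.map f) = (mltoX3 M₀ M).map f := by
  unfold mltoX3
  rw [Matrix.map_mul, Matrix.map_mul, mltoK_map, mlto_sub_one_map]

theorem mltoX4_map (M₀ M : Matrix (Fin 2) (Fin 2) A) :
    mltoX4 (M₀.map f) (M.map f) = (mltoX4 M₀ M).map f := by
  unfold mltoX4
  rw [Matrix.map_mul, mltoK_map, mlto_sub_one_map]

variable (u v : Matrix (Fin 2) (Fin 2) A) (huv : u * v = 1) (hvu : v * u = 1)

include huv in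
theorem mlto_sub_one_conj (M : Matrix (Fin 2) (Fin 2) A) : u * M * v - 1 = u * (M - 1) * v := by
  rw [mul_sub, sub_mul, mul_one, huv]

include huv in
theorem mltoK_conj (M₀ : Matrix (Fin 2) (Fin 2) A) : mltoK (u * M₀ * v) = u * mltoK M₀ * v := by
  unfold mltoK
  rw [mlto_det_conj u v _ huv, mlto_sub_one_conj u v huv]
  have h1 : u * ((M₀.det - 1) • (1 : Matrix (Fin 2) (Fin 2) A)) * v =
      (M₀.det - 1) • (1 : Matrix (Fin 2) (Fin 2) A) := by
    rw [Matrix.mul_smul, Matrix.smul_mul, mul_one, huv]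
  conv_rhs => rw [mul_sub, sub_mul, h1]

include hvu in
theorem mlto_conj_mul (X Y : Matrix (Fin 2) (Fin 2) A) :
    (u * X * v) * (u * Y * v) = u * (X * Y) * v := by
  calc (u * X * v) * (u * Y * v) = u * X * (v * u) * Y * v := by simp only [mul_assoc]
    _ = u * (X * Y) * v := by rw [hvu]; simp only [mul_assoc, mul_one]

include huv hvu in
theorem mltoX1_conj (M₀ : Matrix (Fin 2) (Fin 2) A) :
    mltoX1 (u * M₀ * v) = u * mltoX1 M₀ * v := by
  unfold mltoX1
  rw [mltoK_conj u v huv, mlto_sub_one_conj u v huv, mlto_conj_mul u v hvu]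

include huv hvu in
theorem mltoX2_conj (M₀ : Matrix (Fin 2) (Fin 2) A) : mltoX2 (u * M₀ * v) = mltoX2 M₀ := by
  unfold mltoX2
  rw [mlto_det_conj u v _ huv, mlto_sub_one_conj u v huv, mlto_trace_conj u v _ hvu]

include huv hvu in
theorem mltoX3_conj (M₀ M : Matrix (Fin 2) (Fin 2) A) :
    mltoX3 (u * M₀ * v) (u * M * v) = u * mltoX3 M₀ M * v := by
  unfold mltoX3
  rw [mltoK_conj u v huv, mlto_sub_one_conj u v huv, mlto_conj_mul u v hvu,
    mlto_conj_mul u v hvu]

include huv hvu in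
theorem mltoX4_conj (M₀ M : Matrix (Fin 2) (Fin 2) A) :
    mltoX4 (u * M₀ * v) (u * M * v) = u * mltoX4 M₀ M * v := by
  unfold mltoX4
  rw [mltoK_conj u v huv, mlto_sub_one_conj u v huv, mlto_conj_mul u v hvu]

end X

/-- the matrix condition "ordinary at `p`" (meaningful when the determinant is cyclotomic) -/
def mltoEOrd (p : ℕ) : MltoMC := fun _A _ _ r =>
  ∀ P : ValuationSubring Qb, P.LiesOverPrime p → ∀ σ₀ ∈ P.inertiaSubgroupIn ℚ,
    IsUnit ((r σ₀).det - 1) →
      mltoX1 (r σ₀) = 0 ∧ mltoX2 (r σ₀) = 0 ∧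
      (∀ σ ∈ P.decompositionSubgroup ℚ, mltoX3 (r σ₀) (r σ) = 0) ∧
      (∀ σ ∈ P.inertiaSubgroupIn ℚ, mltoX4 (r σ₀) (r σ) = 0)

theorem mlto_map_zero' {A B : Type} [CommRing A] [CommRing B] (f : A →+* B) :
    (0 : Matrix (Fin 2) (Fin 2) A).map f = 0 :=
  Matrix.map_zero f (map_zero f)

theorem mltoEOrd_good (p : ℕ) : MltoMCGood (mltoEOrd p) :=
  MltoMCGood.of_reflect
    (conj := fun A _ _ r u v huv hvu h P hP σ₀ hσ₀ hc => by
      have hc' : IsUnit ((r σ₀).det - 1) := by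
        have h1 : (u * r σ₀ * v).det = (r σ₀).det := mlto_det_conj u v _ huv
        rwa [h1] at hc
      obtain ⟨h1, h2, h3, h4⟩ := h P hP σ₀ hσ₀ hc'
      refine ⟨?_, ?_, fun σ hσ => ?_, fun σ hσ => ?_⟩
      · show mltoX1 (u * r σ₀ * v) = 0
        rw [mltoX1_conj u v huv hvu, h1, mul_zero, zero_mul]
      · show mltoX2 (u * r σ₀ * v) = 0
        rw [mltoX2_conj u v huv hvu, h2]
      · show mltoX3 (u * r σ₀ * v) (u * r σ * v) = 0
        rw [mltoX3_conj u v huv hvu, h3 σ hσ, mul_zero, zero_mul]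
      · show mltoX4 (u * r σ₀ * v) (u * r σ * v) = 0
        rw [mltoX4_conj u v huv hvu, h4 σ hσ, mul_zero, zero_mul])
    (map := fun A B _ _ _ _ f hf r h P hP σ₀ hσ₀ hc => by
      have hc' : IsUnit ((r σ₀).det - 1) := by
        have h1 : ((r σ₀).map f).det - 1 = f ((r σ₀).det - 1) := by
          rw [mlto_det_map', map_sub, map_one]
        rw [h1] at hc
        haveI := hf
        exact isUnit_of_map_unit f _ hc
      obtain ⟨h1, h2, h3, h4⟩ := h P hP σ₀ hσ₀ hc'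
      refine ⟨?_, ?_, fun σ hσ => ?_, fun σ hσ => ?_⟩
      · show mltoX1 ((r σ₀).map f) = 0
        rw [mltoX1_map, h1, mlto_map_zero']
      · show mltoX2 ((r σ₀).map f) = 0
        rw [mltoX2_map, h2, map_zero]
      · show mltoX3 ((r σ₀).map f) ((r σ).map f) = 0
        rw [mltoX3_map, h3 σ hσ, mlto_map_zero']
      · show mltoX4 ((r σ₀).map f) ((r σ).map f) = 0
        rw [mltoX4_map, h4 σ hσ, mlto_map_zero'])
    (reflect := fun A _ _ ι _ B _ _ f _ hinj r h P hP σ₀ hσ₀ hc => by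
      have hc' : ∀ i, IsUnit (((r σ₀).map (f i)).det - 1) := by
        intro i
        have h1 : ((r σ₀).map (f i)).det - 1 = f i ((r σ₀).det - 1) := by
          rw [mlto_det_map', map_sub, map_one]
        rw [h1]
        exact hc.map _
      refine ⟨?_, ?_, fun σ hσ => ?_, fun σ hσ => ?_⟩
      · refine mlto_mat_eq_of_family B f hinj fun i => ?_
        rw [← mltoX1_map, (h i P hP σ₀ hσ₀ (hc' i)).1, mlto_map_zero']
      · refine mlto_eq_of_family B f hinj fun i => ?_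
        rw [← mltoX2_map, (h i P hP σ₀ hσ₀ (hc' i)).2.1, map_zero]
      · refine mlto_mat_eq_of_family B f hinj fun i => ?_
        rw [← mltoX3_map, (h i P hP σ₀ hσ₀ (hc' i)).2.2.1 σ hσ, mlto_map_zero']
      · refine mlto_mat_eq_of_family B f hinj fun i => ?_
        rw [← mltoX4_map, (h i P hP σ₀ hσ₀ (hc' i)).2.2.2 σ hσ, mlto_map_zero'])

end Fermat.Agent.MLT
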