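/-
Project MLT, stream TWO (helper7), D4: 2×2 matrix algebra behind the ordinary condition: upper
triangular matrices satisfy the identities `mltoX1..4`; conversely the identities diagonalise `r σ₀`
(`mlto_exists_diag`) and force the other matrices to be triangular (`mlto_X3_diag`, `mlto_X4_diag`).
-/
import Fermat.Agent.Lib.MLT.TWO.DefCondOrd

set_option autoImplicit false
set_option linter.unusedSectionVars false
set_option linter.style.haveILetI false

open IsLocalRing

namespace Fermat.Agent.MLT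

section Alg

variable {A : Type} [CommRing A]

/-! ### Upper triangular matrices satisfy the identities -/

theorem mltoX1_of_tri {M₀ : Matrix (Fin 2) (Fin 2) A} (h10 : M₀ 1 0 = 0) (h11 : M₀ 1 1 = 1) :
    mltoX1 M₀ = 0 := by
  ext i j
  fin_cases i <;> fin_cases j <;>
    simp [mltoX1, mltoK, Matrix.det_fin_two, Matrix.mul_apply, Fin.sum_univ_two, h10, h11]

theorem mltoX2_of_tri {M₀ : Matrix (Fin 2) (Fin 2) A} (h10 : M₀ 1 0 = 0) (h11 : M₀ 1 1 = 1) :
    mltoX2 M₀ = 0 := by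
  simp [mltoX2, Matrix.det_fin_two, Matrix.trace_fin_two, h10, h11]
  ring

theorem mltoX3_of_tri {M₀ M : Matrix (Fin 2) (Fin 2) A} (h10 : M₀ 1 0 = 0) (h11 : M₀ 1 1 = 1)
    (k10 : M 1 0 = 0) : mltoX3 M₀ M = 0 := by
  ext i j
  fin_cases i <;> fin_cases j <;>
    simp [mltoX3, mltoK, Matrix.det_fin_two, Matrix.mul_apply, Fin.sum_univ_two, h10, h11, k10]

theorem mltoX4_of_tri {M₀ M : Matrix (Fin 2) (Fin 2) A} (h10 : M₀ 1 0 = 0) (h11 : M₀ 1 1 = 1)
    (k10 : M 1 0 = 0) (k11 : M 1 1 = 1) : mltoX4 M₀ M = 0 := by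
  ext i j
  fin_cases i <;> fin_cases j <;>
    simp [mltoX4, mltoK, Matrix.det_fin_two, Matrix.mul_apply, Fin.sum_univ_two, h10, h11, k10,
      k11]

/-! ### Diagonalisation -/

theorem mlto_diag_core [IsLocalRing A] (N : Matrix (Fin 2) (Fin 2) A) (c : A) (hc : IsUnit c)
    (hNN : N * N = c • N) (htr : N 0 0 + N 1 1 = c) :
    ∃ T : Matrix (Fin 2) (Fin 2) A, IsUnit T.det ∧ N * T = T * !![c, 0; 0, 0] := by
  have e00 : N 0 0 * N 0 0 + N 0 1 * N 1 0 = c * N 0 0 := by
    have := congrFun (congrFun hNN 0) 0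
    simpa [Matrix.mul_apply, Fin.sum_univ_two] using this
  have e01 : N 0 0 * N 0 1 + N 0 1 * N 1 1 = c * N 0 1 := by
    have := congrFun (congrFun hNN 0) 1
    simpa [Matrix.mul_apply, Fin.sum_univ_two] using this
  have e10 : N 1 0 * N 0 0 + N 1 1 * N 1 0 = c * N 1 0 := by
    have := congrFun (congrFun hNN 1) 0
    simpa [Matrix.mul_apply, Fin.sum_univ_two] using this
  have e11 : N 1 0 * N 0 1 + N 1 1 * N 1 1 = c * N 1 1 := by
    have := congrFun (congrFun hNN 1) 1
    simpa [Matrix.mul_apply, Fin.sum_univ_two] using this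
  have hdetN : N 0 0 * N 1 1 - N 0 1 * N 1 0 = 0 := by
    linear_combination (-1 : A) * e00 + N 0 0 * htr
  have hu : IsUnit (N 0 0) ∨ IsUnit (N 1 1) := by
    rw [← htr] at hc
    exact IsLocalRing.isUnit_or_isUnit_of_isUnit_add hc
  rcases hu with hu | hu
  · refine ⟨!![N 0 0, -N 0 1; N 1 0, N 0 0], ?_, ?_⟩
    · have : (!![N 0 0, -N 0 1; N 1 0, N 0 0] : Matrix (Fin 2) (Fin 2) A).det = c * N 0 0 := by
        rw [Matrix.det_fin_two_of]
        linear_combination e00
      rw [this]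
      exact hc.mul hu
    · ext i j
      fin_cases i <;> fin_cases j <;> simp [Matrix.mul_apply, Fin.sum_univ_two]
      · linear_combination e00
      · ring
      · linear_combination e10
      · linear_combination hdetN
  · refine ⟨!![N 0 1, N 1 1; N 1 1, -N 1 0], ?_, ?_⟩
    · have : (!![N 0 1, N 1 1; N 1 1, -N 1 0] : Matrix (Fin 2) (Fin 2) A).det = -(c * N 1 1) := by
        rw [Matrix.det_fin_two_of]
        linear_combination (-1 : A) * e11
      rw [this]
      exact (hc.mul hu).neg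
    · ext i j
      fin_cases i <;> fin_cases j <;> simp [Matrix.mul_apply, Fin.sum_univ_two]
      · linear_combination e01
      · linear_combination hdetN
      · linear_combination e11
      · ring

/-- **diagonalisation**: `M₀ T = T diag(det M₀, 1)` -/
theorem mlto_exists_diag [IsLocalRing A] {M₀ : Matrix (Fin 2) (Fin 2) A}
    (hc : IsUnit (M₀.det - 1)) (h1 : mltoX1 M₀ = 0) (h2 : mltoX2 M₀ = 0) :
    ∃ T : (Matrix (Fin 2) (Fin 2) A)ˣ,
      M₀ * (T : Matrix (Fin 2) (Fin 2) A) = (T : Matrix (Fin 2) (Fin 2) A) * !![M₀.det, 0; 0, 1] := by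
  set c := M₀.det - 1 with hcdef
  set N := M₀ - 1 with hN
  have hNN : N * N = c • N := by
    have h3 : mltoX1 M₀ = c • N - N * N := by
      unfold mltoX1 mltoK
      rw [← hcdef, ← hN, sub_mul, Matrix.smul_mul, one_mul]
    rw [h3, sub_eq_zero] at h1
    exact h1.symm
  have htr : N 0 0 + N 1 1 = c := by
    unfold mltoX2 at h2
    rw [← hcdef, ← hN, Matrix.trace_fin_two, sub_eq_zero] at h2
    exact h2
  obtain ⟨T, hT, hNT⟩ := mlto_diag_core N c hc hNN htr
  obtain ⟨Tu, hTu⟩ := (Matrix.isUnit_iff_isUnit_det T).2 hT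
  refine ⟨Tu, ?_⟩
  rw [hTu]
  have hM₀ : M₀ = 1 + N := by rw [hN]; abel
  have hdiag : (!![M₀.det, 0; 0, 1] : Matrix (Fin 2) (Fin 2) A) = 1 + !![c, 0; 0, 0] := by
    ext i j
    fin_cases i <;> fin_cases j <;> simp [hcdef]
  rw [hdiag, mul_add, mul_one, ← hNT, hM₀, add_mul, one_mul]

theorem mlto_X3_diag {d : A} (hc : IsUnit (d - 1)) {M : Matrix (Fin 2) (Fin 2) A}
    (h : mltoX3 !![d, 0; 0, 1] M = 0) : M 1 0 = 0 := by
  have h1 := congrFun (congrFun h 1) 0
  simp [mltoX3, mltoK, Matrix.det_fin_two_of, Matrix.mul_apply, Fin.sum_univ_two] at h1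
  have h2 : (d - 1) * M 1 0 = 0 := hc.mul_left_eq_zero.1 h1
  exact hc.mul_right_eq_zero.1 h2

theorem mlto_X4_diag {d : A} (hc : IsUnit (d - 1)) {M : Matrix (Fin 2) (Fin 2) A}
    (h : mltoX4 !![d, 0; 0, 1] M = 0) : M 1 0 = 0 ∧ M 1 1 = 1 := by
  have h1 := congrFun (congrFun h 1) 0
  have h2 := congrFun (congrFun h 1) 1
  simp [mltoX4, mltoK, Matrix.det_fin_two_of, Matrix.mul_apply, Fin.sum_univ_two] at h1 h2
  exact ⟨hc.mul_right_eq_zero.1 h1, sub_eq_zero.1 (hc.mul_right_eq_zero.1 h2)⟩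

end Alg

end Fermat.Agent.MLT
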