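/-
Project MLT, stream TWO (helper7), D4: the bridge between `GaloisRepAdic.IsOrdinaryAt` and the matrix
condition `mltoEOrd`, and the result: for `p ≥ 3`, "cyclotomic determinant and ordinary at `p`" is a
deformation condition (`mlto_isDefCond_detOrd`).
-/
import Fermat.Agent.Lib.MLT.TWO.DefCondOrdAlg
import Fermat.Agent.Lib.TW.Local.CycloRamified
import Fermat.Agent.Lib.TW.Points

set_option autoImplicit false
set_option linter.unusedSectionVars false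
set_option linter.style.haveILetI false

open Fermat.Agent.S53Lib IsLocalRing GaloisRep
open Fermat.Agent.TW

namespace Fermat.Agent.MLT

local notation "Qb" => AlgebraicClosure ℚ

section Bridge

variable {A : Type} [CommRing A] [IsLocalRing A]

theorem mlto_isOrdinaryAt_of_isEquiv {ρ₁ ρ₂ : GaloisRepAdic A} (he : ρ₁.IsEquiv ρ₂) {p : ℕ}
    (h : ρ₁.IsOrdinaryAt p) : ρ₂.IsOrdinaryAt p := by
  obtain ⟨e⟩ := he
  intro P hP
  obtain ⟨L, ⟨b, hb⟩, hD, hI⟩ := h P hP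
  refine ⟨L.map e.toLinearEquiv.toLinearMap, ⟨b.map e.toLinearEquiv, ?_⟩, ?_, ?_⟩
  · rw [hb, Submodule.map_span, Set.image_singleton, Module.Basis.map_apply]
    rfl
  · intro σ hσ v hv
    obtain ⟨w, hw, rfl⟩ := hv
    refine ⟨ρ₁.ρ σ w, hD σ hσ w hw, ?_⟩
    exact e.map_apply σ w
  · intro σ hσ v
    refine ⟨ρ₁.ρ σ (e.toLinearEquiv.symm v) - e.toLinearEquiv.symm v, hI σ hσ _, ?_⟩
    rw [map_sub]
    show e.toLinearEquiv _ - e.toLinearEquiv _ = _
    rw [e.map_apply, LinearEquiv.apply_symm_apply]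

/-- a unit criterion -/
theorem mlto_isUnit_intCast {p : ℕ} (hp : p.Prime) (hpA : (p : A) ∈ maximalIdeal A) (m : ℤ)
    (hm : ¬ (p : ℤ) ∣ m) : IsUnit (m : A) := by
  have hcop : IsCoprime (p : ℤ) m :=
    (Prime.coprime_iff_not_dvd (Nat.prime_iff_prime_int.1 hp)).2 hm
  obtain ⟨u, v, huv⟩ := hcop
  have h1 : (u : A) * (p : A) + (v : A) * (m : A) = 1 := by
    have := congrArg (Int.cast : ℤ → A) huv
    push_cast at this
    exact this
  by_contra h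
  have hmA : (m : A) ∈ maximalIdeal A := (mem_maximalIdeal _).2 h
  have h2 : (1 : A) ∈ maximalIdeal A := by
    rw [← h1]
    exact Ideal.add_mem _ (Ideal.mul_mem_left _ _ hpA) (Ideal.mul_mem_left _ _ hmA)
  exact (Ideal.ne_top_iff_one _).1 (maximalIdeal.isMaximal A).ne_top h2

/-- `det r(σ₀) - 1` is a unit when `χ(σ₀) ≢ 1 mod p` -/
theorem mlto_isUnit_det_sub_one (p : ℕ) [hp : Fact p.Prime]
    (r : GQ →* Matrix (Fin 2) (Fin 2) A) (hr : MatCts A r)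
    (hdet : (ofMat r hr).DetIsCyclotomic p) {σ₀ : GQ} (hχ : ExtCitation.cycloChar p σ₀ ≠ 1) :
    IsUnit ((r σ₀).det - 1) := by
  haveI : NeZero p := ⟨hp.out.ne_zero⟩
  set a := ExtCitation.cycloExp p σ₀ with ha
  have h1 := hdet.2 1 σ₀ a (fun μ hμ => by
    rw [pow_one] at hμ
    exact tw_apply_eq_pow_cycloExp p σ₀ hμ)
  rw [det_ofMat, pow_one] at h1
  have h2 : (r σ₀).det - (a : A) ∈ maximalIdeal A :=
    (Ideal.span_singleton_le_iff_mem _).2 hdet.1 h1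
  have ha1 : ¬ (p : ℤ) ∣ ((a : ℤ) - 1) := by
    intro hdvd
    have h3 := (ZMod.intCast_zmod_eq_zero_iff_dvd ((a : ℤ) - 1) p).2 hdvd
    push_cast at h3
    rw [ha, ← ExtCitation.val_cycloChar, ZMod.natCast_zmod_val, sub_eq_zero] at h3
    exact hχ (Units.ext h3)
  have h4 : IsUnit (((a : ℤ) - 1 : ℤ) : A) := mlto_isUnit_intCast hp.out hdet.1 _ ha1
  push_cast at h4
  by_contra hnu
  have h5 : (r σ₀).det - 1 ∈ maximalIdeal A := (mem_maximalIdeal _).2 hnu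
  have h6 : (a : A) - 1 ∈ maximalIdeal A := by
    have : (a : A) - 1 = ((r σ₀).det - 1) - ((r σ₀).det - (a : A)) := by ring
    rw [this]
    exact Ideal.sub_mem _ h5 h2
  exact (mem_maximalIdeal _).1 h6 h4

/-! ### ordinary ⇒ the identities -/

theorem mlto_repr_one_of_mem {V : Type} [AddCommGroup V] [Module A V]
    (b : Module.Basis (Fin 2) A V) {v : V} (hv : v ∈ (A ∙ b 0 : Submodule A V)) :
    b.repr v 1 = 0 := by
  obtain ⟨a, rfl⟩ := Submodule.mem_span_singleton.1 hv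
  rw [map_smul, Finsupp.smul_apply, Module.Basis.repr_self, Finsupp.single_apply,
    if_neg (by decide), smul_zero]

theorem mltoEOrd_of_isOrdinaryAt {ρ : GaloisRepAdic A} {p : ℕ} (h : ρ.IsOrdinaryAt p)
    (r : GQ →* Matrix (Fin 2) (Fin 2) A) (hr : MatCts A r) (e : ρ.IsEquiv (ofMat r hr)) :
    mltoEOrd p (fun σ => r σ) := by
  intro P hP σ₀ hσ₀ _
  obtain ⟨L, ⟨b, hb⟩, hD, hI⟩ := h P hP
  set r' := toMatrixRep ρ b with hr'
  have e' : ρ.IsEquiv (ofMat r' (toMatrixRep_continuous ρ b)) := ⟨equivOfMatrix ρ b⟩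
  obtain ⟨e''⟩ := mlto_isEquiv_trans (mlto_isEquiv_symm e') e
  obtain ⟨T, hT⟩ := exists_conj_of_equiv e'' (ofMatBasis r' (toMatrixRep_continuous ρ b))
    (ofMatBasis r hr)
  rw [toMatrixRep_ofMat, toMatrixRep_ofMat] at hT
  have hconj : ∀ σ, r σ = (T : Matrix (Fin 2) (Fin 2) A) * r' σ *
      ((T⁻¹ : (Matrix (Fin 2) (Fin 2) A)ˣ) : Matrix (Fin 2) (Fin 2) A) := by
    intro σ
    rw [hT σ, mul_assoc, Units.mul_inv, mul_one]
  have hb0 : b 0 ∈ L := by rw [hb]; exact Submodule.mem_span_singleton_self _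
  have hentry : ∀ σ i j, r' σ i j = b.repr (ρ.ρ σ (b j)) i := by
    intro σ i j
    rw [hr', toMatrixRep_apply, LinearMap.toMatrix_apply]
  have triD : ∀ σ ∈ P.decompositionSubgroup ℚ, r' σ 1 0 = 0 := by
    intro σ hσ
    rw [hentry]
    refine mlto_repr_one_of_mem b ?_
    rw [← hb]
    exact hD σ hσ _ hb0
  have triI : ∀ σ ∈ P.inertiaSubgroupIn ℚ, r' σ 1 0 = 0 ∧ r' σ 1 1 = 1 := by
    intro σ hσ
    constructor
    · rw [hentry]
      have h1 := hI σ hσ (b 0)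
      rw [hb] at h1
      have h2 := mlto_repr_one_of_mem b h1
      rw [map_sub, Finsupp.sub_apply, Module.Basis.repr_self, Finsupp.single_apply,
        if_neg (by decide), sub_zero] at h2
      exact h2
    · rw [hentry]
      have h1 := hI σ hσ (b 1)
      rw [hb] at h1
      have h2 := mlto_repr_one_of_mem b h1
      rw [map_sub, Finsupp.sub_apply, Module.Basis.repr_self, Finsupp.single_apply,
        if_pos rfl, sub_eq_zero] at h2
      exact h2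
  have huv := Units.mul_inv T
  have hvu := Units.inv_mul T
  obtain ⟨t10, t11⟩ := triI σ₀ hσ₀
  refine ⟨?_, ?_, fun σ hσ => ?_, fun σ hσ => ?_⟩
  · show mltoX1 (r σ₀) = 0
    rw [hconj σ₀, mltoX1_conj _ _ huv hvu, mltoX1_of_tri t10 t11, mul_zero, zero_mul]
  · show mltoX2 (r σ₀) = 0
    rw [hconj σ₀, mltoX2_conj _ _ huv hvu, mltoX2_of_tri t10 t11]
  · show mltoX3 (r σ₀) (r σ) = 0
    rw [hconj σ₀, hconj σ, mltoX3_conj _ _ huv hvu, mltoX3_of_tri t10 t11 (triD σ hσ), mul_zero,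
      zero_mul]
  · show mltoX4 (r σ₀) (r σ) = 0
    rw [hconj σ₀, hconj σ, mltoX4_conj _ _ huv hvu,
      mltoX4_of_tri t10 t11 (triI σ hσ).1 (triI σ hσ).2, mul_zero, zero_mul]

/-! ### the identities ⇒ ordinary -/

theorem mlto_ordinary_core (r : GQ → Matrix (Fin 2) (Fin 2) A) (D I : Set GQ)
    (T : (Matrix (Fin 2) (Fin 2) A)ˣ)
    (triD : ∀ σ ∈ D, (((T⁻¹ : (Matrix (Fin 2) (Fin 2) A)ˣ) : Matrix (Fin 2) (Fin 2) A) * r σ *
      (T : Matrix (Fin 2) (Fin 2) A)) 1 0 = 0)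
    (triI : ∀ σ ∈ I, (((T⁻¹ : (Matrix (Fin 2) (Fin 2) A)ˣ) : Matrix (Fin 2) (Fin 2) A) * r σ *
      (T : Matrix (Fin 2) (Fin 2) A)) 1 0 = 0 ∧
      (((T⁻¹ : (Matrix (Fin 2) (Fin 2) A)ˣ) : Matrix (Fin 2) (Fin 2) A) * r σ *
      (T : Matrix (Fin 2) (Fin 2) A)) 1 1 = 1) :
    ∃ L : Submodule A (Fin 2 → A),
      (∃ b : Module.Basis (Fin 2) A (Fin 2 → A), L = A ∙ b 0) ∧
      (∀ σ ∈ D, ∀ w ∈ L, (r σ).mulVec w ∈ L) ∧
      (∀ σ ∈ I, ∀ w : Fin 2 → A, (r σ).mulVec w - w ∈ L) := by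
  set u : Matrix (Fin 2) (Fin 2) A := ((T⁻¹ : (Matrix (Fin 2) (Fin 2) A)ˣ) :
    Matrix (Fin 2) (Fin 2) A) with hu
  set v : Matrix (Fin 2) (Fin 2) A := (T : Matrix (Fin 2) (Fin 2) A) with hv
  have huv : u * v = 1 := Units.inv_mul T
  have hvu : v * u = 1 := Units.mul_inv T
  have hcomm : ∀ σ, r σ * v = v * (u * r σ * v) := by
    intro σ
    rw [← mul_assoc, ← mul_assoc, hvu, one_mul]
  let b : Module.Basis (Fin 2) A (Fin 2 → A) :=
    (Pi.basisFun A (Fin 2)).map (unitLinearEquiv T)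
  have hb : ∀ i, b i = v.mulVec (Pi.single i 1) := by
    intro i
    show unitLinearEquiv T ((Pi.basisFun A (Fin 2)) i) = _
    rw [Pi.basisFun_apply, unitLinearEquiv_apply]
  refine ⟨(A ∙ b 0 : Submodule A (Fin 2 → A)), ⟨b, rfl⟩, ?_, ?_⟩
  · intro σ hσ w hw
    obtain ⟨a, rfl⟩ := Submodule.mem_span_singleton.1 hw
    rw [Matrix.mulVec_smul]
    refine Submodule.smul_mem _ _ ?_
    rw [hb, Matrix.mulVec_mulVec, hcomm σ, ← Matrix.mulVec_mulVec]
    have h6 : (u * r σ * v).mulVec (Pi.single 0 1) = (u * r σ * v) 0 0 • Pi.single 0 1 := by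
      rw [Matrix.mulVec_single_one]
      ext k
      fin_cases k
      · simp
      · simp [triD σ hσ]
    rw [h6, Matrix.mulVec_smul]
    exact Submodule.smul_mem _ _ (Submodule.mem_span_singleton_self _)
  · intro σ hσ w
    have h7 : (r σ).mulVec w - w = v.mulVec ((u * r σ * v - 1).mulVec (u.mulVec w)) := by
      have h9 : v * (u * r σ * v - 1) * u = r σ - 1 := by
        rw [mul_sub, sub_mul, mul_one, hvu, ← hcomm σ, mul_assoc, hvu, mul_one]
      rw [Matrix.mulVec_mulVec, Matrix.mulVec_mulVec, h9, Matrix.sub_mulVec, Matrix.one_mulVec]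
    rw [h7]
    have h8 : (u * r σ * v - 1).mulVec (u.mulVec w) =
        ((u * r σ * v - 1).mulVec (u.mulVec w)) 0 • Pi.single 0 1 := by
      ext k
      fin_cases k
      · simp
      · simp [Matrix.mulVec, dotProduct, Fin.sum_univ_two, (triI σ hσ).1, (triI σ hσ).2]
    rw [h8, Matrix.mulVec_smul, hb]
    exact Submodule.smul_mem _ _ (Submodule.mem_span_singleton_self _)

theorem mlto_isOrdinaryAt_of_EOrd (p : ℕ) [hp : Fact p.Prime] (h3 : 3 ≤ p)
    (r : GQ →* Matrix (Fin 2) (Fin 2) A) (hr : MatCts A r)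
    (hdet : (ofMat r hr).DetIsCyclotomic p) (hE : mltoEOrd p (fun σ => r σ)) :
    (ofMat r hr).IsOrdinaryAt p := by
  intro P hP
  obtain ⟨σ₀, hσ₀, hχ⟩ := tw_exists_inertia_cycloChar_ne_one p h3 P hP
  have hc : IsUnit ((r σ₀).det - 1) := mlto_isUnit_det_sub_one p r hr hdet hχ
  obtain ⟨h1, h2, h3', h4⟩ := hE P hP σ₀ hσ₀ hc
  obtain ⟨T, hT⟩ := mlto_exists_diag hc h1 h2
  set u : Matrix (Fin 2) (Fin 2) A := ((T⁻¹ : (Matrix (Fin 2) (Fin 2) A)ˣ) :
    Matrix (Fin 2) (Fin 2) A) with hu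
  set v : Matrix (Fin 2) (Fin 2) A := (T : Matrix (Fin 2) (Fin 2) A) with hv
  have huv : u * v = 1 := Units.inv_mul T
  have hvu : v * u = 1 := Units.mul_inv T
  have hdiag : u * r σ₀ * v = !![(r σ₀).det, 0; 0, 1] := by
    rw [mul_assoc, hT, ← mul_assoc, huv, one_mul]
  have triD : ∀ σ ∈ (P.decompositionSubgroup ℚ : Set GQ), (u * r σ * v) 1 0 = 0 := by
    intro σ hσ
    have h5 := mltoX3_conj u v huv hvu (r σ₀) (r σ)
    rw [h3' σ hσ, mul_zero, zero_mul, hdiag] at h5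
    exact mlto_X3_diag hc h5
  have triI : ∀ σ ∈ (P.inertiaSubgroupIn ℚ : Set GQ),
      (u * r σ * v) 1 0 = 0 ∧ (u * r σ * v) 1 1 = 1 := by
    intro σ hσ
    have h5 := mltoX4_conj u v huv hvu (r σ₀) (r σ)
    rw [h4 σ hσ, mul_zero, zero_mul, hdiag] at h5
    exact mlto_X4_diag hc h5
  exact mlto_ordinary_core (fun σ => r σ) _ _ T triD triI

/-! ### the deformation condition -/

theorem mltoCondOf_ord_iff {𝒪 : Type} [CommRing 𝒪] (p : ℕ) [Fact p.Prime] (h3 : 3 ≤ p)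
    [Algebra 𝒪 A] (ρ : GaloisRepAdic A) (hdet : ρ.DetIsCyclotomic p) :
    mltoCondOf 𝒪 (mltoEOrd p) ρ ↔ ρ.IsOrdinaryAt p := by
  constructor
  · rintro ⟨r, hr, e, hE⟩
    refine mlto_isOrdinaryAt_of_isEquiv (mlto_isEquiv_symm e) ?_
    exact mlto_isOrdinaryAt_of_EOrd p h3 r hr (detIsCyclotomic_of_isEquiv e hdet) hE
  · intro h
    obtain ⟨r, hr, e⟩ := exists_isEquiv_ofMat ρ
    exact ⟨r, hr, e, mltoEOrd_of_isOrdinaryAt h r hr e⟩

end Bridge

/-- **"cyclotomic determinant and ordinary at `p`" is a deformation condition** (`p ≥ 3`). -/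
theorem mlto_isDefCond_detOrd (𝒪 : Type) [CommRing 𝒪] [IsLocalRing 𝒪] (p : ℕ) [hp : Fact p.Prime]
    (h3 : 3 ≤ p) :
    IsDeformationCondition 𝒪 (fun _A _ _ _ ρ => ρ.DetIsCyclotomic p ∧ ρ.IsOrdinaryAt p) := by
  refine mlto_isDefCond_of_iff ?_ (mlto_isDefCond_and (mlto_isDefCond_det 𝒪 hp.out)
    (mltoCondOf_isDeformationCondition (𝒪 := 𝒪) (mltoEOrd_good p)))
  intro A _ _ _ ρ
  constructor
  · rintro ⟨h1, h2⟩
    exact ⟨h1, (mltoCondOf_ord_iff p h3 ρ h1).1 h2⟩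
  · rintro ⟨h1, h2⟩
    exact ⟨h1, (mltoCondOf_ord_iff p h3 ρ h1).2 h2⟩

end Fermat.Agent.MLT
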