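/-
Project MLT, stream TWO (helper7), the step at `p`: **duality for finite abelian groups killed by
`N`, with values in `ZMod N`** (transferred from Mathlib's duality with values in the roots of
unity of `ℚ̄`).

For a finite abelian group `M` with `N • M = 0`:
* `mlto_dual_separates`  : `m ≠ 0 → ∃ l : M →+ ZMod N, l m ≠ 0`;
* `mlto_dual_extends`    : additive maps to `ZMod N` extend along injective homomorphisms;
* `mlto_dual_double`     : every additive functional on `M →+ ZMod N` is an evaluation.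
-/
import Fermat.Agent.Lib.TW.Kum.Generator

set_option autoImplicit false
set_option linter.style.haveILetI false
set_option linter.unusedSectionVars false

namespace Fermat.Agent.MLT

open Fermat.Agent.TW

local notation "Qb" => AlgebraicClosure ℚ

noncomputable section

variable {N : ℕ} [NeZero N] {M : Type*} [AddCommGroup M]

/-- the character `m ↦ ζ ^ (l m)` -/
def mltoChi {ζ : Qb} (hζ : ζ ^ N = 1) (l : M →+ ZMod N) : Multiplicative M →* Qbˣ where
  toFun m := Units.mk0 (lfZPow ζ (l m.toAdd)) (lfZPow_ne_zero hζ _)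
  map_one' := by
    apply Units.ext
    show lfZPow ζ (l 0) = 1
    rw [map_zero, lfZPow_zero]
  map_mul' m m' := by
    apply Units.ext
    show lfZPow ζ (l (m.toAdd + m'.toAdd)) = lfZPow ζ (l m.toAdd) * lfZPow ζ (l m'.toAdd)
    rw [map_add, lfZPow_add hζ]

lemma mltoChi_apply {ζ : Qb} (hζ : ζ ^ N = 1) (l : M →+ ZMod N) (m : M) :
    ((mltoChi hζ l (Multiplicative.ofAdd m) : Qbˣ) : Qb) = lfZPow ζ (l m) := rfl

lemma mltoChi_add {ζ : Qb} (hζ : ζ ^ N = 1) (l l' : M →+ ZMod N) :
    mltoChi hζ (l + l') = mltoChi hζ l * mltoChi hζ l' := by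
  refine MonoidHom.ext fun m => Units.ext ?_
  show lfZPow ζ ((l + l') (Multiplicative.toAdd m)) =
    lfZPow ζ (l (Multiplicative.toAdd m)) * lfZPow ζ (l' (Multiplicative.toAdd m))
  rw [AddMonoidHom.add_apply, lfZPow_add hζ]

lemma mltoChi_injective {ζ : Qb} (hζ : IsPrimitiveRoot ζ N) :
    Function.Injective (mltoChi (M := M) hζ.pow_eq_one) := by
  intro l l' h
  ext m
  have h1 := congrArg (fun χ : Multiplicative M →* Qbˣ => ((χ (Multiplicative.ofAdd m) : Qbˣ) : Qb)) h
  exact tk_lfZPow_injective hζ h1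

/-- every character of a group killed by `N` comes from an additive map to `ZMod N` -/
lemma mltoChi_surjective {ζ : Qb} (hζ : IsPrimitiveRoot ζ N) (hNM : ∀ m : M, N • m = 0) :
    Function.Surjective (mltoChi (M := M) hζ.pow_eq_one) := by
  intro χ
  have h1 : ∀ m : M, ((χ (Multiplicative.ofAdd m) : Qbˣ) : Qb) ^ N = 1 := by
    intro m
    rw [← Units.val_pow_eq_pow_val, ← map_pow, ← ofAdd_nsmul, hNM m, ofAdd_zero, map_one,
      Units.val_one]
  choose a ha using fun m => lf_exists_eq_lfZPow hζ (h1 m)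
  have hadd : ∀ m m', a (m + m') = a m + a m' := by
    intro m m'
    apply tk_lfZPow_injective hζ
    rw [← ha, lfZPow_add hζ.pow_eq_one, ← ha, ← ha, ofAdd_add, map_mul, Units.val_mul]
  have hzero : a 0 = 0 := by
    have := hadd 0 0
    rw [add_zero] at this
    exact left_eq_add.mp this
  refine ⟨⟨⟨a, hzero⟩, hadd⟩, ?_⟩
  refine MonoidHom.ext fun m => Units.ext ?_
  show lfZPow ζ (a (Multiplicative.toAdd m)) = _
  rw [← ha]
  rfl

variable [Finite M]

instance mlto_neZero_exponent : NeZero ((Monoid.exponent (Multiplicative M) : ℕ) : ℚ) :=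
  ⟨by exact_mod_cast Monoid.exponent_ne_zero_of_finite⟩

/-- **separation of points** -/
theorem mlto_dual_separates (hNM : ∀ m : M, N • m = 0) {m : M} (hm : m ≠ 0) :
    ∃ l : M →+ ZMod N, l m ≠ 0 := by
  obtain ⟨ζ, hζ⟩ := HasEnoughRootsOfUnity.exists_primitiveRoot Qb N
  have hm' : Multiplicative.ofAdd m ≠ 1 := fun h => hm (by simpa using h)
  obtain ⟨χ, hχ⟩ := CommGroup.exists_apply_ne_one_of_hasEnoughRootsOfUnity
    (Multiplicative M) Qb hm'
  obtain ⟨l, rfl⟩ := mltoChi_surjective hζ hNM χ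
  refine ⟨l, fun h0 => hχ ?_⟩
  apply Units.ext
  rw [mltoChi_apply, h0, lfZPow_zero]
  rfl

/-- **extension** of additive maps to `ZMod N` along injective homomorphisms -/
theorem mlto_dual_extends {M' : Type*} [AddCommGroup M'] [Finite M']
    (hNM' : ∀ m : M', N • m = 0) (f : M →+ M') (hf : Function.Injective f)
    (l : M →+ ZMod N) : ∃ l' : M' →+ ZMod N, ∀ m, l' (f m) = l m := by
  obtain ⟨ζ, hζ⟩ := HasEnoughRootsOfUnity.exists_primitiveRoot Qb N
  let f' : Multiplicative M →* Multiplicative M' := AddMonoidHom.toMultiplicative f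
  have hf' : Function.Injective f' := fun x y h => hf h
  let χH : f'.range →* Qbˣ :=
    (mltoChi hζ.pow_eq_one l).comp (MonoidHom.ofInjective hf').symm.toMonoidHom
  obtain ⟨χ', hχ'⟩ := MonoidHom.domRestrict_surjective (M := Qb) f'.range χH
  obtain ⟨l', rfl⟩ := mltoChi_surjective hζ hNM' χ'
  refine ⟨l', fun m => ?_⟩
  apply tk_lfZPow_injective hζ
  have h1 := congrArg (fun χ : f'.range →* Qbˣ =>
    ((χ ⟨f' (Multiplicative.ofAdd m), ⟨_, rfl⟩⟩ : Qbˣ) : Qb)) hχ'
  have h2 : (MonoidHom.ofInjective hf').symm ⟨f' (Multiplicative.ofAdd m), ⟨_, rfl⟩⟩ =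
      Multiplicative.ofAdd m := by
    apply (MonoidHom.ofInjective hf').injective
    rw [MulEquiv.apply_symm_apply]
    rfl
  simp only [χH, MonoidHom.coe_comp, Function.comp_apply, MulEquiv.coe_toMonoidHom, h2] at h1
  exact h1

/-- **double duality** -/
theorem mlto_dual_double (hNM : ∀ m : M, N • m = 0) (Φ : (M →+ ZMod N) →+ ZMod N) :
    ∃ g : M, ∀ l : M →+ ZMod N, Φ l = l g := by
  classical
  obtain ⟨ζ, hζ⟩ := HasEnoughRootsOfUnity.exists_primitiveRoot Qb N
  have hζN := hζ.pow_eq_one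
  have hbij : Function.Bijective (mltoChi (M := M) hζN) :=
    ⟨mltoChi_injective hζ, mltoChi_surjective hζ hNM⟩
  let E := Equiv.ofBijective _ hbij
  have hE : ∀ χ, mltoChi hζN (E.symm χ) = χ := fun χ => E.apply_symm_apply χ
  have hEmul : ∀ χ χ', E.symm (χ * χ') = E.symm χ + E.symm χ' := by
    intro χ χ'
    apply mltoChi_injective hζ
    rw [hE, mltoChi_add, hE, hE]
  have hEone : E.symm 1 = 0 := by
    have := hEmul 1 1
    rw [show (1 : Multiplicative M →* Qbˣ) * 1 = 1 from MonoidHom.ext fun _ => mul_one _] at this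
    exact left_eq_add.mp this
  let η : (Multiplicative M →* Qbˣ) →* Qbˣ :=
    { toFun := fun χ => Units.mk0 (lfZPow ζ (Φ (E.symm χ))) (lfZPow_ne_zero hζN _)
      map_one' := by
        apply Units.ext
        show lfZPow ζ (Φ (E.symm 1)) = 1
        rw [hEone, map_zero, lfZPow_zero]
      map_mul' := fun χ χ' => by
        apply Units.ext
        show lfZPow ζ (Φ (E.symm (χ * χ'))) = lfZPow ζ (Φ (E.symm χ)) * lfZPow ζ (Φ (E.symm χ'))
        rw [hEmul, map_add, lfZPow_add hζN] }
  refine ⟨(CommGroup.monoidHomMonoidHomEquiv (Multiplicative M) Qb η).toAdd, fun l => ?_⟩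
  have h1 := CommGroup.apply_monoidHomMonoidHomEquiv Qb (mltoChi hζN l) η
  have h2 : E.symm (mltoChi hζN l) = l := E.symm_apply_apply l
  have h3 := congrArg (fun u : Qbˣ => (u : Qb)) h1
  simp only [η, MonoidHom.coe_mk, OneHom.coe_mk, Units.val_mk0, h2] at h3
  apply tk_lfZPow_injective hζ
  rw [← h3]
  rfl

end

end Fermat.Agent.MLT
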