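/-
Project MLT, stream TWO (helper7): the cotangent module of an augmented `𝒪`-algebra
`x' : R' → 𝒪`, `𝔭' = ker x'`, `Φ' = 𝔭'/𝔭'²`.

* `mltoD` : the projection `r ↦ r - ι (x' r)` onto `𝔭'`;  `mltoA x' n = 𝔭'² + 𝔪_𝒪^n 𝔭'`;
* `mlto_mem_mltoA_of_mem_pow` : `𝔪'^(n+1) ∩ 𝔭' ⊆ 𝔞_n`;
* `mltoA_le_mltoIdealOf` : classes of elements of `𝔞_n` lie in `𝔪_𝒪^n Φ'`;
* `mlto_cot_growth` : the commutative algebra part of the growth bound (a).
-/
import Mathlib
import Fermat.Agent.Lib.MLT.TWO.DetLen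

set_option autoImplicit false
set_option linter.unusedSectionVars false
set_option linter.style.haveILetI false

open IsLocalRing

namespace Fermat.Agent.MLT

section Aug

variable {𝒪 : Type*} [CommRing 𝒪] [IsLocalRing 𝒪]
variable {R' : Type*} [CommRing R'] [Algebra 𝒪 R']
variable (x' : R' →ₐ[𝒪] 𝒪)

/-- `r ↦ r - ι (x' r)`, the projection of `R' = 𝒪 ⊕ 𝔭'` onto `𝔭'` -/
def mltoD (r : R') : R' := r - algebraMap 𝒪 R' (x' r)

lemma mltoD_mem (r : R') : mltoD x' r ∈ RingHom.ker (x' : R' →+* 𝒪) := by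
  rw [RingHom.mem_ker]
  show x' (r - algebraMap 𝒪 R' (x' r)) = 0
  rw [map_sub, AlgHom.commutes, Algebra.algebraMap_self_apply, sub_self]

lemma mltoD_of_mem {y : R'} (hy : y ∈ RingHom.ker (x' : R' →+* 𝒪)) : mltoD x' y = y := by
  rw [RingHom.mem_ker] at hy
  have hy' : x' y = 0 := hy
  unfold mltoD
  rw [hy', map_zero, sub_zero]

lemma mltoD_mul (r s : R') :
    mltoD x' (r * s) = mltoD x' r * mltoD x' s + algebraMap 𝒪 R' (x' r) * mltoD x' s +
      algebraMap 𝒪 R' (x' s) * mltoD x' r := by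
  unfold mltoD
  rw [map_mul, map_mul]
  ring

lemma mltoD_add (r s : R') : mltoD x' (r + s) = mltoD x' r + mltoD x' s := by
  unfold mltoD
  rw [map_add, map_add]
  ring

/-- the ideal `𝔞_n = 𝔭'² + 𝔪_𝒪^n 𝔭'` -/
def mltoA (n : ℕ) : Ideal R' :=
  RingHom.ker (x' : R' →+* 𝒪) ^ 2 ⊔
    Ideal.map (algebraMap 𝒪 R') (maximalIdeal 𝒪 ^ n) * RingHom.ker (x' : R' →+* 𝒪)

lemma mltoA_le (n : ℕ) : mltoA x' n ≤ RingHom.ker (x' : R' →+* 𝒪) := by
  refine sup_le (Ideal.pow_le_self two_ne_zero) Ideal.mul_le_right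

lemma sq_le_mltoA (n : ℕ) : RingHom.ker (x' : R' →+* 𝒪) ^ 2 ≤ mltoA x' n := le_sup_left

lemma mltoA_succ_le (n : ℕ) : mltoA x' (n + 1) ≤ mltoA x' n := by
  refine sup_le le_sup_left (le_trans ?_ le_sup_right)
  exact Ideal.mul_mono_left (Ideal.map_mono (Ideal.pow_le_pow_right (Nat.le_succ n)))

variable [IsLocalRing R']

/-- `x'` maps `𝔪'^k` into `𝔪_𝒪^k` -/
lemma mlto_map_pow_le (k : ℕ) :
    Ideal.map (x' : R' →+* 𝒪) (maximalIdeal R' ^ k) ≤ maximalIdeal 𝒪 ^ k := by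
  rw [Ideal.map_pow]
  refine Ideal.pow_right_mono ?_ k
  rw [Ideal.map_le_iff_le_comap]
  intro r hr
  rw [Ideal.mem_comap]
  by_contra h
  have hu : IsUnit (x' r) := by
    rwa [mem_maximalIdeal, mem_nonunits_iff, not_not] at h
  -- `r - ι (x' r) ∈ 𝔭'`, and `𝔭' ≤ 𝔪'`
  have h1 : IsUnit (algebraMap 𝒪 R' (x' r)) := hu.map _
  have h2 : mltoD x' r ∈ maximalIdeal R' := by
    have h3 : RingHom.ker (x' : R' →+* 𝒪) ≤ maximalIdeal R' := by
      exact le_maximalIdeal (RingHom.ker_ne_top _)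
    exact h3 (mltoD_mem x' r)
  have h4 : algebraMap 𝒪 R' (x' r) = r - mltoD x' r := by
    unfold mltoD; ring
  rw [h4] at h1
  have := (maximalIdeal R').sub_mem hr h2
  exact (mem_maximalIdeal _).1 this h1

/-- **(P7)** `D` maps `𝔪'^(n+1)` into `𝔞_n` -/
theorem mltoD_mem_mltoA (n : ℕ) {r : R'} (hr : r ∈ maximalIdeal R' ^ (n + 1)) :
    mltoD x' r ∈ mltoA x' n := by
  induction n generalizing r with
  | zero =>
    refine Ideal.mem_sup_right ?_
    rw [pow_zero, Ideal.one_eq_top, Ideal.map_top, Ideal.top_mul]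
    exact mltoD_mem x' r
  | succ n ih =>
    rw [pow_succ] at hr
    refine Submodule.mul_induction_on hr ?_ ?_
    · intro a ha b hb
      rw [mltoD_mul]
      refine Ideal.add_mem _ (Ideal.add_mem _ ?_ ?_) ?_
      · refine Ideal.mem_sup_left ?_
        rw [pow_two]
        exact Ideal.mul_mem_mul (mltoD_mem x' a) (mltoD_mem x' b)
      · refine Ideal.mem_sup_right (Ideal.mul_mem_mul ?_ (mltoD_mem x' b))
        refine Ideal.mem_map_of_mem _ ?_
        exact mlto_map_pow_le x' (n + 1) (Ideal.mem_map_of_mem _ ha)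
      · -- `ι (x' b) * D a`, `D a ∈ 𝔞_n`, `x' b ∈ 𝔪_𝒪`
        have hb' : x' b ∈ maximalIdeal 𝒪 := by
          have := mlto_map_pow_le x' 1 (Ideal.mem_map_of_mem _ (by rwa [pow_one]))
          rwa [pow_one] at this
        have hDa := ih ha
        unfold mltoA at hDa ⊢
        obtain ⟨u, hu, v, hv, huv⟩ := Submodule.mem_sup.1 hDa
        rw [← huv, mul_add]
        refine Ideal.add_mem _ (Ideal.mem_sup_left (Ideal.mul_mem_left _ _ hu))
          (Ideal.mem_sup_right ?_)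
        rw [pow_succ', Ideal.map_mul, mul_assoc]
        exact Ideal.mul_mem_mul (Ideal.mem_map_of_mem _ hb') hv
    · intro a b ha hb
      rw [mltoD_add]
      exact Ideal.add_mem _ ha hb

/-- an element of `𝔪'^(n+1) ∩ 𝔭'` lies in `𝔞_n` -/
theorem mlto_mem_mltoA_of_mem_pow (n : ℕ) {y : R'} (hy : y ∈ maximalIdeal R' ^ (n + 1))
    (hy' : y ∈ RingHom.ker (x' : R' →+* 𝒪)) : y ∈ mltoA x' n := by
  rw [← mltoD_of_mem x' hy']
  exact mltoD_mem_mltoA x' n hy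

end Aug

section Cotangent

variable {𝒪 : Type*} [CommRing 𝒪] [IsLocalRing 𝒪]
variable {R' : Type*} [CommRing R'] [Algebra 𝒪 R']
variable (x' : R' →ₐ[𝒪] 𝒪)

/-- `R'` acts on the cotangent module of `ker x'` through `x'` -/
lemma mlto_smul_cotangent (r : R') (m : (RingHom.ker (x' : R' →+* 𝒪)).Cotangent) :
    r • m = x' r • m := by
  have h1 : mltoD x' r • m = 0 := Ideal.Cotangent.smul_eq_zero_of_mem (mltoD_mem x' r) m
  have h2 : r = mltoD x' r + algebraMap 𝒪 R' (x' r) := by unfold mltoD; ring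
  conv_lhs => rw [h2]
  rw [add_smul, h1, zero_add, algebraMap_smul]

/-- an `𝒪`-submodule of the cotangent module is an `R'`-submodule -/
def mltoSubR (W : Submodule 𝒪 (RingHom.ker (x' : R' →+* 𝒪)).Cotangent) :
    Submodule R' (RingHom.ker (x' : R' →+* 𝒪)).Cotangent where
  carrier := W
  add_mem' := W.add_mem
  zero_mem' := W.zero_mem
  smul_mem' := fun r m hm => by
    rw [mlto_smul_cotangent]
    exact W.smul_mem _ hm

/-- the ideal of the elements of `𝔭'` whose class lies in `W` -/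
def mltoIdealOf (W : Submodule 𝒪 (RingHom.ker (x' : R' →+* 𝒪)).Cotangent) : Ideal R' :=
  Submodule.map (RingHom.ker (x' : R' →+* 𝒪)).subtype
    (Submodule.comap (RingHom.ker (x' : R' →+* 𝒪)).toCotangent (mltoSubR x' W))

lemma mem_mltoIdealOf {W : Submodule 𝒪 (RingHom.ker (x' : R' →+* 𝒪)).Cotangent} {y : R'} :
    y ∈ mltoIdealOf x' W ↔ ∃ hy : y ∈ RingHom.ker (x' : R' →+* 𝒪),
      (RingHom.ker (x' : R' →+* 𝒪)).toCotangent ⟨y, hy⟩ ∈ W := by
  constructor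
  · rintro ⟨⟨y', hy'⟩, hmem, rfl⟩
    exact ⟨hy', hmem⟩
  · rintro ⟨hy, hmem⟩
    exact ⟨⟨y, hy⟩, hmem, rfl⟩

lemma mltoIdealOf_le (W : Submodule 𝒪 (RingHom.ker (x' : R' →+* 𝒪)).Cotangent) :
    mltoIdealOf x' W ≤ RingHom.ker (x' : R' →+* 𝒪) := by
  intro y hy
  obtain ⟨hy', -⟩ := (mem_mltoIdealOf x').1 hy
  exact hy'

lemma sq_le_mltoIdealOf (W : Submodule 𝒪 (RingHom.ker (x' : R' →+* 𝒪)).Cotangent) :
    RingHom.ker (x' : R' →+* 𝒪) ^ 2 ≤ mltoIdealOf x' W := by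
  intro y hy
  have hy' : y ∈ RingHom.ker (x' : R' →+* 𝒪) := Ideal.pow_le_self two_ne_zero hy
  refine (mem_mltoIdealOf x').2 ⟨hy', ?_⟩
  have : (RingHom.ker (x' : R' →+* 𝒪)).toCotangent ⟨y, hy'⟩ = 0 :=
    (Ideal.toCotangent_eq_zero _ _).2 hy
  rw [this]
  exact W.zero_mem

/-- **(link)** classes of elements of `𝔞_n` lie in `𝔪_𝒪^n Φ'` -/
theorem mltoA_le_mltoIdealOf (n : ℕ) :
    mltoA x' n ≤ mltoIdealOf x' ((maximalIdeal 𝒪 ^ n) •
      (⊤ : Submodule 𝒪 (RingHom.ker (x' : R' →+* 𝒪)).Cotangent)) := by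
  refine sup_le (sq_le_mltoIdealOf x' _) ?_
  rw [Ideal.mul_le]
  intro a ha b hb
  refine (mem_mltoIdealOf x').2 ⟨Ideal.mul_mem_left _ _ hb, ?_⟩
  have h1 : (RingHom.ker (x' : R' →+* 𝒪)).toCotangent ⟨a * b, Ideal.mul_mem_left _ _ hb⟩ =
      a • (RingHom.ker (x' : R' →+* 𝒪)).toCotangent ⟨b, hb⟩ := by
    rw [← map_smul]
    rfl
  rw [h1, mlto_smul_cotangent]
  refine Submodule.smul_mem_smul ?_ Submodule.mem_top
  -- `x' a ∈ 𝔪^n`
  have h2 : Ideal.map (x' : R' →+* 𝒪) (Ideal.map (algebraMap 𝒪 R') (maximalIdeal 𝒪 ^ n)) =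
      maximalIdeal 𝒪 ^ n := by
    rw [Ideal.map_map]
    have : (x' : R' →+* 𝒪).comp (algebraMap 𝒪 R') = RingHom.id 𝒪 := by
      ext c
      show x' (algebraMap 𝒪 R' c) = c
      rw [AlgHom.commutes]
      rfl
    rw [this, Ideal.map_id]
  rw [← h2]
  exact Ideal.mem_map_of_mem _ ha

/-- the class of an element of the ideal generated by `S ⊆ 𝔭'` lies in the `𝒪`-span of the classes
of the elements of `S` -/
theorem mlto_span_le_mltoIdealOf (S : Set R') (hS : ∀ s ∈ S, s ∈ RingHom.ker (x' : R' →+* 𝒪)) :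
    Ideal.span S ≤ mltoIdealOf x' (Submodule.span 𝒪
      ((RingHom.ker (x' : R' →+* 𝒪)).toCotangent '' {y | (y : R') ∈ S})) := by
  rw [Ideal.span_le]
  intro s hs
  refine (mem_mltoIdealOf x').2 ⟨hS s hs, Submodule.subset_span ⟨⟨s, hS s hs⟩, hs, rfl⟩⟩

/-- the cotangent module is finitely generated over `𝒪` -/
theorem mlto_cotangent_finite [IsNoetherianRing R'] :
    Module.Finite 𝒪 (RingHom.ker (x' : R' →+* 𝒪)).Cotangent := by
  haveI : Module.Finite R' (RingHom.ker (x' : R' →+* 𝒪)).Cotangent :=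
    Module.Finite.of_surjective (RingHom.ker (x' : R' →+* 𝒪)).toCotangent
      (Ideal.toCotangent_surjective _)
  obtain ⟨S, hS⟩ := (Module.finite_def (R := R')
    (M := (RingHom.ker (x' : R' →+* 𝒪)).Cotangent)).1 inferInstance
  refine ⟨⟨S, ?_⟩⟩
  rw [eq_top_iff]
  intro m _
  have hm : m ∈ Submodule.span R' (S : Set (RingHom.ker (x' : R' →+* 𝒪)).Cotangent) := by
    rw [hS]; trivial
  refine Submodule.span_induction ?_ ?_ ?_ ?_ hm
  · intro y hy
    exact Submodule.subset_span hy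
  · exact Submodule.zero_mem _
  · intro y z _ _ hy hz
    exact Submodule.add_mem _ hy hz
  · intro r y _ hy
    rw [mlto_smul_cotangent]
    exact Submodule.smul_mem _ _ hy

end Cotangent

section Growth

variable {𝒪 : Type*} [CommRing 𝒪] [IsDomain 𝒪] [IsDiscreteValuationRing 𝒪]
variable {R' R : Type*} [CommRing R'] [CommRing R] [Algebra 𝒪 R'] [Algebra 𝒪 R]

/-- the length of a DVR over itself is infinite -/
theorem mlto_length_dvr_eq_top : Module.length 𝒪 𝒪 = ⊤ := by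
  by_contra h
  rw [← Ne, Module.length_ne_top_iff, isFiniteLength_iff_isNoetherian_isArtinian] at h
  haveI : IsArtinianRing 𝒪 := h.2
  exact IsDiscreteValuationRing.not_isField 𝒪 (IsArtinianRing.isField_of_isDomain 𝒪)

theorem mlto_length_quot_span_zero :
    Module.length 𝒪 (𝒪 ⧸ Ideal.span {(0 : 𝒪)}) = ⊤ := by
  rw [Ideal.span_singleton_zero, (Submodule.quotEquivOfEqBot (⊥ : Ideal 𝒪) rfl).length_eq]
  exact mlto_length_dvr_eq_top

/-- the kernel of the map of cotangent modules induced by a surjection `π` is contained in the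
classes of the elements of any ideal containing `ker π` -/
theorem mlto_ker_mapCotangent_le (π : R' →ₐ[𝒪] R) (hπ : Function.Surjective π)
    (x : R →ₐ[𝒪] 𝒪) (J : Ideal R') (hJ : RingHom.ker (π : R' →+* R) ≤ J)
    (m : (RingHom.ker ((x.comp π : R' →ₐ[𝒪] 𝒪) : R' →+* 𝒪)).Cotangent)
    (hm : Ideal.mapCotangent (RingHom.ker ((x.comp π : R' →ₐ[𝒪] 𝒪) : R' →+* 𝒪))
      (RingHom.ker (x : R →+* 𝒪)) π (fun _ hr => hr) m = 0) :
    ∃ z : R', ∃ hz : z ∈ RingHom.ker ((x.comp π : R' →ₐ[𝒪] 𝒪) : R' →+* 𝒪), z ∈ J ∧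
      m = (RingHom.ker ((x.comp π : R' →ₐ[𝒪] 𝒪) : R' →+* 𝒪)).toCotangent ⟨z, hz⟩ := by
  obtain ⟨⟨y, hy⟩, rfl⟩ := Ideal.toCotangent_surjective _ m
  rw [Ideal.mapCotangent_toCotangent, Ideal.toCotangent_eq_zero] at hm
  -- `π y ∈ 𝔭² = π (𝔭'²)`
  have hmap : Ideal.map (π : R' →+* R) (RingHom.ker ((x.comp π : R' →ₐ[𝒪] 𝒪) : R' →+* 𝒪)) =
      RingHom.ker (x : R →+* 𝒪) := by
    apply le_antisymm
    · rw [Ideal.map_le_iff_le_comap]
      intro r hr
      exact hr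
    · intro r hr
      obtain ⟨r', rfl⟩ := hπ r
      exact Ideal.mem_map_of_mem _ hr
  have h2 : π y ∈ Ideal.map (π : R' →+* R)
      (RingHom.ker ((x.comp π : R' →ₐ[𝒪] 𝒪) : R' →+* 𝒪) ^ 2) := by
    rw [Ideal.map_pow, hmap]
    exact hm
  obtain ⟨u, hu, hu'⟩ := (Ideal.mem_map_iff_of_surjective (π : R' →+* R) hπ).1 h2
  have hu2 : u ∈ RingHom.ker ((x.comp π : R' →ₐ[𝒪] 𝒪) : R' →+* 𝒪) :=
    Ideal.pow_le_self two_ne_zero hu
  refine ⟨y - u, Ideal.sub_mem _ hy hu2, hJ ?_, ?_⟩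
  · rw [RingHom.mem_ker]
    show π (y - u) = 0
    rw [map_sub, sub_eq_zero]
    exact hu'.symm
  · rw [Ideal.toCotangent_eq]
    show y - (y - u) ∈ _
    rw [sub_sub_cancel]
    exact hu

omit [IsDomain 𝒪] [IsDiscreteValuationRing 𝒪] in
lemma mltoIdealOf_mono [IsLocalRing 𝒪] (x' : R' →ₐ[𝒪] 𝒪)
    {W₁ W₂ : Submodule 𝒪 (RingHom.ker (x' : R' →+* 𝒪)).Cotangent} (h : W₁ ≤ W₂) :
    mltoIdealOf x' W₁ ≤ mltoIdealOf x' W₂ := by
  intro y hy
  obtain ⟨hy', hmem⟩ := (mem_mltoIdealOf x').1 hy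
  exact (mem_mltoIdealOf x').2 ⟨hy', h hmem⟩

/-- **The growth bound, commutative algebra part.** -/
theorem mlto_cot_growth [IsNoetherianRing R'] (π : R' →ₐ[𝒪] R) (hπ : Function.Surjective π)
    (x : R →ₐ[𝒪] 𝒪) (S : Set R') (hS : RingHom.ker (π : R' →+* R) ≤ Ideal.span S)
    (T : Matrix (Fin 3) (Fin 3) 𝒪)
    (h : ∀ n : ℕ, ∃ v : Fin 3 → R',
      (∀ j, v j ∈ RingHom.ker ((x.comp π : R' →ₐ[𝒪] 𝒪) : R' →+* 𝒪)) ∧
      (∀ s ∈ S, s ∈ mltoA (x.comp π) n ⊔ Ideal.span (Set.range v)) ∧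
      (∀ i, ∑ j, algebraMap 𝒪 R' (T i j) * v j ∈ mltoA (x.comp π) n)) :
    Module.length 𝒪 (RingHom.ker ((x.comp π : R' →ₐ[𝒪] 𝒪) : R' →+* 𝒪)).Cotangent ≤
      Module.length 𝒪 (RingHom.ker (x : R →+* 𝒪)).Cotangent +
        Module.length 𝒪 (𝒪 ⧸ Ideal.span {T.det}) := by
  classical
  by_cases hT : T.det = 0
  · rw [hT, mlto_length_quot_span_zero, add_top]
    exact le_top
  set x' : R' →ₐ[𝒪] 𝒪 := x.comp π with hx'
  by_cases hB : Module.length 𝒪 (RingHom.ker (x : R →+* 𝒪)).Cotangent +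
      Module.length 𝒪 (𝒪 ⧸ Ideal.span {T.det}) = ⊤
  · rw [hB]
    exact le_top
  obtain ⟨b, hb⟩ := ENat.ne_top_iff_exists.1 hB
  rw [← hb]
  haveI := mlto_cotangent_finite x'
  refine mlto_length_le_of_forall_quot (maximalIdeal 𝒪)
    (by rw [IsLocalRing.jacobson_eq_maximalIdeal ⊥ bot_ne_top]) b ?_
  intro n
  rw [hb]
  obtain ⟨v, hv, hSv, hrel⟩ := h n
  set W : Submodule 𝒪 (RingHom.ker (x' : R' →+* 𝒪)).Cotangent :=
    (maximalIdeal 𝒪 ^ n) • ⊤ with hW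
  set WΦ : Submodule 𝒪 (RingHom.ker (x : R →+* 𝒪)).Cotangent :=
    (maximalIdeal 𝒪 ^ n) • ⊤ with hWΦ
  let y : Fin 3 → (RingHom.ker (x' : R' →+* 𝒪)).Cotangent ⧸ W := fun j =>
    W.mkQ ((RingHom.ker (x' : R' →+* 𝒪)).toCotangent ⟨v j, hv j⟩)
  set K : Submodule 𝒪 ((RingHom.ker (x' : R' →+* 𝒪)).Cotangent ⧸ W) :=
    Submodule.span 𝒪 (Set.range y) with hK
  -- the relations
  have hrel' : ∀ i, ∑ j, T i j • y j = 0 := by
    intro i
    obtain ⟨hy, hmem⟩ := (mem_mltoIdealOf x').1 (mltoA_le_mltoIdealOf x' n (hrel i))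
    have h1 : (⟨∑ j, algebraMap 𝒪 R' (T i j) * v j, hy⟩ : RingHom.ker (x' : R' →+* 𝒪)) =
        ∑ j, T i j • (⟨v j, hv j⟩ : RingHom.ker (x' : R' →+* 𝒪)) := by
      apply Subtype.ext
      simp only [Submodule.coe_sum, Submodule.coe_smul_of_tower, Algebra.smul_def]
    rw [h1, map_sum] at hmem
    have h2 : W.mkQ (∑ j, (RingHom.ker (x' : R' →+* 𝒪)).toCotangent
        (T i j • (⟨v j, hv j⟩ : RingHom.ker (x' : R' →+* 𝒪)))) = 0 := by
      rw [Submodule.mkQ_apply, Submodule.Quotient.mk_eq_zero]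
      exact hmem
    rw [map_sum] at h2
    rw [← h2]
    refine Finset.sum_congr rfl fun j _ => ?_
    rw [LinearMap.map_smul_of_tower, map_smul]
  have hKlen : Module.length 𝒪 K ≤ Module.length 𝒪 (𝒪 ⧸ Ideal.span {T.det}) :=
    mlto_length_span_le T hT y hrel'
  -- the map of cotangent modules
  let mc : (RingHom.ker (x' : R' →+* 𝒪)).Cotangent →ₗ[𝒪] (RingHom.ker (x : R →+* 𝒪)).Cotangent :=
    Ideal.mapCotangent (RingHom.ker (x' : R' →+* 𝒪)) (RingHom.ker (x : R →+* 𝒪)) π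
      (fun _ hr => hr)
  have hmc : Function.Surjective mc := by
    intro m
    obtain ⟨⟨z, hz⟩, rfl⟩ := Ideal.toCotangent_surjective _ m
    obtain ⟨z', rfl⟩ := hπ z
    exact ⟨(RingHom.ker (x' : R' →+* 𝒪)).toCotangent ⟨z', hz⟩,
      Ideal.mapCotangent_toCotangent _ _ _ _ _⟩
  have hmapW : Submodule.map mc W = WΦ := by
    rw [hW, hWΦ, Submodule.map_smul'', Submodule.map_top, LinearMap.range_eq_top.2 hmc]
  have hWle : W ≤ Submodule.comap mc WΦ := by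
    rw [← Submodule.map_le_iff_le_comap, hmapW]
  let g : ((RingHom.ker (x' : R' →+* 𝒪)).Cotangent ⧸ W) →ₗ[𝒪]
      ((RingHom.ker (x : R →+* 𝒪)).Cotangent ⧸ WΦ) := Submodule.mapQ W WΦ mc hWle
  have hg : Function.Surjective g := by
    intro m
    obtain ⟨m, rfl⟩ := Submodule.Quotient.mk_surjective _ m
    obtain ⟨m', rfl⟩ := hmc m
    exact ⟨Submodule.Quotient.mk m', rfl⟩
  -- the ideal of the elements whose class lies in `K`
  have hSK : Ideal.span S ≤ mltoIdealOf x' (Submodule.comap W.mkQ K) := by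
    rw [Ideal.span_le]
    intro s hs
    have hWK : W ≤ Submodule.comap W.mkQ K := by
      intro m hm
      rw [Submodule.mem_comap, Submodule.mkQ_apply, (Submodule.Quotient.mk_eq_zero W).2 hm]
      exact K.zero_mem
    have h1 : mltoA x' n ≤ mltoIdealOf x' (Submodule.comap W.mkQ K) :=
      le_trans (mltoA_le_mltoIdealOf x' n) (mltoIdealOf_mono x' hWK)
    have h2 : Ideal.span (Set.range v) ≤ mltoIdealOf x' (Submodule.comap W.mkQ K) := by
      rw [Ideal.span_le]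
      rintro _ ⟨j, rfl⟩
      refine (mem_mltoIdealOf x').2 ⟨hv j, ?_⟩
      rw [Submodule.mem_comap]
      exact Submodule.subset_span ⟨j, rfl⟩
    exact (sup_le h1 h2) (hSv s hs)
  have hker : LinearMap.ker g ≤ K := by
    intro w hw
    obtain ⟨m, rfl⟩ := Submodule.Quotient.mk_surjective _ w
    rw [LinearMap.mem_ker] at hw
    have h1 : mc m ∈ WΦ := by
      have : g (Submodule.Quotient.mk m) = Submodule.Quotient.mk (mc m) := rfl
      rw [this, Submodule.Quotient.mk_eq_zero] at hw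
      exact hw
    rw [← hmapW] at h1
    obtain ⟨m', hm', hm'eq⟩ := h1
    have h2 : mc (m - m') = 0 := by rw [map_sub, hm'eq, sub_self]
    obtain ⟨z, hz, hzS, hzeq⟩ := mlto_ker_mapCotangent_le π hπ x (Ideal.span S) hS (m - m') h2
    obtain ⟨hz', hzK⟩ := (mem_mltoIdealOf x').1 (hSK hzS)
    rw [Submodule.mem_comap] at hzK
    have h3 : (Submodule.Quotient.mk m : (RingHom.ker (x' : R' →+* 𝒪)).Cotangent ⧸ W) =
        W.mkQ (m - m') := by
      rw [Submodule.mkQ_apply, eq_comm, Submodule.Quotient.eq]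
      rw [sub_sub_cancel_left]
      exact W.neg_mem hm'
    rw [h3, hzeq]
    exact hzK
  -- lengths
  have hlen := Module.length_eq_add_of_exact (LinearMap.ker g).subtype g
    (Submodule.subtype_injective _) hg (LinearMap.exact_subtype_ker_map g)
  rw [hlen]
  have h1 : Module.length 𝒪 (LinearMap.ker g) ≤ Module.length 𝒪 K :=
    Module.length_le_of_injective (Submodule.inclusion hker) (Submodule.inclusion_injective hker)
  have h2 : Module.length 𝒪 ((RingHom.ker (x : R →+* 𝒪)).Cotangent ⧸ WΦ) ≤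
      Module.length 𝒪 (RingHom.ker (x : R →+* 𝒪)).Cotangent :=
    Module.length_le_of_surjective WΦ.mkQ (Submodule.mkQ_surjective _)
  calc Module.length 𝒪 (LinearMap.ker g) +
        Module.length 𝒪 ((RingHom.ker (x : R →+* 𝒪)).Cotangent ⧸ WΦ)
      ≤ Module.length 𝒪 (𝒪 ⧸ Ideal.span {T.det}) +
        Module.length 𝒪 (RingHom.ker (x : R →+* 𝒪)).Cotangent :=
        add_le_add (le_trans h1 hKlen) h2
    _ = _ := add_comm _ _

end Growth

end Fermat.Agent.MLT
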