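/-
Project MLT, stream TWO (helper7): matrices congruent to `1` modulo an ideal, congruence subgroups
of a matrix representation, and the relations satisfied by `n = r t - 1` when
`φ t φ⁻¹ ≡ t^q` (tame inertia):  `mlto_mem_cong_of_pow` (Claim A), `mlto_adj_rel`,
`mlto_adj_rel_replace`, `mlto_trace_mem`, `mlto_entries_rel` (Claim B), `mltoT_det`.
-/
import Mathlib

set_option autoImplicit false
set_option linter.unusedSectionVars false
set_option linter.style.haveILetI false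

namespace Fermat.Agent.MLT

open Matrix

section MatIn

variable {A : Type*} [CommRing A]

/-- all entries of the matrix lie in the ideal -/
def MltoMatIn (J : Ideal A) (X : Matrix (Fin 2) (Fin 2) A) : Prop := ∀ i j, X i j ∈ J

namespace MltoMatIn

variable {J J' : Ideal A} {X Y : Matrix (Fin 2) (Fin 2) A}

lemma zero : MltoMatIn J (0 : Matrix (Fin 2) (Fin 2) A) := fun _ _ => J.zero_mem

lemma add (hX : MltoMatIn J X) (hY : MltoMatIn J Y) : MltoMatIn J (X + Y) :=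
  fun i j => J.add_mem (hX i j) (hY i j)

lemma sub (hX : MltoMatIn J X) (hY : MltoMatIn J Y) : MltoMatIn J (X - Y) :=
  fun i j => J.sub_mem (hX i j) (hY i j)

lemma neg (hX : MltoMatIn J X) : MltoMatIn J (-X) :=
  fun i j => J.neg_mem (hX i j)

lemma smul (c : A) (hX : MltoMatIn J X) : MltoMatIn J (c • X) :=
  fun i j => J.mul_mem_left c (hX i j)

lemma mono (h : J ≤ J') (hX : MltoMatIn J X) : MltoMatIn J' X := fun i j => h (hX i j)

lemma mul_left (Y : Matrix (Fin 2) (Fin 2) A) (hX : MltoMatIn J X) : MltoMatIn J (Y * X) := by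
  intro i j
  rw [Matrix.mul_apply]
  exact J.sum_mem fun k _ => J.mul_mem_left _ (hX k j)

lemma mul_right (Y : Matrix (Fin 2) (Fin 2) A) (hX : MltoMatIn J X) : MltoMatIn J (X * Y) := by
  intro i j
  rw [Matrix.mul_apply]
  exact J.sum_mem fun k _ => J.mul_mem_right _ (hX i k)

lemma mul (hX : MltoMatIn J X) (hY : MltoMatIn J' Y) : MltoMatIn (J * J') (X * Y) := by
  intro i j
  rw [Matrix.mul_apply]
  exact (J * J').sum_mem fun k _ => Ideal.mul_mem_mul (hX i k) (hY k j)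

lemma sq (hX : MltoMatIn J X) (hY : MltoMatIn J Y) : MltoMatIn (J ^ 2) (X * Y) := by
  rw [pow_two]
  exact hX.mul hY

lemma adjugate (hX : MltoMatIn J X) : MltoMatIn J (Matrix.adjugate X) := by
  rw [Matrix.adjugate_fin_two]
  intro i j
  fin_cases i <;> fin_cases j
  · exact hX 1 1
  · exact J.neg_mem (hX 0 1)
  · exact J.neg_mem (hX 1 0)
  · exact hX 0 0

/-- cancel a unit scalar -/
lemma of_smul {c : A} (hc : IsUnit c) (hX : MltoMatIn J (c • X)) : MltoMatIn J X := by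
  obtain ⟨u, rfl⟩ := hc
  have : X = (↑u⁻¹ : A) • ((u : A) • X) := by
    rw [smul_smul, Units.inv_mul, one_smul]
  rw [this]
  exact hX.smul _

end MltoMatIn

/-- `(1 + n)^k ≡ 1 + k n` modulo `J²` if `n ≡ 0` modulo `J` -/
theorem mlto_pow_sub {J : Ideal A} {n : Matrix (Fin 2) (Fin 2) A} (hn : MltoMatIn J n) (k : ℕ) :
    MltoMatIn (J ^ 2) ((1 + n) ^ k - 1 - (k : A) • n) := by
  induction k with
  | zero =>
    rw [pow_zero, sub_self, Nat.cast_zero, zero_smul, sub_zero]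
    exact MltoMatIn.zero
  | succ k ih =>
    have h1 : (1 + n) ^ (k + 1) - 1 - ((k + 1 : ℕ) : A) • n =
        ((1 + n) ^ k - 1 - (k : A) • n) * (1 + n) + (k : A) • (n * n) := by
      rw [pow_succ, Nat.cast_succ, add_smul, one_smul]
      simp only [sub_mul, mul_add, mul_one, one_mul, smul_mul_assoc]
      abel
    rw [h1]
    exact (ih.mul_right _).add ((hn.sq hn).smul _)

end MatIn

section Group

variable {A : Type*} [CommRing A] {G : Type*} [Group G] (r : G →* Matrix (Fin 2) (Fin 2) A)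

/-- the congruence subgroup `{σ | r σ ≡ 1 mod J}` -/
def mltoCong (J : Ideal A) : Subgroup G where
  carrier := {σ | MltoMatIn J (r σ - 1)}
  one_mem' := by
    show MltoMatIn J (r 1 - 1)
    rw [map_one, sub_self]
    exact MltoMatIn.zero
  mul_mem' := by
    intro σ τ hσ hτ
    show MltoMatIn J (r (σ * τ) - 1)
    have : r (σ * τ) - 1 = (r σ - 1) * r τ + (r τ - 1) := by
      rw [map_mul, sub_mul, one_mul]
      abel
    rw [this]
    exact (MltoMatIn.mul_right _ hσ).add hτ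
  inv_mem' := by
    intro σ hσ
    show MltoMatIn J (r σ⁻¹ - 1)
    have h1 : r σ⁻¹ * r σ = 1 := by rw [← map_mul, inv_mul_cancel, map_one]
    have : r σ⁻¹ - 1 = -(r σ⁻¹ * (r σ - 1)) := by
      rw [mul_sub, h1, mul_one]
      abel
    rw [this]
    exact (MltoMatIn.mul_left _ hσ).neg

lemma mem_mltoCong {J : Ideal A} {σ : G} : σ ∈ mltoCong r J ↔ MltoMatIn J (r σ - 1) := Iff.rfl

lemma mltoCong_mono {J J' : Ideal A} (h : J ≤ J') : mltoCong r J ≤ mltoCong r J' :=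
  fun _ hσ => MltoMatIn.mono h hσ

/-- **Claim A.** If `u ≡ 1 mod 𝔭`, `u^N ≡ 1 mod 𝔞` with `N` a unit and `𝔭² ≤ 𝔞`, then
`u ≡ 1 mod 𝔞`. -/
theorem mlto_mem_cong_of_pow {𝔭 𝔞 : Ideal A} (h𝔭𝔞 : 𝔭 ^ 2 ≤ 𝔞) {u : G} (hu : u ∈ mltoCong r 𝔭)
    {N : ℕ} (hN : IsUnit (N : A)) (huN : u ^ N ∈ mltoCong r 𝔞) : u ∈ mltoCong r 𝔞 := by
  rw [mem_mltoCong] at hu huN ⊢
  set n := r u - 1 with hn
  have h1 : r (u ^ N) = (1 + n) ^ N := by
    rw [map_pow, hn, add_sub_cancel]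
  have h2 := mlto_pow_sub hu N
  rw [← h1] at h2
  have h3 : (N : A) • n = (r (u ^ N) - 1) - (r (u ^ N) - 1 - (N : A) • n) := by abel
  refine MltoMatIn.of_smul hN ?_
  rw [h3]
  exact huN.sub (h2.mono h𝔭𝔞)

/-- **Claim B, part 1.** If `φ t = w t^q φ`, `t ≡ 1 mod 𝔭`, `w ≡ 1 mod 𝔞`, `𝔭² ≤ 𝔞`, then
`G n ≡ q n G mod 𝔞` for `G = r φ`, `n = r t - 1`. -/
theorem mlto_comm_rel {𝔭 𝔞 : Ideal A} (h𝔭𝔞 : 𝔭 ^ 2 ≤ 𝔞) {t φ w : G} (q : ℕ)
    (hrel : φ * t = w * t ^ q * φ) (ht : t ∈ mltoCong r 𝔭) (hw : w ∈ mltoCong r 𝔞) :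
    MltoMatIn 𝔞 (r φ * (r t - 1) - (q : A) • ((r t - 1) * r φ)) := by
  rw [mem_mltoCong] at ht hw
  set n := r t - 1 with hn
  set m := r w - 1 with hm
  set ε := (1 + n) ^ q - 1 - (q : A) • n with hε
  have hεmem : MltoMatIn 𝔞 ε := (mlto_pow_sub ht q).mono h𝔭𝔞
  have h1 : r t = 1 + n := by rw [hn, add_sub_cancel]
  have h2 : r w = 1 + m := by rw [hm, add_sub_cancel]
  have h3 : (1 + n) ^ q = 1 + (q : A) • n + ε := by rw [hε]; abel
  have h4 : r φ * (1 + n) = (1 + m) * (1 + (q : A) • n + ε) * r φ := by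
    calc r φ * (1 + n) = r (φ * t) := by rw [map_mul, h1]
      _ = r w * (r t) ^ q * r φ := by rw [hrel, map_mul, map_mul, map_pow]
      _ = (1 + m) * (1 + (q : A) • n + ε) * r φ := by rw [h2, h1, h3]
  have h5 : r φ * n - (q : A) • (n * r φ) =
      ε * r φ + m * ((1 + (q : A) • n + ε) * r φ) := by
    have h6 : r φ * n = r φ * (1 + n) - r φ := by rw [mul_add, mul_one]; abel
    rw [h6, h4]
    simp only [add_mul, one_mul, mul_add, mul_one, Matrix.smul_mul, Matrix.mul_smul, mul_assoc]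
    abel
  rw [h5]
  exact (hεmem.mul_right _).add (hw.mul_right _)

/-- **Claim B, part 2.** `G n adj(G) ≡ q² n mod 𝔞` if moreover `det G = q`. -/
theorem mlto_adj_rel {𝔭 𝔞 : Ideal A} (h𝔭𝔞 : 𝔭 ^ 2 ≤ 𝔞) {t φ w : G} (q : ℕ)
    (hrel : φ * t = w * t ^ q * φ) (ht : t ∈ mltoCong r 𝔭) (hw : w ∈ mltoCong r 𝔞)
    (hdet : (r φ).det = (q : A)) :
    MltoMatIn 𝔞 (r φ * (r t - 1) * Matrix.adjugate (r φ) - ((q : A) ^ 2) • (r t - 1)) := by
  have h1 := (mlto_comm_rel r h𝔭𝔞 q hrel ht hw).mul_right (Matrix.adjugate (r φ))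
  have h2 : (r φ * (r t - 1) - (q : A) • ((r t - 1) * r φ)) * Matrix.adjugate (r φ) =
      r φ * (r t - 1) * Matrix.adjugate (r φ) - ((q : A) ^ 2) • (r t - 1) := by
    rw [sub_mul, smul_mul_assoc, mul_assoc (r t - 1), Matrix.mul_adjugate, hdet,
      Matrix.mul_smul, mul_one, smul_smul, pow_two]
  rwa [h2] at h1

end Group

section Entries

variable {A : Type*} [CommRing A]

/-- replace `G` by a matrix `B ≡ G mod 𝔭` -/
theorem mlto_adj_rel_replace {𝔭 𝔞 : Ideal A} (h𝔭𝔞 : 𝔭 ^ 2 ≤ 𝔞)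
    {G₀ B n : Matrix (Fin 2) (Fin 2) A} (c : A)
    (hn : MltoMatIn 𝔭 n) (hGB : MltoMatIn 𝔭 (G₀ - B))
    (h : MltoMatIn 𝔞 (G₀ * n * Matrix.adjugate G₀ - c • n)) :
    MltoMatIn 𝔞 (B * n * Matrix.adjugate B - c • n) := by
  set E := G₀ - B with hE
  have hG : G₀ = B + E := by rw [hE]; abel
  have hadj : Matrix.adjugate G₀ = Matrix.adjugate B + Matrix.adjugate E := by
    rw [hG, Matrix.adjugate_fin_two, Matrix.adjugate_fin_two, Matrix.adjugate_fin_two]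
    ext i j
    fin_cases i <;> fin_cases j <;> simp <;> ring
  have h1 : B * n * Matrix.adjugate B - c • n =
      (G₀ * n * Matrix.adjugate G₀ - c • n) -
        (B * n * Matrix.adjugate E + E * n * Matrix.adjugate G₀) := by
    rw [hadj, hG]
    simp only [add_mul, mul_add]
    abel
  rw [h1]
  refine h.sub (MltoMatIn.mono h𝔭𝔞 ?_)
  refine MltoMatIn.add ?_ ?_
  · rw [mul_assoc]
    exact MltoMatIn.mul_left _ (hn.sq hGB.adjugate)
  · exact MltoMatIn.mul_right _ (hGB.sq hn)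

/-- the trace relation: `det (1 + n) = 1` and `n ≡ 0 mod 𝔭` give `n 0 0 + n 1 1 ∈ 𝔭²` -/
theorem mlto_trace_mem {𝔭 : Ideal A} {n : Matrix (Fin 2) (Fin 2) A} (hn : MltoMatIn 𝔭 n)
    (hdet : (1 + n).det = 1) : n 0 0 + n 1 1 ∈ 𝔭 ^ 2 := by
  rw [Matrix.det_fin_two] at hdet
  simp only [Matrix.add_apply, Matrix.one_apply_eq, Matrix.one_apply_ne, ne_eq, one_ne_zero,
    not_false_eq_true, zero_ne_one, zero_add] at hdet
  have h1 : n 0 0 + n 1 1 = -(n 0 0 * n 1 1 - n 0 1 * n 1 0) := by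
    linear_combination hdet
  rw [h1, pow_two]
  exact Submodule.neg_mem _ (Ideal.sub_mem _ (Ideal.mul_mem_mul (hn 0 0) (hn 1 1))
    (Ideal.mul_mem_mul (hn 0 1) (hn 1 0)))

/-- the matrix of `X ↦ A₀ X adj(A₀) - q² X` on `sl₂` in the basis `(e, h, f)` -/
def mltoT {𝒪 : Type*} [CommRing 𝒪] (A₀ : Matrix (Fin 2) (Fin 2) 𝒪) (q : 𝒪) :
    Matrix (Fin 3) (Fin 3) 𝒪 :=
  !![A₀ 0 0 ^ 2 - q ^ 2, -(2 * A₀ 0 0 * A₀ 0 1), -(A₀ 0 1 ^ 2);
     -(A₀ 0 0 * A₀ 1 0), A₀ 0 0 * A₀ 1 1 + A₀ 0 1 * A₀ 1 0 - q ^ 2, A₀ 0 1 * A₀ 1 1;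
     -(A₀ 1 0 ^ 2), 2 * A₀ 1 0 * A₀ 1 1, A₀ 1 1 ^ 2 - q ^ 2]

theorem mltoT_det {𝒪 : Type*} [CommRing 𝒪] (A₀ : Matrix (Fin 2) (Fin 2) 𝒪) (q : 𝒪)
    (hdet : A₀.det = q) :
    (mltoT A₀ q).det = -(q ^ 3 * ((q - 1) * ((q + 1) ^ 2 - (A₀ 0 0 + A₀ 1 1) ^ 2))) := by
  rw [Matrix.det_fin_two] at hdet
  subst hdet
  rw [Matrix.det_fin_three]
  simp only [mltoT, Matrix.of_apply, Matrix.cons_val', Matrix.cons_val_zero, Matrix.cons_val_one,
    Matrix.cons_val_two, Matrix.empty_val', Matrix.cons_val_fin_one, Matrix.head_cons,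
    Matrix.tail_cons, Matrix.head_fin_const]
  ring

/-- **Claim B, part 3**: the three relations. -/
theorem mlto_entries_rel {𝒪 : Type*} [CommRing 𝒪] [Algebra 𝒪 A] {𝔭 𝔞 : Ideal A}
    (h𝔭𝔞 : 𝔭 ^ 2 ≤ 𝔞) (A₀ : Matrix (Fin 2) (Fin 2) 𝒪) (q : 𝒪)
    (n : Matrix (Fin 2) (Fin 2) A) (htr : n 0 0 + n 1 1 ∈ 𝔭 ^ 2)
    (h : MltoMatIn 𝔞 (A₀.map (algebraMap 𝒪 A) * n * Matrix.adjugate (A₀.map (algebraMap 𝒪 A)) -
      (algebraMap 𝒪 A q ^ 2) • n)) :
    ∀ i, ∑ j, algebraMap 𝒪 A (mltoT A₀ q i j) * ![n 0 1, n 0 0, n 1 0] j ∈ 𝔞 := by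
  have htr' := h𝔭𝔞 htr
  intro i
  fin_cases i
  · have key : ∑ j, algebraMap 𝒪 A (mltoT A₀ q 0 j) * ![n 0 1, n 0 0, n 1 0] j =
        (A₀.map (algebraMap 𝒪 A) * n * Matrix.adjugate (A₀.map (algebraMap 𝒪 A)) -
          (algebraMap 𝒪 A q ^ 2) • n) 0 1 -
          algebraMap 𝒪 A (A₀ 0 0) * algebraMap 𝒪 A (A₀ 0 1) * (n 0 0 + n 1 1) := by
      rw [Fin.sum_univ_three, Matrix.adjugate_fin_two]
      simp [mltoT, Matrix.mul_apply, Fin.sum_univ_two, map_ofNat]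
      ring
    show ∑ j, algebraMap 𝒪 A (mltoT A₀ q 0 j) * ![n 0 1, n 0 0, n 1 0] j ∈ 𝔞
    rw [key]
    exact 𝔞.sub_mem (h 0 1) (𝔞.mul_mem_left _ htr')
  · have key : ∑ j, algebraMap 𝒪 A (mltoT A₀ q 1 j) * ![n 0 1, n 0 0, n 1 0] j =
        (A₀.map (algebraMap 𝒪 A) * n * Matrix.adjugate (A₀.map (algebraMap 𝒪 A)) -
          (algebraMap 𝒪 A q ^ 2) • n) 0 0 +
          algebraMap 𝒪 A (A₀ 0 1) * algebraMap 𝒪 A (A₀ 1 0) * (n 0 0 + n 1 1) := by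
      rw [Fin.sum_univ_three, Matrix.adjugate_fin_two]
      simp [mltoT, Matrix.mul_apply, Fin.sum_univ_two, map_ofNat]
      ring
    show ∑ j, algebraMap 𝒪 A (mltoT A₀ q 1 j) * ![n 0 1, n 0 0, n 1 0] j ∈ 𝔞
    rw [key]
    exact 𝔞.add_mem (h 0 0) (𝔞.mul_mem_left _ htr')
  · have key : ∑ j, algebraMap 𝒪 A (mltoT A₀ q 2 j) * ![n 0 1, n 0 0, n 1 0] j =
        (A₀.map (algebraMap 𝒪 A) * n * Matrix.adjugate (A₀.map (algebraMap 𝒪 A)) -
          (algebraMap 𝒪 A q ^ 2) • n) 1 0 +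
          algebraMap 𝒪 A (A₀ 1 0) * algebraMap 𝒪 A (A₀ 1 1) * (n 0 0 + n 1 1) := by
      rw [Fin.sum_univ_three, Matrix.adjugate_fin_two]
      simp [mltoT, Matrix.mul_apply, Fin.sum_univ_two, map_ofNat]
      ring
    show ∑ j, algebraMap 𝒪 A (mltoT A₀ q 2 j) * ![n 0 1, n 0 0, n 1 0] j ∈ 𝔞
    rw [key]
    exact 𝔞.add_mem (h 1 0) (𝔞.mul_mem_left _ htr')

end Entries

end Fermat.Agent.MLT
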