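/-
Project MLT, stream TWO (helper7): the group-theoretic part of the growth bound (a).

Abstract setting: `r : G →* M₂(A)`, ideals `𝔭² ≤ 𝔞 ≤ 𝔭`, a subgroup `I ≤ Cong 𝔭` ("inertia at `q`"),
a subgroup `F` ("the fixing subgroup of a finite level") with `I ∩ F ≤ Cong 𝔞`, `q` a unit of `A`,
and `t ∈ I` a generator of tame inertia modulo `F`.  Then `I ≤ Cong (𝔞 + (entries of r t - 1))`, and
the Frobenius relation `φ t φ⁻¹ = w t^q` gives three linear relations on the entries of `r t - 1`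
modulo `𝔞`.
-/
import Mathlib
import Fermat.Agent.Lib.MLT.TWO.MatIdeal

set_option autoImplicit false
set_option linter.unusedSectionVars false

namespace Fermat.Agent.MLT

section

variable {A : Type*} [CommRing A] {G : Type*} [Group G] (r : G →* Matrix (Fin 2) (Fin 2) A)

/-- three of the entries of `r t - 1` (coordinates `e, h, f` of its trace-free part) -/
def mltoV (t : G) : Fin 3 → A := ![(r t - 1) 0 1, (r t - 1) 0 0, (r t - 1) 1 0]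

theorem mlto_pow_cong {𝔭 𝔞 : Ideal A} (h𝔭𝔞 : 𝔭 ^ 2 ≤ 𝔞) (I F : Subgroup G)
    (hI : I ≤ mltoCong r 𝔭) (hIF : ∀ σ ∈ I, σ ∈ F → σ ∈ mltoCong r 𝔞)
    (q : ℕ) (hqu : IsUnit (q : A)) {w : G} (hw : w ∈ I) {a : ℕ} (hwa : w ^ (q ^ a) ∈ F) :
    w ∈ mltoCong r 𝔞 := by
  refine mlto_mem_cong_of_pow r h𝔭𝔞 (hI hw) (N := q ^ a) ?_ (hIF _ (Subgroup.pow_mem _ hw _) hwa)
  rw [Nat.cast_pow]
  exact hqu.pow a

theorem mlto_trace_mem' {𝔭 : Ideal A} {t : G} (ht : t ∈ mltoCong r 𝔭) (hdet : (r t).det = 1) :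
    (r t - 1) 0 0 + (r t - 1) 1 1 ∈ 𝔭 ^ 2 := by
  refine mlto_trace_mem ht ?_
  rw [add_sub_cancel, hdet]

theorem mlto_t_cong {𝔭 𝔞 : Ideal A} (h𝔭𝔞 : 𝔭 ^ 2 ≤ 𝔞) {t : G} (ht : t ∈ mltoCong r 𝔭)
    (hdet : (r t).det = 1) :
    t ∈ mltoCong r (𝔞 ⊔ Ideal.span (Set.range (mltoV r t))) := by
  rw [mem_mltoCong]
  have htr := mlto_trace_mem' r ht hdet
  have hv : ∀ j, mltoV r t j ∈ 𝔞 ⊔ Ideal.span (Set.range (mltoV r t)) := fun j =>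
    Ideal.mem_sup_right (Ideal.subset_span ⟨j, rfl⟩)
  intro i j
  fin_cases i <;> fin_cases j
  · exact hv 1
  · exact hv 0
  · exact hv 2
  · have h1 : (r t - 1) 1 1 = ((r t - 1) 0 0 + (r t - 1) 1 1) - (r t - 1) 0 0 := by ring
    show (r t - 1) 1 1 ∈ _
    rw [h1]
    exact Ideal.sub_mem _ (Ideal.mem_sup_left (h𝔭𝔞 htr)) (hv 1)

/-- **all of inertia is congruent to `1` modulo `𝔞 + (entries of r t - 1)`** -/
theorem mlto_inertia_cong {𝔭 𝔞 : Ideal A} (h𝔭𝔞 : 𝔭 ^ 2 ≤ 𝔞) (I F : Subgroup G)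
    (hI : I ≤ mltoCong r 𝔭) (hIF : ∀ σ ∈ I, σ ∈ F → σ ∈ mltoCong r 𝔞)
    (q : ℕ) (hqu : IsUnit (q : A)) {t : G} (ht : t ∈ I) (hdet : (r t).det = 1)
    (hstr : ∀ σ ∈ I, ∃ k : ℤ, ∃ a : ℕ, (σ * t ^ (-k)) ^ (q ^ a) ∈ F) :
    I ≤ mltoCong r (𝔞 ⊔ Ideal.span (Set.range (mltoV r t))) := by
  intro σ hσ
  obtain ⟨k, a, hka⟩ := hstr σ hσ
  have hu : σ * t ^ (-k) ∈ I := I.mul_mem hσ (I.zpow_mem ht _)
  have h1 := mlto_pow_cong r h𝔭𝔞 I F hI hIF q hqu hu hka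
  have h2 := mltoCong_mono r (le_sup_left : 𝔞 ≤ 𝔞 ⊔ Ideal.span (Set.range (mltoV r t))) h1
  have h3 := mlto_t_cong r h𝔭𝔞 (𝔞 := 𝔞) (hI ht) hdet
  have h4 : σ = (σ * t ^ (-k)) * t ^ k := by
    rw [mul_assoc, ← zpow_add, neg_add_cancel, zpow_zero, mul_one]
  rw [h4]
  exact Subgroup.mul_mem _ h2 (Subgroup.zpow_mem _ h3 k)

/-- congruence subgroups are normal -/
theorem mlto_conj_cong {J : Ideal A} {σ : G} (g : G) (hσ : σ ∈ mltoCong r J) :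
    g * σ * g⁻¹ ∈ mltoCong r J := by
  rw [mem_mltoCong] at hσ ⊢
  have h1 : r (g * σ * g⁻¹) - 1 = r g * (r σ - 1) * r g⁻¹ := by
    have h2 : r g * r g⁻¹ = 1 := by rw [← map_mul, mul_inv_cancel, map_one]
    rw [map_mul, map_mul, mul_sub, sub_mul, mul_one, h2]
  rw [h1]
  exact (hσ.mul_left _).mul_right _

/-- **the three relations coming from Frobenius** -/
theorem mlto_frob_rel {𝒪 : Type*} [CommRing 𝒪] [Algebra 𝒪 A] {𝔭 𝔞 : Ideal A} (h𝔭𝔞 : 𝔭 ^ 2 ≤ 𝔞)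
    (I F : Subgroup G) (hI : I ≤ mltoCong r 𝔭) (hIF : ∀ σ ∈ I, σ ∈ F → σ ∈ mltoCong r 𝔞)
    (q : ℕ) (hqu : IsUnit (q : A)) {t φ : G} (ht : t ∈ I) (hdet : (r t).det = 1)
    (hφt : φ * t * φ⁻¹ ∈ I) {a : ℕ} (hfr : (φ * t * φ⁻¹ * t ^ (-(q : ℤ))) ^ (q ^ a) ∈ F)
    (hdetφ : (r φ).det = (q : A)) (A₀ : Matrix (Fin 2) (Fin 2) 𝒪)
    (hA₀ : MltoMatIn 𝔭 (r φ - A₀.map (algebraMap 𝒪 A))) :
    ∀ i, ∑ j, algebraMap 𝒪 A (mltoT A₀ (q : 𝒪) i j) * mltoV r t j ∈ 𝔞 := by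
  set w := φ * t * φ⁻¹ * t ^ (-(q : ℤ)) with hw
  have hwI : w ∈ I := I.mul_mem hφt (I.zpow_mem ht _)
  have hwc := mlto_pow_cong r h𝔭𝔞 I F hI hIF q hqu hwI hfr
  have hrel : φ * t = w * t ^ q * φ := by
    rw [hw, ← zpow_natCast t q, mul_assoc (φ * t * φ⁻¹), ← zpow_add, neg_add_cancel, zpow_zero,
      mul_one, inv_mul_cancel_right]
  have h1 := mlto_adj_rel r h𝔭𝔞 q hrel (hI ht) hwc hdetφ
  have h2 := mlto_adj_rel_replace h𝔭𝔞 ((q : A) ^ 2) (hI ht) hA₀ h1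
  have htr := mlto_trace_mem' r (hI ht) hdet
  have h3 := mlto_entries_rel h𝔭𝔞 A₀ (q : 𝒪) (r t - 1) htr (by rwa [map_natCast])
  exact h3

end

end Fermat.Agent.MLT
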