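import Fermat.Agent.Lib.TW.Points

set_option autoImplicit false
set_option linter.unusedSectionVars false
set_option linter.style.haveILetI false

open Fermat.Agent.S53Lib IsLocalRing GaloisRep
open Fermat.Agent.TW

namespace Fermat.Agent.MLT

section BC

variable {A B C : Type} [CommRing A] [IsLocalRing A] [CommRing B] [IsLocalRing B]
  [CommRing C] [IsLocalRing C]

theorem mlto_isEquiv_ofMat_of_eq {r₁ r₂ : GQ →* Matrix (Fin 2) (Fin 2) A} (h₁ : MatCts A r₁)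
    (h₂ : MatCts A r₂) (h : r₁ = r₂) : (ofMat r₁ h₁).IsEquiv (ofMat r₂ h₂) := by
  subst h
  exact ⟨GaloisRepAdic.Equiv.refl _⟩

theorem mlto_bc_isEquiv_ofMat (φ : A →+* B) (hφ : IsLocalHom φ) (ρ : GaloisRepAdic A)
    (r : GQ →* Matrix (Fin 2) (Fin 2) A) (h : MatCts A r) (e : ρ.IsEquiv (ofMat r h)) :
    (ρ.baseChangeAlong φ hφ).IsEquiv (ofMat (mapMat φ r) (h.map φ hφ)) := by
  obtain ⟨e⟩ := e
  obtain ⟨e'⟩ := baseChangeAlong_ofMat r h φ hφ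
  exact ⟨(e.baseChangeAlong φ hφ).trans e'⟩

theorem mlto_isEquiv_symm {ρ₁ ρ₂ : GaloisRepAdic A} (h : ρ₁.IsEquiv ρ₂) : ρ₂.IsEquiv ρ₁ := by
  obtain ⟨e⟩ := h
  exact ⟨e.symm⟩

theorem mlto_isEquiv_trans {ρ₁ ρ₂ ρ₃ : GaloisRepAdic A} (h : ρ₁.IsEquiv ρ₂) (h' : ρ₂.IsEquiv ρ₃) :
    ρ₁.IsEquiv ρ₃ := by
  obtain ⟨e⟩ := h
  obtain ⟨e'⟩ := h'
  exact ⟨e.trans e'⟩

theorem mlto_isEquiv_bc {ρ₁ ρ₂ : GaloisRepAdic A} (h : ρ₁.IsEquiv ρ₂) (φ : A →+* B)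
    (hφ : IsLocalHom φ) : (ρ₁.baseChangeAlong φ hφ).IsEquiv (ρ₂.baseChangeAlong φ hφ) := by
  obtain ⟨e⟩ := h
  exact ⟨e.baseChangeAlong φ hφ⟩

/-- base change is compatible with composition -/
theorem mlto_bc_comp (φ : A →+* B) (hφ : IsLocalHom φ) (ψ : B →+* C) (hψ : IsLocalHom ψ)
    (hψφ : IsLocalHom (ψ.comp φ)) (ρ : GaloisRepAdic A) :
    ((ρ.baseChangeAlong φ hφ).baseChangeAlong ψ hψ).IsEquiv
      (ρ.baseChangeAlong (ψ.comp φ) hψφ) := by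
  obtain ⟨r, h, e⟩ := exists_isEquiv_ofMat ρ
  have e1 := mlto_bc_isEquiv_ofMat φ hφ ρ r h e
  have e2 := mlto_bc_isEquiv_ofMat ψ hψ _ _ _ e1
  have e3 := mlto_bc_isEquiv_ofMat (ψ.comp φ) hψφ ρ r h e
  have h4 : mapMat ψ (mapMat φ r) = mapMat (ψ.comp φ) r := by
    ext σ i j
    simp [mapMat_apply]
  exact mlto_isEquiv_trans e2
    (mlto_isEquiv_trans (mlto_isEquiv_ofMat_of_eq _ _ h4) (mlto_isEquiv_symm e3))

/-- base change along equal ring homomorphisms -/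
theorem mlto_bc_congr {φ₁ φ₂ : A →+* B} (h : φ₁ = φ₂) (h₁ : IsLocalHom φ₁) (h₂ : IsLocalHom φ₂)
    (ρ : GaloisRepAdic A) : (ρ.baseChangeAlong φ₁ h₁).IsEquiv (ρ.baseChangeAlong φ₂ h₂) := by
  subst h
  exact ⟨GaloisRepAdic.Equiv.refl _⟩

/-- base change along the identity -/
theorem mlto_bc_id (hid : IsLocalHom (RingHom.id A)) (ρ : GaloisRepAdic A) :
    (ρ.baseChangeAlong (RingHom.id A) hid).IsEquiv ρ := by
  obtain ⟨r, h, e⟩ := exists_isEquiv_ofMat ρ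
  have e1 := mlto_bc_isEquiv_ofMat (RingHom.id A) hid ρ r h e
  have h4 : mapMat (RingHom.id A) r = r := by
    ext σ i j
    simp [mapMat_apply]
  exact mlto_isEquiv_trans e1
    (mlto_isEquiv_trans (mlto_isEquiv_ofMat_of_eq _ _ h4) (mlto_isEquiv_symm e))

/-- descent of "unramified" along an injective base change -/
theorem mlto_isUnramifiedAt_of_bc_injective (φ : A →+* B) (hφ : IsLocalHom φ)
    (hinj : Function.Injective φ) (ρ : GaloisRepAdic A) {q : ℕ}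
    (h : (ρ.baseChangeAlong φ hφ).IsUnramifiedAt q) : ρ.IsUnramifiedAt q := by
  obtain ⟨r, hr, e⟩ := exists_isEquiv_ofMat ρ
  have e1 := mlto_bc_isEquiv_ofMat φ hφ ρ r hr e
  have h1 := isUnramifiedAt_of_isEquiv e1 h
  refine isUnramifiedAt_of_isEquiv (mlto_isEquiv_symm e) ?_
  intro P hP σ hσ
  have h2 := h1 P hP σ hσ
  rw [ofMat_ρ_eq_one_iff] at h2 ⊢
  rw [mapMat_apply] at h2
  ext i j
  apply hinj
  have h3 := congrFun (congrFun h2 i) j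
  rw [Matrix.map_apply] at h3
  rw [h3]
  by_cases hij : i = j
  · subst hij; simp
  · simp [Matrix.one_apply_ne hij]

end BC

section Univ

variable {𝒪 : Type} [CommRing 𝒪] [IsDomain 𝒪] [IsDiscreteValuationRing 𝒪]
  [IsAdicComplete (maximalIdeal 𝒪) 𝒪]
  {ρbar : ResidualGaloisRep (ResidueField 𝒪)}

/-- the residual representation of any base change of the universal deformation -/
theorem mlto_residual_bc
    {𝒟 : ∀ ⦃A : Type⦄ [CommRing A] [IsLocalRing A] [Algebra 𝒪 A], GaloisRepAdic A → Prop}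
    (DQ : DeformationRingData 𝒪 ρbar 𝒟)
    {A : Type} [CommRing A] [IsLocalRing A] [Algebra 𝒪 A] [IsLocalHom (algebraMap 𝒪 A)]
    (ψ : DQ.R →ₐ[𝒪] A) (hψ : IsLocalHom (ψ : DQ.R →+* A)) :
    (DQ.ρ.baseChangeAlong (ψ : DQ.R →+* A) hψ).residual.IsEquiv
      (ρbar.baseChangeAlong (ResidueField.map (algebraMap 𝒪 A))) := by
  let b : Module.Basis (Fin 2) (ResidueField 𝒪) ρbar.V :=
    Module.finBasisOfFinrankEq _ _ ρbar.finrank_eq
  obtain ⟨e⟩ := mlto_bc_isEquiv_ofMat (ψ : DQ.R →+* A) hψ DQ.ρ (univMat DQ b) (univMat_cts DQ b)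
    (univMat_equiv DQ b)
  obtain ⟨e'⟩ := residual_ofMat_isEquiv ρbar b (mapMat (ψ : DQ.R →+* A) (univMat DQ b))
    ((univMat_cts DQ b).map _ hψ) ((univMat_strict DQ b).map ψ hψ)
  exact ⟨e.residual.trans e'⟩

variable
  {𝒟 𝒟' : ∀ ⦃A : Type⦄ [CommRing A] [IsLocalRing A] [Algebra 𝒪 A], GaloisRepAdic A → Prop}
  (q : ℕ)
  (h𝒟of : ∀ ⦃A : Type⦄ [CommRing A] [IsLocalRing A] [Algebra 𝒪 A] (ρ : GaloisRepAdic A),
    𝒟' ρ → ρ.IsUnramifiedAt q → 𝒟 ρ)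
  (h𝒟to : ∀ ⦃A : Type⦄ [CommRing A] [IsLocalRing A] [Algebra 𝒪 A] (ρ : GaloisRepAdic A),
    𝒟 ρ → 𝒟' ρ)
  (h𝒟unr : ∀ ⦃A : Type⦄ [CommRing A] [IsLocalRing A] [Algebra 𝒪 A] (ρ : GaloisRepAdic A),
    𝒟 ρ → ρ.IsUnramifiedAt q)
  (hbc : ∀ ⦃A B : Type⦄ [CommRing A] [IsLocalRing A] [Algebra 𝒪 A] [CommRing B] [IsLocalRing B]
    [Algebra 𝒪 B] (φ : A →ₐ[𝒪] B) (hφ : IsLocalHom (φ : A →+* B)), Function.Surjective φ →
    ∀ ρ : GaloisRepAdic A, 𝒟' ρ → 𝒟' (ρ.baseChangeAlong (φ : A →+* B) hφ))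
  (D : DeformationRingData 𝒪 ρbar 𝒟) (D' : DeformationRingData 𝒪 ρbar 𝒟')
  (π : D'.R →ₐ[𝒪] D.R) (hπ : IsLocalHom (π : D'.R →+* D.R))
  (hπρ : (D'.ρ.baseChangeAlong (π : D'.R →+* D.R) hπ).IsEquiv D.ρ)

include h𝒟of h𝒟to hbc hπρ in
/-- **`ker π` is contained in the kernel of every surjection onto a test object over which the
universal deformation of `D'` becomes unramified at `q`.** -/
theorem mlto_ker_le
    {B : Type} [CommRing B] [IsLocalRing B] [IsNoetherianRing B]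
    [IsAdicComplete (maximalIdeal B) B] [Algebra 𝒪 B] [IsLocalHom (algebraMap 𝒪 B)]
    (hres : Function.Surjective (residue B ∘ algebraMap 𝒪 B))
    (pr : D'.R →ₐ[𝒪] B) (hpr : IsLocalHom (pr : D'.R →+* B)) (hsurj : Function.Surjective pr)
    (hunr : (D'.ρ.baseChangeAlong (pr : D'.R →+* B) hpr).IsUnramifiedAt q) :
    RingHom.ker (π : D'.R →+* D.R) ≤ RingHom.ker (pr : D'.R →+* B) := by
  have h𝒟'B : 𝒟' (D'.ρ.baseChangeAlong (pr : D'.R →+* B) hpr) :=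
    hbc pr hpr hsurj D'.ρ D'.isOfType
  have h𝒟B : 𝒟 (D'.ρ.baseChangeAlong (pr : D'.R →+* B) hpr) := h𝒟of _ h𝒟'B hunr
  have hresB := mlto_residual_bc D' pr hpr
  obtain ⟨ψ, ⟨hψ, heψ⟩, -⟩ := D.universal B hres _ h𝒟B hresB
  obtain ⟨φ₀, -, huniq⟩ := D'.universal B hres _ h𝒟'B hresB
  have h1 : pr = φ₀ := huniq pr ⟨hpr, ⟨GaloisRepAdic.Equiv.refl _⟩⟩
  have hloc : IsLocalHom ((ψ.comp π : D'.R →ₐ[𝒪] B) : D'.R →+* B) :=
    isLocalHom_of_algHom D'.instIsLocalHom D'.residue_surjective inferInstance hres (ψ.comp π)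
  have h2 : ψ.comp π = φ₀ := by
    refine huniq (ψ.comp π) ⟨hloc, ?_⟩
    have e1 : ((D'.ρ.baseChangeAlong (π : D'.R →+* D.R) hπ).baseChangeAlong
        (ψ : D.R →+* B) hψ).IsEquiv
        (D'.ρ.baseChangeAlong ((ψ : D.R →+* B).comp (π : D'.R →+* D.R)) hloc) :=
      mlto_bc_comp _ hπ _ hψ hloc D'.ρ
    exact mlto_isEquiv_trans (mlto_isEquiv_symm e1)
      (mlto_isEquiv_trans (mlto_isEquiv_bc hπρ _ hψ) heψ)
  intro z hz
  rw [RingHom.mem_ker] at hz ⊢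
  have h3 : pr z = (ψ.comp π) z := by rw [h1, h2]
  show pr z = 0
  rw [h3]
  show ψ (π z) = 0
  have hz' : π z = 0 := hz
  rw [hz', map_zero]

include h𝒟of h𝒟unr hbc hπρ in
/-- **`π` is surjective.** -/
theorem mlto_pi_surjective : Function.Surjective π := by
  set J : Ideal D'.R := RingHom.ker (π : D'.R →+* D.R) with hJdef
  have hJ : J ≠ ⊤ := RingHom.ker_ne_top _
  haveI : Nontrivial (D'.R ⧸ J) := Ideal.Quotient.nontrivial_iff.2 hJ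
  haveI : IsLocalRing (D'.R ⧸ J) :=
    IsLocalRing.of_surjective' (Ideal.Quotient.mk J) Ideal.Quotient.mk_surjective
  haveI : IsAdicComplete (maximalIdeal (D'.R ⧸ J)) (D'.R ⧸ J) :=
    isAdicComplete_of_surjective (Ideal.Quotient.mk J) Ideal.Quotient.mk_surjective
  let pr : D'.R →ₐ[𝒪] D'.R ⧸ J := Ideal.Quotient.mkₐ 𝒪 J
  have hprsurj : Function.Surjective pr := Ideal.Quotient.mkₐ_surjective 𝒪 J
  have hres : Function.Surjective (residue (D'.R ⧸ J) ∘ algebraMap 𝒪 (D'.R ⧸ J)) :=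
    residue_comp_algebraMap_surjective_of_surjective pr hprsurj D'.residue_surjective
  have hprloc0 : IsLocalHom (Ideal.Quotient.mk J) :=
    IsLocalHom.of_surjective (Ideal.Quotient.mk J) Ideal.Quotient.mk_surjective
  haveI hlocB : IsLocalHom (algebraMap 𝒪 (D'.R ⧸ J)) := by
    have h1 : algebraMap 𝒪 (D'.R ⧸ J) = (Ideal.Quotient.mk J).comp (algebraMap 𝒪 D'.R) := rfl
    rw [h1]
    haveI := D'.instIsLocalHom
    haveI := hprloc0
    exact RingHom.isLocalHom_comp _ _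
  have hpr : IsLocalHom (pr : D'.R →+* D'.R ⧸ J) := hprloc0
  -- the injection `D'.R ⧸ J → D.R`
  let πbar : (D'.R ⧸ J) →ₐ[𝒪] D.R := Ideal.Quotient.liftₐ J π (fun a ha => ha)
  have hπbar_mk : ∀ a, πbar (Ideal.Quotient.mk J a) = π a := fun a => rfl
  have hπbar_inj : Function.Injective πbar := by
    rw [injective_iff_map_eq_zero]
    intro z hz
    obtain ⟨a, rfl⟩ := Ideal.Quotient.mk_surjective z
    rw [hπbar_mk] at hz
    exact Ideal.Quotient.eq_zero_iff_mem.2 hz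
  have hπbar : IsLocalHom (πbar : (D'.R ⧸ J) →+* D.R) :=
    isLocalHom_of_algHom hlocB hres D.instIsLocalHom D.residue_surjective πbar
  have hcomp : (πbar : (D'.R ⧸ J) →+* D.R).comp (pr : D'.R →+* D'.R ⧸ J) =
      (π : D'.R →+* D.R) := by
    ext a
    rfl
  -- the deformation over the quotient
  have h𝒟'0 : 𝒟' (D'.ρ.baseChangeAlong (pr : D'.R →+* D'.R ⧸ J) hpr) :=
    hbc pr hpr hprsurj D'.ρ D'.isOfType
  have hlocc : IsLocalHom ((πbar : (D'.R ⧸ J) →+* D.R).comp (pr : D'.R →+* D'.R ⧸ J)) := by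
    rw [hcomp]; exact hπ
  have he0 : ((D'.ρ.baseChangeAlong (pr : D'.R →+* D'.R ⧸ J) hpr).baseChangeAlong
      (πbar : (D'.R ⧸ J) →+* D.R) hπbar).IsEquiv D.ρ :=
    mlto_isEquiv_trans (mlto_bc_comp _ hpr _ hπbar hlocc D'.ρ)
      (mlto_isEquiv_trans (mlto_bc_congr hcomp hlocc hπ D'.ρ) hπρ)
  have hunr0 : (D'.ρ.baseChangeAlong (pr : D'.R →+* D'.R ⧸ J) hpr).IsUnramifiedAt q := by
    refine mlto_isUnramifiedAt_of_bc_injective _ hπbar hπbar_inj _ ?_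
    exact isUnramifiedAt_of_isEquiv (mlto_isEquiv_symm he0) (h𝒟unr D.ρ D.isOfType)
  have h𝒟0 : 𝒟 (D'.ρ.baseChangeAlong (pr : D'.R →+* D'.R ⧸ J) hpr) := h𝒟of _ h𝒟'0 hunr0
  obtain ⟨θ, ⟨hθ, heθ⟩, -⟩ := D.universal (D'.R ⧸ J) hres _ h𝒟0 (mlto_residual_bc D' pr hpr)
  -- uniqueness for `D` with target `D.R`
  obtain ⟨φ₁, -, huniq⟩ := D.universal D.R D.residue_surjective D.ρ D.isOfType D.residual_isEquiv
  have hidloc : IsLocalHom ((AlgHom.id 𝒪 D.R : D.R →ₐ[𝒪] D.R) : D.R →+* D.R) :=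
    ⟨fun a ha => ha⟩
  have h1 : AlgHom.id 𝒪 D.R = φ₁ := huniq _ ⟨hidloc, mlto_bc_id hidloc D.ρ⟩
  have hloc2 : IsLocalHom ((πbar.comp θ : D.R →ₐ[𝒪] D.R) : D.R →+* D.R) :=
    isLocalHom_of_algHom D.instIsLocalHom D.residue_surjective D.instIsLocalHom
      D.residue_surjective (πbar.comp θ)
  have h2 : πbar.comp θ = φ₁ := by
    refine huniq _ ⟨hloc2, ?_⟩
    have e1 : ((D.ρ.baseChangeAlong (θ : D.R →+* D'.R ⧸ J) hθ).baseChangeAlong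
        (πbar : (D'.R ⧸ J) →+* D.R) hπbar).IsEquiv
        (D.ρ.baseChangeAlong ((πbar : (D'.R ⧸ J) →+* D.R).comp (θ : D.R →+* D'.R ⧸ J)) hloc2) :=
      mlto_bc_comp _ hθ _ hπbar hloc2 D.ρ
    exact mlto_isEquiv_trans (mlto_isEquiv_symm e1)
      (mlto_isEquiv_trans (mlto_isEquiv_bc heθ _ hπbar) he0)
  intro z
  have h3 : (πbar.comp θ) z = z := by rw [h2, ← h1]; rfl
  obtain ⟨a, ha⟩ := Ideal.Quotient.mk_surjective (θ z)
  refine ⟨a, ?_⟩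
  rw [← hπbar_mk, ha]
  exact h3

end Univ


end Fermat.Agent.MLT
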