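/-
Project MLT, stream TWO (helper7): Galois part of the growth bound (a), step 1: the kernel of
`π : R_{Σ ∪ {q}} → R_Σ` is generated by the entries of `r(τ) - 1`, `τ` in the inertia groups at `q`.
-/
import Fermat.Agent.Lib.MLT.TWO.Cot
import Fermat.Agent.Lib.MLT.TWO.GrowthGrp
import Fermat.Agent.Lib.MLT.TWO.Univ
import Fermat.Agent.Lib.TW.Local.TameStructure
import Fermat.Agent.Lib.TW.Local.PlaceConj
import Fermat.Agent.Lib.Ihara.Img.DetCyc

set_option autoImplicit false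
set_option linter.unusedSectionVars false
set_option linter.style.haveILetI false

open Fermat.Agent.S53Lib IsLocalRing GaloisRep
open Fermat.Agent.TW

namespace Fermat.Agent.MLT

local notation "Qb" => AlgebraicClosure ℚ

/-- the entries of `r τ - 1`, `τ` in an inertia group at `q` -/
def mltoInertiaEntries (q : ℕ) {A : Type} [CommRing A] (r : GQ →* Matrix (Fin 2) (Fin 2) A) :
    Set A :=
  {s | ∃ P' : ValuationSubring Qb, P'.LiesOverPrime q ∧ ∃ τ ∈ P'.inertiaSubgroupIn ℚ,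
    ∃ i j, s = (r τ - 1) i j}

/-- a unit criterion: `q ≠ p` primes, `p` in the maximal ideal -/
theorem mlto_isUnit_natCast {A : Type*} [CommRing A] [IsLocalRing A] {p q : ℕ} (hp : p.Prime)
    (hq : q.Prime) (hqp : q ≠ p) (hpA : (p : A) ∈ maximalIdeal A) : IsUnit (q : A) := by
  by_contra h
  have hqA : (q : A) ∈ maximalIdeal A := (mem_maximalIdeal _).2 h
  have hcop : IsCoprime (q : ℤ) (p : ℤ) := by
    rw [Int.isCoprime_iff_gcd_eq_one]
    exact (Nat.coprime_primes hq hp).2 hqp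
  obtain ⟨u, v, huv⟩ := hcop
  have h1 : (u : A) * (q : A) + (v : A) * (p : A) = 1 := by
    have := congrArg (Int.cast : ℤ → A) huv
    push_cast at this
    exact this
  have h2 : (1 : A) ∈ maximalIdeal A := by
    rw [← h1]
    exact Ideal.add_mem _ (Ideal.mul_mem_left _ _ hqA) (Ideal.mul_mem_left _ _ hpA)
  exact (Ideal.ne_top_iff_one _).1 (maximalIdeal.isMaximal A).ne_top h2

theorem mlto_map_sub_one_apply {A B : Type*} [CommRing A] [CommRing B] (f : A →+* B)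
    (M : Matrix (Fin 2) (Fin 2) A) (i j : Fin 2) :
    f ((M - 1) i j) = (M.map f - 1) i j := by
  rw [Matrix.sub_apply, Matrix.sub_apply, map_sub, Matrix.map_apply]
  congr 1
  by_cases hij : i = j
  · subst hij; simp
  · simp [Matrix.one_apply_ne hij]

section Gal

variable {𝒪 : Type} [CommRing 𝒪] [IsDomain 𝒪] [IsDiscreteValuationRing 𝒪]
  [IsAdicComplete (maximalIdeal 𝒪) 𝒪]
  {ρbar : ResidualGaloisRep (ResidueField 𝒪)}
  {𝒟 𝒟' : ∀ ⦃A : Type⦄ [CommRing A] [IsLocalRing A] [Algebra 𝒪 A], GaloisRepAdic A → Prop}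
  (q : ℕ)
  (h𝒟of : ∀ ⦃A : Type⦄ [CommRing A] [IsLocalRing A] [Algebra 𝒪 A] (ρ : GaloisRepAdic A),
    𝒟' ρ → ρ.IsUnramifiedAt q → 𝒟 ρ)
  (h𝒟to : ∀ ⦃A : Type⦄ [CommRing A] [IsLocalRing A] [Algebra 𝒪 A] (ρ : GaloisRepAdic A),
    𝒟 ρ → 𝒟' ρ)
  (h𝒟unr : ∀ ⦃A : Type⦄ [CommRing A] [IsLocalRing A] [Algebra 𝒪 A] (ρ : GaloisRepAdic A),
    𝒟 ρ → ρ.IsUnramifiedAt q)
  (hbc : ∀ ⦃A B : Type⦄ [CommRing A] [IsLocalRing A] [Algebra 𝒪 A] [CommRing B] [IsLocalRing B]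
    [Algebra 𝒪 B] (φ : A →ₐ[𝒪] B) (hφ : IsLocalHom (φ : A →+* B)), Function.Surjective φ →
    ∀ ρ : GaloisRepAdic A, 𝒟' ρ → 𝒟' (ρ.baseChangeAlong (φ : A →+* B) hφ))
  (D : DeformationRingData 𝒪 ρbar 𝒟) (D' : DeformationRingData 𝒪 ρbar 𝒟')
  (π : D'.R →ₐ[𝒪] D.R) (hπ : IsLocalHom (π : D'.R →+* D.R))
  (hπρ : (D'.ρ.baseChangeAlong (π : D'.R →+* D.R) hπ).IsEquiv D.ρ)
  (b : Module.Basis (Fin 2) (ResidueField 𝒪) ρbar.V)

include h𝒟unr hπρ in
/-- the universal matrices of inertia elements at `q` become trivial over `D.R` -/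
theorem mlto_map_pi_eq_one {P' : ValuationSubring Qb} (hP' : P'.LiesOverPrime q) {τ : GQ}
    (hτ : τ ∈ P'.inertiaSubgroupIn ℚ) :
    (univMat D' b τ).map (π : D'.R →+* D.R) = 1 := by
  have h1 : D.ρ.IsUnramifiedAt q := h𝒟unr D.ρ D.isOfType
  have h2 := isUnramifiedAt_of_isEquiv (mlto_isEquiv_symm hπρ) h1
  have e1 := mlto_bc_isEquiv_ofMat (π : D'.R →+* D.R) hπ D'.ρ (univMat D' b) (univMat_cts D' b)
    (univMat_equiv D' b)
  have h3 := isUnramifiedAt_of_isEquiv e1 h2 P' hP' τ hτ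
  rw [ofMat_ρ_eq_one_iff, mapMat_apply] at h3
  exact h3

include h𝒟unr hπρ in
theorem mlto_entry_mem_ker {P' : ValuationSubring Qb} (hP' : P'.LiesOverPrime q) {τ : GQ}
    (hτ : τ ∈ P'.inertiaSubgroupIn ℚ) (i j : Fin 2) :
    (univMat D' b τ - 1) i j ∈ RingHom.ker (π : D'.R →+* D.R) := by
  rw [RingHom.mem_ker, mlto_map_sub_one_apply,
    mlto_map_pi_eq_one q h𝒟unr D D' π hπ hπρ b hP' hτ, sub_self]
  rfl

include h𝒟unr hπρ in
theorem mlto_span_le_ker :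
    Ideal.span (mltoInertiaEntries q (univMat D' b)) ≤ RingHom.ker (π : D'.R →+* D.R) := by
  rw [Ideal.span_le]
  rintro s ⟨P', hP', τ, hτ, i, j, rfl⟩
  exact mlto_entry_mem_ker q h𝒟unr D D' π hπ hπρ b hP' hτ i j

include h𝒟of h𝒟to h𝒟unr hbc hπρ in
/-- **`ker π` is generated by the entries of `r'(τ) - 1`, `τ` in the inertia groups at `q`.** -/
theorem mlto_ker_le_span :
    RingHom.ker (π : D'.R →+* D.R) ≤ Ideal.span (mltoInertiaEntries q (univMat D' b)) := by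
  set J : Ideal D'.R := Ideal.span (mltoInertiaEntries q (univMat D' b)) with hJdef
  have hJle : J ≤ RingHom.ker (π : D'.R →+* D.R) :=
    mlto_span_le_ker q h𝒟unr D D' π hπ hπρ b
  have hJ : J ≠ ⊤ := fun h => RingHom.ker_ne_top (π : D'.R →+* D.R) (top_le_iff.1 (h ▸ hJle))
  haveI : Nontrivial (D'.R ⧸ J) := Ideal.Quotient.nontrivial_iff.2 hJ
  haveI : IsLocalRing (D'.R ⧸ J) :=
    IsLocalRing.of_surjective' (Ideal.Quotient.mk J) Ideal.Quotient.mk_surjective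
  haveI : IsAdicComplete (maximalIdeal (D'.R ⧸ J)) (D'.R ⧸ J) :=
    isAdicComplete_of_surjective (Ideal.Quotient.mk J) Ideal.Quotient.mk_surjective
  let pr : D'.R →ₐ[𝒪] D'.R ⧸ J := Ideal.Quotient.mkₐ 𝒪 J
  have hprsurj : Function.Surjective pr := Ideal.Quotient.mkₐ_surjective 𝒪 J
  have hres : Function.Surjective (residue (D'.R ⧸ J) ∘ algebraMap 𝒪 (D'.R ⧸ J)) :=
    residue_comp_algebraMap_surjective_of_surjective pr hprsurj D'.residue_surjective
  have hprloc0 : IsLocalHom (Ideal.Quotient.mk J) :=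
    IsLocalHom.of_surjective (Ideal.Quotient.mk J) Ideal.Quotient.mk_surjective
  haveI hlocB : IsLocalHom (algebraMap 𝒪 (D'.R ⧸ J)) := by
    have h1 : algebraMap 𝒪 (D'.R ⧸ J) = (Ideal.Quotient.mk J).comp (algebraMap 𝒪 D'.R) := rfl
    rw [h1]
    haveI := D'.instIsLocalHom
    haveI := hprloc0
    exact RingHom.isLocalHom_comp _ _
  have hpr : IsLocalHom (pr : D'.R →+* D'.R ⧸ J) := hprloc0
  have hunr : (D'.ρ.baseChangeAlong (pr : D'.R →+* D'.R ⧸ J) hpr).IsUnramifiedAt q := by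
    have e1 := mlto_bc_isEquiv_ofMat (pr : D'.R →+* D'.R ⧸ J) hpr D'.ρ (univMat D' b)
      (univMat_cts D' b) (univMat_equiv D' b)
    refine isUnramifiedAt_of_isEquiv (mlto_isEquiv_symm e1) ?_
    intro P' hP' τ hτ
    rw [ofMat_ρ_eq_one_iff, mapMat_apply]
    ext i j
    have h1 : (univMat D' b τ - 1) i j ∈ J :=
      Ideal.subset_span ⟨P', hP', τ, hτ, i, j, rfl⟩
    have h2 : (pr : D'.R →+* D'.R ⧸ J) ((univMat D' b τ - 1) i j) = 0 :=
      Ideal.Quotient.eq_zero_iff_mem.2 h1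
    rw [mlto_map_sub_one_apply, Matrix.sub_apply, sub_eq_zero] at h2
    exact h2
  have h := mlto_ker_le q h𝒟of h𝒟to hbc D D' π hπ hπρ hres pr hpr hprsurj hunr
  intro z hz
  have h1 := h hz
  rw [RingHom.mem_ker] at h1
  exact Ideal.Quotient.eq_zero_iff_mem.1 h1

end Gal

end Fermat.Agent.MLT
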