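/-
Project MLT, stream TWO (helper7): **the growth bound (a)** of the numerical criterion.

For `Σ' = Σ ∪ {q}` (`q ∉ Smin ∪ Σ`, `q ≠ p`), `π : R_Σ' → R_Σ` the canonical map, `x : R_Σ → 𝒪`:
`π` is surjective and
`length Φ_{R_Σ'} ≤ length Φ_{R_Σ} + length 𝒪/((q-1)((q+1)² - a_q²))`, `a_q = x(tr ρ_Σ(Frob_q))`.

* `mlto_growth_step`     : the Galois input at level `n` (tame inertia generator `t`, Frobenius
                           relation `φ t φ⁻¹ = w t^q`) for `mlto_cot_growth`;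
* `mlto_growth_generic`  : generic form (abstract conditions `𝒟 ⇔ 𝒟' ∧ unramified at q`);
* `mlto_growthContractOrd : MltTWOGrowthContractOrd`, `mlto_growthContractFlat :
  MltTWOGrowthContractFlat` : the two contracts of `Contracts/TWO.lean`.
-/
import Fermat.Agent.Lib.MLT.TWO.GrowthGal
import Fermat.Agent.Lib.MLT.TWO.OrdTW
import Fermat.Agent.Lib.MLT.Contracts.TWO

set_option autoImplicit false
set_option linter.unusedSectionVars false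
set_option linter.style.haveILetI false

open Fermat.Agent.S53Lib IsLocalRing GaloisRep
open Fermat.Agent.TW

namespace Fermat.Agent.MLT

local notation "Qb" => AlgebraicClosure ℚ

section Main

variable {𝒪 : Type} [CommRing 𝒪] [IsDomain 𝒪] [IsDiscreteValuationRing 𝒪]
  [IsAdicComplete (maximalIdeal 𝒪) 𝒪]
  {ρbar : ResidualGaloisRep (ResidueField 𝒪)}
  {𝒟 𝒟' : ∀ ⦃A : Type⦄ [CommRing A] [IsLocalRing A] [Algebra 𝒪 A], GaloisRepAdic A → Prop}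
  (p : ℕ) [Fact p.Prime] (q : ℕ) (hq : q.Prime) (hqp : q ≠ p)
  (h𝒟of : ∀ ⦃A : Type⦄ [CommRing A] [IsLocalRing A] [Algebra 𝒪 A] (ρ : GaloisRepAdic A),
    𝒟' ρ → ρ.IsUnramifiedAt q → 𝒟 ρ)
  (h𝒟to : ∀ ⦃A : Type⦄ [CommRing A] [IsLocalRing A] [Algebra 𝒪 A] (ρ : GaloisRepAdic A),
    𝒟 ρ → 𝒟' ρ)
  (h𝒟unr : ∀ ⦃A : Type⦄ [CommRing A] [IsLocalRing A] [Algebra 𝒪 A] (ρ : GaloisRepAdic A),
    𝒟 ρ → ρ.IsUnramifiedAt q)
  (hbc : ∀ ⦃A B : Type⦄ [CommRing A] [IsLocalRing A] [Algebra 𝒪 A] [CommRing B] [IsLocalRing B]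
    [Algebra 𝒪 B] (φ : A →ₐ[𝒪] B) (hφ : IsLocalHom (φ : A →+* B)), Function.Surjective φ →
    ∀ ρ : GaloisRepAdic A, 𝒟' ρ → 𝒟' (ρ.baseChangeAlong (φ : A →+* B) hφ))
  (hdet𝒟 : ∀ ⦃A : Type⦄ [CommRing A] [IsLocalRing A] [Algebra 𝒪 A] (ρ : GaloisRepAdic A),
    𝒟' ρ → ρ.DetIsCyclotomic p)
  (D : DeformationRingData 𝒪 ρbar 𝒟) (D' : DeformationRingData 𝒪 ρbar 𝒟')
  (π : D'.R →ₐ[𝒪] D.R) (hπ : IsLocalHom (π : D'.R →+* D.R))
  (hπρ : (D'.ρ.baseChangeAlong (π : D'.R →+* D.R) hπ).IsEquiv D.ρ)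
  (b : Module.Basis (Fin 2) (ResidueField 𝒪) ρbar.V)
  (x : D.R →ₐ[𝒪] 𝒪)
  (P : ValuationSubring Qb) (hP : P.LiesOverPrime q) (φ : GQ) (hφ : P.IsFrobeniusAt φ q)

include hq hqp hdet𝒟 hP in
theorem mlto_det_inertia {τ : GQ} (hτ : τ ∈ P.inertiaSubgroupIn ℚ) :
    (univMat D' b τ).det = 1 := by
  have hp : p.Prime := Fact.out
  have hd : (ofMat (univMat D' b) (univMat_cts D' b)).DetIsCyclotomic p :=
    detIsCyclotomic_of_isEquiv (univMat_equiv D' b) (hdet𝒟 D'.ρ D'.isOfType)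
  have h := Fermat.Agent.Ihara.ihi_det_inertia hp _ hd hq hqp hP hτ
  rwa [det_ofMat] at h

include hq hqp hdet𝒟 hP hφ in
theorem mlto_det_frob : (univMat D' b φ).det = (q : D'.R) := by
  have hp : p.Prime := Fact.out
  have hd : (ofMat (univMat D' b) (univMat_cts D' b)).DetIsCyclotomic p :=
    detIsCyclotomic_of_isEquiv (univMat_equiv D' b) (hdet𝒟 D'.ρ D'.isOfType)
  have h := Fermat.Agent.Ihara.ihi_det_frob hp _ hd hq hqp hP hφ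
  rwa [det_ofMat] at h

include hq hqp h𝒟unr hdet𝒟 hπρ hP hφ in
/-- **the step at level `n`** -/
theorem mlto_growth_step (n : ℕ) :
    ∃ v : Fin 3 → D'.R,
      (∀ j, v j ∈ RingHom.ker ((x.comp π : D'.R →ₐ[𝒪] 𝒪) : D'.R →+* 𝒪)) ∧
      (∀ s ∈ mltoInertiaEntries q (univMat D' b),
        s ∈ mltoA (x.comp π) n ⊔ Ideal.span (Set.range v)) ∧
      (∀ i, ∑ j, algebraMap 𝒪 D'.R
        (mltoT ((univMat D' b φ).map ((x.comp π : D'.R →ₐ[𝒪] 𝒪) : D'.R →+* 𝒪)) (q : 𝒪) i j) * v j ∈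
          mltoA (x.comp π) n) := by
  classical
  have hp : p.Prime := Fact.out
  set r' := univMat D' b with hr'
  set x' : D'.R →ₐ[𝒪] 𝒪 := x.comp π with hx'
  set 𝔭 : Ideal D'.R := RingHom.ker (x' : D'.R →+* 𝒪) with h𝔭
  set 𝔞 : Ideal D'.R := mltoA x' n with h𝔞
  have h𝔭𝔞 : 𝔭 ^ 2 ≤ 𝔞 := sq_le_mltoA x' n
  have hkerle : RingHom.ker (π : D'.R →+* D.R) ≤ 𝔭 := by
    intro z hz
    rw [RingHom.mem_ker] at hz
    rw [h𝔭, RingHom.mem_ker]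
    show x (π z) = 0
    have hz' : π z = 0 := hz
    rw [hz', map_zero]
  -- inertia
  set I : Subgroup GQ := P.inertiaSubgroupIn ℚ with hIdef
  have hI : I ≤ mltoCong r' 𝔭 := by
    intro σ hσ i j
    exact hkerle (mlto_entry_mem_ker q h𝒟unr D D' π hπ hπρ b hP hσ i j)
  -- the level
  obtain ⟨L, hLfin, hL⟩ := univMat_cts D' b (n + 1)
  haveI := hLfin
  set F : Subgroup GQ := L.fixingSubgroup with hFdef
  have hIF : ∀ σ ∈ I, σ ∈ F → σ ∈ mltoCong r' 𝔞 := by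
    intro σ hσ hσF i j
    refine mlto_mem_mltoA_of_mem_pow x' n ?_ (hI hσ i j)
    exact hL σ (fun y hy => (IntermediateField.mem_fixingSubgroup_iff _ _).mp hσF y hy) i j
  have hqu : IsUnit (q : D'.R) := mlto_isUnit_natCast hp hq hqp (hdet𝒟 D'.ρ D'.isOfType).1
  obtain ⟨t, ht, hstr, hfrob⟩ := tame_structure hq P hP L
  have hdett : (r' t).det = 1 := mlto_det_inertia p q hq hqp hdet𝒟 D' b P hP ht
  have hdetφ : (r' φ).det = (q : D'.R) := mlto_det_frob p q hq hqp hdet𝒟 D' b P hP φ hφ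
  refine ⟨mltoV r' t, ?_, ?_, ?_⟩
  · intro j
    fin_cases j
    · exact hI ht 0 1
    · exact hI ht 0 0
    · exact hI ht 1 0
  · rintro s ⟨P', hP', τ, hτ, i, j, rfl⟩
    obtain ⟨g, hg⟩ := tw_exists_smul_eq_of_liesOverPrime P P' hq hP hP'
    rw [← hg, Fermat.Agent.CFT.Bridge.mem_inertiaSubgroupIn_smul_iff] at hτ
    have h1 := mlto_inertia_cong r' h𝔭𝔞 I F hI hIF q hqu ht hdett hstr hτ
    have h2 := mlto_conj_cong r' g h1
    have h3 : g * (g⁻¹ * τ * g) * g⁻¹ = τ := by group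
    rw [h3] at h2
    exact h2 i j
  · obtain ⟨a, ha⟩ := hfrob φ hφ
    have hφt : φ * t * φ⁻¹ ∈ I := tw_conj_mem_inertia P hφ.mem_decompositionSubgroup ht
    refine mlto_frob_rel r' h𝔭𝔞 I F hI hIF q hqu ht hdett hφt ha hdetφ _ ?_
    intro i j
    rw [Matrix.sub_apply, Matrix.map_apply, Matrix.map_apply]
    exact mltoD_mem x' (r' φ i j)

include hq hqp h𝒟of h𝒟to h𝒟unr hbc hdet𝒟 hπρ hP hφ in
/-- **The growth bound (a), generic form.** -/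
theorem mlto_growth_generic (hp𝒪 : (p : 𝒪) ∈ maximalIdeal 𝒪) :
    Function.Surjective π ∧
    Module.length 𝒪 (RingHom.ker ((x.comp π : D'.R →ₐ[𝒪] 𝒪) : D'.R →+* 𝒪)).Cotangent ≤
      Module.length 𝒪 (RingHom.ker (x : D.R →+* 𝒪)).Cotangent +
        Module.length 𝒪 (𝒪 ⧸ Ideal.span
          {((q : 𝒪) - 1) * (((q : 𝒪) + 1) ^ 2 - (x (D.ρ.trace φ)) ^ 2)}) := by
  have hp : p.Prime := Fact.out
  have hsurj := mlto_pi_surjective q h𝒟of h𝒟unr hbc D D' π hπ hπρ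
  refine ⟨hsurj, ?_⟩
  let b : Module.Basis (Fin 2) (ResidueField 𝒪) ρbar.V :=
    Module.finBasisOfFinrankEq _ _ ρbar.finrank_eq
  set x' : D'.R →ₐ[𝒪] 𝒪 := x.comp π with hx'
  set A₀ : Matrix (Fin 2) (Fin 2) 𝒪 := (univMat D' b φ).map (x' : D'.R →+* 𝒪) with hA₀
  have h := mlto_cot_growth π hsurj x (mltoInertiaEntries q (univMat D' b))
    (mlto_ker_le_span q h𝒟of h𝒟to h𝒟unr hbc D D' π hπ hπρ b) (mltoT A₀ (q : 𝒪))
    (fun n => mlto_growth_step p q hq hqp h𝒟unr hdet𝒟 D D' π hπ hπρ b x P hP φ hφ n)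
  -- the determinant of `A₀`
  have hdetA₀ : A₀.det = (q : 𝒪) := by
    have h1 := mlto_det_frob p q hq hqp hdet𝒟 D' b P hP φ hφ
    have h2 := RingHom.map_det (x' : D'.R →+* 𝒪) (univMat D' b φ)
    rw [h1, map_natCast, RingHom.mapMatrix_apply] at h2
    exact h2.symm
  -- the trace
  have htrace : x (D.ρ.trace φ) = A₀ 0 0 + A₀ 1 1 := by
    have e1 := mlto_bc_isEquiv_ofMat (π : D'.R →+* D.R) hπ D'.ρ (univMat D' b) (univMat_cts D' b)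
      (univMat_equiv D' b)
    have h1 : D.ρ.trace φ = ((univMat D' b φ).map (π : D'.R →+* D.R)).trace := by
      rw [← trace_eq_of_isEquiv hπρ φ, trace_eq_of_isEquiv e1 φ, trace_ofMat, mapMat_apply]
    rw [h1, Matrix.trace_fin_two, map_add, Matrix.map_apply, Matrix.map_apply]
    rfl
  rw [mltoT_det A₀ _ hdetA₀] at h
  have hqu : IsUnit (q : 𝒪) := mlto_isUnit_natCast hp hq hqp hp𝒪
  have hspan : Ideal.span {-((q : 𝒪) ^ 3 * (((q : 𝒪) - 1) *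
      (((q : 𝒪) + 1) ^ 2 - (A₀ 0 0 + A₀ 1 1) ^ 2)))} =
      Ideal.span {((q : 𝒪) - 1) * (((q : 𝒪) + 1) ^ 2 - (x (D.ρ.trace φ)) ^ 2)} := by
    rw [htrace, Ideal.span_singleton_eq_span_singleton]
    refine Associated.symm ⟨(-(hqu.unit ^ 3 : 𝒪ˣ)), ?_⟩
    rw [Units.val_neg, Units.val_pow_eq_pow_val, IsUnit.unit_spec]
    ring
  rw [hspan] at h
  exact h

end Main

section Contracts

open GaloisRepAdic

/-- **Contract TWO-2 (ord): the growth bound (a) for the non-strict ordinary problem.** -/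
theorem mlto_growthContractOrd : MltTWOGrowthContractOrd := by
  unfold MltTWOGrowthContractOrd MltTWOGrowthStatement
  intro 𝒪 _ _ _ _ _ p _ hp2 hp𝒪 ρbar Smin Sg q hq hqp hqS hqur D D' π hπ hπρ x P hP φ hφ
  refine mlto_growth_generic p q hq hqp ?_ ?_ ?_ ?_ ?_ D D' π hπ hπρ x P hP φ hφ hp𝒪
  · intro A _ _ _ ρ h hunr
    refine ⟨⟨h.1.1, h.1.2.1, fun ℓ hℓ hℓS => ?_⟩, h.2⟩
    by_cases hℓq : ℓ = q
    · subst hℓq; exact hunr
    · refine h.1.2.2 ℓ hℓ ?_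
      simp only [Finset.mem_union, Finset.mem_insert, not_or] at hℓS ⊢
      exact ⟨hℓS.1, hℓq, hℓS.2⟩
  · intro A _ _ _ ρ h
    refine ⟨⟨h.1.1, h.1.2.1, fun ℓ hℓ hℓS => h.1.2.2 ℓ hℓ ?_⟩, h.2⟩
    simp only [Finset.mem_union, Finset.mem_insert, not_or] at hℓS ⊢
    exact ⟨hℓS.1, hℓS.2.2⟩
  · intro A _ _ _ ρ h
    exact h.1.2.2 q hq hqS
  · intro A B _ _ _ _ _ _ ψ hψ hsurj ρ h
    exact ⟨⟨detIsCyclotomic_baseChangeAlong _ hψ ρ h.1.1,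
      mlto_isOrdinaryAt_baseChangeAlong _ hψ ρ h.1.2.1,
      fun ℓ hℓ hℓS => isUnramifiedAt_baseChangeAlong _ hψ ρ (h.1.2.2 ℓ hℓ hℓS)⟩,
      fun ℓ hℓ hℓp hne => isUnipotentOnInertiaAt_baseChangeAlong _ hψ ρ (h.2 ℓ hℓ hℓp hne)⟩
  · intro A _ _ _ ρ h
    exact h.1.1

/-- **Contract TWO-2 (flat): the growth bound (a) for the flat problem.** -/
theorem mlto_growthContractFlat : MltTWOGrowthContractFlat := by
  unfold MltTWOGrowthContractFlat MltTWOGrowthStatement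
  intro 𝒪 _ _ _ _ _ p _ hp2 hp𝒪 ρbar Smin Sg q hq hqp hqS hqur D D' π hπ hπρ x P hP φ hφ
  refine mlto_growth_generic p q hq hqp ?_ ?_ ?_ ?_ ?_ D D' π hπ hπρ x P hP φ hφ hp𝒪
  · intro A _ _ _ ρ h hunr
    refine ⟨⟨h.1.1, h.1.2.1, fun ℓ hℓ hℓS => ?_⟩, h.2⟩
    by_cases hℓq : ℓ = q
    · subst hℓq; exact hunr
    · refine h.1.2.2 ℓ hℓ ?_
      simp only [Finset.mem_union, Finset.mem_insert, not_or] at hℓS ⊢
      exact ⟨hℓS.1, hℓq, hℓS.2⟩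
  · intro A _ _ _ ρ h
    refine ⟨⟨h.1.1, h.1.2.1, fun ℓ hℓ hℓS => h.1.2.2 ℓ hℓ ?_⟩, h.2⟩
    simp only [Finset.mem_union, Finset.mem_insert, not_or] at hℓS ⊢
    exact ⟨hℓS.1, hℓS.2.2⟩
  · intro A _ _ _ ρ h
    exact h.1.2.2 q hq hqS
  · intro A B _ _ _ _ _ _ ψ hψ hsurj ρ h
    exact ⟨⟨detIsCyclotomic_baseChangeAlong _ hψ ρ h.1.1,
      isFlatAt_baseChangeAlong_of_surjective _ hψ hsurj ρ h.1.2.1,
      fun ℓ hℓ hℓS => isUnramifiedAt_baseChangeAlong _ hψ ρ (h.1.2.2 ℓ hℓ hℓS)⟩,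
      fun ℓ hℓ hℓp hne => isUnipotentOnInertiaAt_baseChangeAlong _ hψ ρ (h.2 ℓ hℓ hℓp hne)⟩
  · intro A _ _ _ ρ h
    exact h.1.1

end Contracts

end Fermat.Agent.MLT
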