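/-
Project MLT, stream TWO (helper7), the step at `p`: **naturality of the valuation element**.

* `MltoOrdForm.map` : the ordinary form is stable under ring homomorphisms;
* `mlto_valEl_map`  : for `f : A → B`, `I ≤ f⁻¹ J`: the valuation element of `(f ∘ r, J)` is the image
  of the valuation element of `(r, I)` (same level `m`, same root of unity);
* `mlto_valEl_succ` : the valuation element for `(m + 1, ζ')` equals the one for `(m, ζ' ^ p)`.
-/
import Fermat.Agent.Lib.MLT.TWO.KnVal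

set_option autoImplicit false
set_option linter.style.haveILetI false
set_option linter.unusedSectionVars false
set_option linter.unusedVariables false

namespace Fermat.Agent.MLT

open Fermat.Agent.TW Fermat.Agent.S05Lib

local notation "Qb" => AlgebraicClosure ℚ
local notation "GQ" => (AlgebraicClosure ℚ ≃ₐ[ℚ] AlgebraicClosure ℚ)

noncomputable section

variable {𝔓 : FFPlace} {A B : Type*} [CommRing A] [CommRing B]
  {r : GQ → Matrix (Fin 2) (Fin 2) A}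

/-- the ordinary form is stable under ring homomorphisms -/
theorem MltoOrdForm.map (h : MltoOrdForm 𝔓 r) (f : A →+* B) :
    MltoOrdForm 𝔓 (fun σ => (r σ).map f) where
  r_one := by
    show (r 1).map f = 1
    rw [h.r_one]
    ext i j
    fin_cases i <;> fin_cases j <;> simp
  r_mul := fun σ τ => by
    show (r (σ * τ)).map f = (r σ).map f * (r τ).map f
    rw [h.r_mul, Matrix.map_mul]
  tri := fun σ hσ => by
    show f (r σ 1 0) = 0
    rw [h.tri σ hσ, map_zero]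
  uni := fun ι hι => by
    show f (r ι 1 1) = 1
    rw [h.uni ι hι, map_one]
  det := fun σ hσ m a ha => by
    have h1 := h.det σ hσ m a ha
    have h2 : ((r σ).map f).det - (a : B) = f ((r σ).det - (a : A)) := by
      rw [map_sub, map_natCast, ← RingHom.mapMatrix_apply, ← RingHom.map_det]
    rw [h2]
    obtain ⟨c, hc⟩ := Ideal.mem_span_singleton'.1 h1
    rw [← hc, map_mul, map_natCast]
    exact Ideal.mul_mem_left _ _ (Ideal.subset_span rfl)
  lev := fun J hJ => by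
    have hfin : Finite (A ⧸ J.comap f) :=
      Finite.of_injective _ (Ideal.quotientMap_injective (I := J) (f := f))
    obtain ⟨F, hF, hlev⟩ := h.lev (J.comap f) hfin
    refine ⟨F, hF, fun σ τ hx i j => ?_⟩
    have := hlev σ τ hx i j
    rw [Ideal.mem_comap, map_sub] at this
    exact this

/-- **naturality of the valuation element** under ring homomorphisms and enlargement of the ideal -/
theorem mlto_valEl_map (h : MltoOrdForm 𝔓 r) (f : A →+* B) {I : Ideal A} {J : Ideal B}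
    (hIJ : I ≤ J.comap f) (hJ : Finite (B ⧸ J)) {m : ℕ} (hm : (𝔓.p : B) ^ m ∈ J) {ζ : Qb}
    {g : A ⧸ I} {g' : B ⧸ J}
    (hg : ∀ l : A ⧸ I →+ ZMod (𝔓.p ^ m), mltoVal 𝔓 (𝔓.p ^ m) ζ (mltoCoc r I l) = l g)
    (hg' : ∀ l : B ⧸ J →+ ZMod (𝔓.p ^ m),
      mltoVal 𝔓 (𝔓.p ^ m) ζ (mltoCoc (fun σ => (r σ).map f) J l) = l g') :
    Ideal.quotientMap J f hIJ g = g' := by
  apply mlto_valEl_unique (𝔓 := 𝔓) hJ hm
  intro l
  rw [← hg' l]
  have h1 := hg (l.comp (Ideal.quotientMap J f hIJ).toAddMonoidHom)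
  rw [AddMonoidHom.comp_apply] at h1
  rw [RingHom.toAddMonoidHom_eq_coe, AddMonoidHom.coe_coe] at h1
  rw [← h1]
  rfl

/-! ### Raising the level of the root of unity -/

/-- multiplication by `p` as an additive map `ZMod (p ^ m) → ZMod (p ^ (m + 1))` -/
def mltoUp (p m : ℕ) : ZMod (p ^ m) →+ ZMod (p ^ (m + 1)) :=
  ZMod.lift (p ^ m) ⟨zmultiplesHom (ZMod (p ^ (m + 1))) (p : ZMod (p ^ (m + 1))), by
    show ((p ^ m : ℕ) : ℤ) • (p : ZMod (p ^ (m + 1))) = 0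
    rw [natCast_zsmul, nsmul_eq_mul, ← Nat.cast_mul, ← pow_succ]
    exact ZMod.natCast_self _⟩

lemma mltoUp_natCast (p m : ℕ) (n : ℕ) :
    mltoUp p m (n : ZMod (p ^ m)) = ((p * n : ℕ) : ZMod (p ^ (m + 1))) := by
  have h1 : ((n : ℕ) : ZMod (p ^ m)) = ((n : ℤ) : ZMod (p ^ m)) := by push_cast; rfl
  unfold mltoUp
  rw [h1, ZMod.lift_coe]
  show (n : ℤ) • (p : ZMod (p ^ (m + 1))) = _
  rw [natCast_zsmul, nsmul_eq_mul]
  push_cast
  ring

lemma mltoUp_intCast (p m : ℕ) (n : ℤ) :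
    mltoUp p m (n : ZMod (p ^ m)) = ((p * n : ℤ) : ZMod (p ^ (m + 1))) := by
  unfold mltoUp
  rw [ZMod.lift_coe]
  show n • (p : ZMod (p ^ (m + 1))) = _
  rw [zsmul_eq_mul]
  push_cast
  ring

lemma mltoUp_injective {p : ℕ} (hp : p.Prime) (m : ℕ) : Function.Injective (mltoUp p m) := by
  haveI : NeZero (p ^ m) := ⟨pow_ne_zero _ hp.ne_zero⟩
  rw [injective_iff_map_eq_zero]
  intro x hx
  rw [← ZMod.natCast_zmod_val x, mltoUp_natCast, ZMod.natCast_eq_zero_iff, pow_succ,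
    mul_comm p] at hx
  have h1 : p ^ m ∣ x.val := Nat.dvd_of_mul_dvd_mul_right hp.pos hx
  rw [← ZMod.natCast_zmod_val x, ZMod.natCast_eq_zero_iff]
  exact h1

lemma mlto_lfZPow_up {p : ℕ} (hp : p.Prime) (m : ℕ) {ζ' : Qb} (hζ' : ζ' ^ p ^ (m + 1) = 1)
    (x : ZMod (p ^ m)) :
    haveI : NeZero (p ^ m) := ⟨pow_ne_zero _ hp.ne_zero⟩
    haveI : NeZero (p ^ (m + 1)) := ⟨pow_ne_zero _ hp.ne_zero⟩
    lfZPow ζ' (mltoUp p m x) = lfZPow (ζ' ^ p) x := by
  haveI : NeZero (p ^ m) := ⟨pow_ne_zero _ hp.ne_zero⟩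
  haveI : NeZero (p ^ (m + 1)) := ⟨pow_ne_zero _ hp.ne_zero⟩
  show lfZPow ζ' (mltoUp p m x) = lfZPow (ζ' ^ p) x
  conv_lhs => rw [← ZMod.natCast_zmod_val x, mltoUp_natCast, lfZPow_natCast hζ']
  rw [lfZPow, ← pow_mul]

/-- **the valuation element does not depend on the level of the root of unity** -/
theorem mlto_valEl_succ (h : MltoOrdForm 𝔓 r) {I : Ideal A} (hI : Finite (A ⧸ I)) {m : ℕ}
    (hm : (𝔓.p : A) ^ m ∈ I) {ζ' : Qb} (hζ' : IsPrimitiveRoot ζ' (𝔓.p ^ (m + 1)))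
    {g g' : A ⧸ I}
    (hg : ∀ l : A ⧸ I →+ ZMod (𝔓.p ^ m),
      mltoVal 𝔓 (𝔓.p ^ m) (ζ' ^ 𝔓.p) (mltoCoc r I l) = l g)
    (hg' : ∀ l : A ⧸ I →+ ZMod (𝔓.p ^ (m + 1)),
      mltoVal 𝔓 (𝔓.p ^ (m + 1)) ζ' (mltoCoc r I l) = l g') : g' = g := by
  have hζ : IsPrimitiveRoot (ζ' ^ 𝔓.p) (𝔓.p ^ m) :=
    hζ'.pow (pow_pos 𝔓.hp.pos _) (by rw [pow_succ, mul_comm])
  apply mlto_valEl_unique (𝔓 := 𝔓) hI hm
  intro l
  apply mltoUp_injective 𝔓.hp m
  obtain ⟨y, hy⟩ := h.gen_exists hI hm hζ l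
  obtain ⟨n, hn⟩ := hy.exists_is hζ.pow_eq_one
  have hy' : MltoGen 𝔓 (𝔓.p ^ (m + 1)) ζ' (mltoCoc r I ((mltoUp 𝔓.p m).comp l)) y := by
    refine ⟨hy.1, fun ι hι => ?_⟩
    rw [hy.2 ι hι]
    congr 1
    exact (mlto_lfZPow_up 𝔓.hp m hζ'.pow_eq_one _).symm
  have hn' : 𝔓.v.Is (y ^ 𝔓.p ^ (m + 1)) ((𝔓.p * n : ℤ) : ℚ) := by
    rw [pow_succ, pow_mul]
    have := hn.pow 𝔓.p
    push_cast
    exact this
  have h1 := hg' ((mltoUp 𝔓.p m).comp l)
  rw [hy'.val_eq hζ'.pow_eq_one hn', AddMonoidHom.comp_apply] at h1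
  have h2 := hg l
  rw [hy.val_eq hζ.pow_eq_one hn] at h2
  rw [← h1, ← h2, mltoUp_intCast]

end

end Fermat.Agent.MLT
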