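/-
Project MLT, stream TWO (helper7), the step at `p`: **the valuation element at a base point**.

* `mlto_valEl_mono` : enlarging the ideal (same ring);
* `mlto_valEl_add`  : the valuation element for `(m + e, ζ')` equals the one for `(m, ζ' ^ p ^ e)`;
* `mlto_valEl_base` : over a discrete valuation ring `𝒪`, if `α = r φ 1 1` (`φ` in the decomposition
  group) satisfies `α ^ 2 ≠ 1`, then for every `n` there is a primitive `p ^ n`-th root of unity `ζ`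
  for which the valuation element of `r` modulo `𝔪 ^ n` vanishes.
-/
import Fermat.Agent.Lib.MLT.TWO.KnNat

set_option autoImplicit false
set_option linter.style.haveILetI false
set_option linter.unusedSectionVars false
set_option linter.unusedVariables false

namespace Fermat.Agent.MLT

open Fermat.Agent.TW Fermat.Agent.S05Lib IsLocalRing

local notation "Qb" => AlgebraicClosure ℚ
local notation "GQ" => (AlgebraicClosure ℚ ≃ₐ[ℚ] AlgebraicClosure ℚ)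

noncomputable section

section Gen

variable {𝔓 : FFPlace} {A : Type*} [CommRing A] {r : GQ → Matrix (Fin 2) (Fin 2) A}

/-- enlarging the ideal -/
theorem mlto_valEl_mono (h : MltoOrdForm 𝔓 r) {I J : Ideal A} (hIJ : I ≤ J)
    (hJ : Finite (A ⧸ J)) {m : ℕ} (hm : (𝔓.p : A) ^ m ∈ J) {ζ : Qb}
    {g : A ⧸ I} {g' : A ⧸ J}
    (hg : ∀ l : A ⧸ I →+ ZMod (𝔓.p ^ m), mltoVal 𝔓 (𝔓.p ^ m) ζ (mltoCoc r I l) = l g)
    (hg' : ∀ l : A ⧸ J →+ ZMod (𝔓.p ^ m), mltoVal 𝔓 (𝔓.p ^ m) ζ (mltoCoc r J l) = l g') :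
    Ideal.Quotient.factor hIJ g = g' := by
  apply mlto_valEl_unique (𝔓 := 𝔓) hJ hm
  intro l
  rw [← hg' l]
  have h1 := hg (l.comp (Ideal.Quotient.factor hIJ).toAddMonoidHom)
  rw [AddMonoidHom.comp_apply] at h1
  rw [RingHom.toAddMonoidHom_eq_coe, AddMonoidHom.coe_coe] at h1
  rw [← h1]
  rfl

/-- **the valuation element does not depend on the level of the root of unity**, iterated -/
theorem mlto_valEl_add (h : MltoOrdForm 𝔓 r) {I : Ideal A} (hI : Finite (A ⧸ I)) {m : ℕ}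
    (hm : (𝔓.p : A) ^ m ∈ I) (e : ℕ) :
    ∀ {ζ' : Qb}, IsPrimitiveRoot ζ' (𝔓.p ^ (m + e)) → ∀ {g g' : A ⧸ I},
    (∀ l : A ⧸ I →+ ZMod (𝔓.p ^ m),
      mltoVal 𝔓 (𝔓.p ^ m) (ζ' ^ 𝔓.p ^ e) (mltoCoc r I l) = l g) →
    (∀ l : A ⧸ I →+ ZMod (𝔓.p ^ (m + e)),
      mltoVal 𝔓 (𝔓.p ^ (m + e)) ζ' (mltoCoc r I l) = l g') → g' = g := by
  induction e with
  | zero =>
    intro ζ' hζ' g g' hg hg'
    apply mlto_valEl_unique (𝔓 := 𝔓) hI hm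
    intro l
    have h1 := hg l
    rw [pow_zero, pow_one] at h1
    rw [← h1]
    exact (hg' l).symm
  | succ e ih =>
    intro ζ' hζ' g g' hg hg'
    have hme : (𝔓.p : A) ^ (m + e) ∈ I := by
      rw [pow_add]
      exact I.mul_mem_right _ hm
    have hζ'' : IsPrimitiveRoot (ζ' ^ 𝔓.p) (𝔓.p ^ (m + e)) :=
      hζ'.pow (pow_pos 𝔓.hp.pos _) (by rw [← add_assoc, pow_succ, mul_comm])
    obtain ⟨g'', hg''⟩ := h.exists_valEl hI hme hζ''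
    have h1 : g' = g'' := mlto_valEl_succ h hI hme hζ' hg'' hg'
    have h2 : g'' = g := by
      refine ih hζ'' (fun l => ?_) hg''
      rw [← pow_mul, ← pow_succ']
      exact hg l
    rw [h1, h2]

end Gen

section Base

variable {𝒪 : Type*} [CommRing 𝒪] [IsDomain 𝒪] [IsDiscreteValuationRing 𝒪]
  [Finite (ResidueField 𝒪)] {𝔓 : FFPlace} {r₀ : GQ → Matrix (Fin 2) (Fin 2) 𝒪}

lemma mlto_finite_quot_pow (n : ℕ) : Finite (𝒪 ⧸ maximalIdeal 𝒪 ^ n) :=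
  haveI : Finite (𝒪 ⧸ maximalIdeal 𝒪) := ‹Finite (ResidueField 𝒪)›
  Ideal.finite_quotient_pow (IsNoetherian.noetherian _) n

/-- **the valuation element at the base point** -/
theorem mlto_valEl_base (hp𝒪 : (𝔓.p : 𝒪) ∈ maximalIdeal 𝒪) (h : MltoOrdForm 𝔓 r₀) {φ : GQ}
    (hφ : φ ∈ 𝔓.D) (hα : r₀ φ 1 1 ^ 2 - 1 ≠ 0) (n : ℕ) :
    ∃ ζ : Qb, IsPrimitiveRoot ζ (𝔓.p ^ n) ∧ ∀ g : 𝒪 ⧸ maximalIdeal 𝒪 ^ n,
      (∀ l : 𝒪 ⧸ maximalIdeal 𝒪 ^ n →+ ZMod (𝔓.p ^ n),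
        mltoVal 𝔓 (𝔓.p ^ n) ζ (mltoCoc r₀ (maximalIdeal 𝒪 ^ n) l) = l g) → g = 0 := by
  obtain ⟨ϖ, hϖ⟩ := IsDiscreteValuationRing.exists_irreducible 𝒪
  obtain ⟨e, u, hu⟩ := IsDiscreteValuationRing.eq_unit_mul_pow_irreducible hα hϖ
  have hmax : maximalIdeal 𝒪 = Ideal.span {ϖ} := hϖ.maximalIdeal_eq
  have hpk : ∀ k j : ℕ, j ≤ k → (𝔓.p : 𝒪) ^ k ∈ maximalIdeal 𝒪 ^ j := fun k j hjk =>
    Ideal.pow_le_pow_right hjk (Ideal.pow_mem_pow hp𝒪 k)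
  haveI : NeZero ((𝔓.p ^ (n + e) : ℕ) : Qb) := ⟨by
    exact_mod_cast pow_ne_zero _ 𝔓.hp.ne_zero⟩
  obtain ⟨ζ', hζ'⟩ := HasEnoughRootsOfUnity.exists_primitiveRoot Qb (𝔓.p ^ (n + e))
  have hζ : IsPrimitiveRoot (ζ' ^ 𝔓.p ^ e) (𝔓.p ^ n) :=
    hζ'.pow (pow_pos 𝔓.hp.pos _) (by rw [pow_add, mul_comm])
  refine ⟨ζ' ^ 𝔓.p ^ e, hζ, fun g hg => ?_⟩
  have hIbig := mlto_finite_quot_pow (𝒪 := 𝒪) (n + e)
  have hIn := mlto_finite_quot_pow (𝒪 := 𝒪) n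
  obtain ⟨gb, hgb⟩ := h.exists_valEl hIbig (hpk (n + e) (n + e) le_rfl) hζ'
  have hfrob := h.valEl_frob hIbig (hpk (n + e) (n + e) le_rfl) hζ' hgb hφ
  obtain ⟨gt, rfl⟩ := Ideal.Quotient.mk_surjective gb
  -- `gt ∈ 𝔪 ^ n`
  have hgt : gt ∈ maximalIdeal 𝒪 ^ n := by
    rw [← map_pow, ← map_one (Ideal.Quotient.mk (maximalIdeal 𝒪 ^ (n + e))), ← map_sub,
      ← map_mul, Ideal.Quotient.eq_zero_iff_mem, hu, hmax, Ideal.span_singleton_pow,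
      Ideal.mem_span_singleton'] at hfrob
    obtain ⟨c, hc⟩ := hfrob
    rw [hmax, Ideal.span_singleton_pow, Ideal.mem_span_singleton']
    refine ⟨↑u⁻¹ * c, ?_⟩
    have hϖ0 : ϖ ^ e ≠ 0 := pow_ne_zero _ hϖ.ne_zero
    apply mul_left_cancel₀ hϖ0
    have : ϖ ^ e * (↑u⁻¹ * c * ϖ ^ n) = ↑u⁻¹ * (c * ϖ ^ (n + e)) := by
      rw [pow_add]; ring
    rw [this, hc]
    have h2 : (↑u⁻¹ : 𝒪) * (↑u * ϖ ^ e * gt) = ϖ ^ e * gt := by
      rw [← mul_assoc, ← mul_assoc, Units.inv_mul, one_mul]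
    exact h2
  have hle : maximalIdeal 𝒪 ^ (n + e) ≤ maximalIdeal 𝒪 ^ n :=
    Ideal.pow_le_pow_right (Nat.le_add_right n e)
  obtain ⟨gm, hgm⟩ := h.exists_valEl hIn (hpk (n + e) n (Nat.le_add_right n e)) hζ'
  have h1 := mlto_valEl_mono h hle hIn (hpk (n + e) n (Nat.le_add_right n e)) hgb hgm
  have h2 : gm = 0 := by
    rw [← h1, Ideal.Quotient.factor_mk, Ideal.Quotient.eq_zero_iff_mem]
    exact hgt
  have h3 := mlto_valEl_add h hIn (hpk n n le_rfl) e hζ' hg hgm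
  rw [← h3, h2]

end Base

end

end Fermat.Agent.MLT
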