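/-
Project MLT, stream TWO (helper7), the step at `p`: **the ordinary form of an ordinary
representation**.

* `mlto_exists_pow_le_of_finite` : an ideal of finite index of a local ring contains a power of the
  maximal ideal;
* `mlto_lev_of_matCts` : an adically continuous matrix representation is locally constant modulo
  every ideal of finite index;
* `mlto_ordForm_of_isOrdinaryAt` : a representation with cyclotomic determinant which is ordinary at
  `p` has, for every place `𝔓` over `p`, a matrix form which is in ordinary form (`MltoOrdForm`).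
-/
import Fermat.Agent.Lib.MLT.TWO.KnNat
import Fermat.Agent.Lib.MLT.TWO.DefCondOrdBridge

set_option autoImplicit false
set_option linter.style.haveILetI false
set_option linter.unusedSectionVars false
set_option linter.unusedVariables false

open Fermat.Agent.S53Lib IsLocalRing GaloisRep
open Fermat.Agent.TW Fermat.Agent.S05Lib

namespace Fermat.Agent.MLT

local notation "Qb" => AlgebraicClosure ℚ

noncomputable section

variable {A : Type} [CommRing A] [IsLocalRing A]

/-- an ideal of finite index of a local ring contains a power of the maximal ideal -/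
theorem mlto_exists_pow_le_of_finite (I : Ideal A) (hI : Finite (A ⧸ I)) :
    ∃ n : ℕ, maximalIdeal A ^ n ≤ I := by
  by_cases hI1 : I = ⊤
  · exact ⟨0, by rw [hI1]; exact le_top⟩
  haveI : Nontrivial (A ⧸ I) := Ideal.Quotient.nontrivial_iff.2 hI1
  haveI : IsLocalRing (A ⧸ I) :=
    IsLocalRing.of_surjective' (Ideal.Quotient.mk I) Ideal.Quotient.mk_surjective
  haveI : IsLocalHom (Ideal.Quotient.mk I) :=
    IsLocalHom.of_surjective (Ideal.Quotient.mk I) Ideal.Quotient.mk_surjective
  haveI := hI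
  obtain ⟨n, hn⟩ := IsArtinianRing.isNilpotent_jacobson_bot (R := A ⧸ I)
  rw [IsLocalRing.jacobson_eq_maximalIdeal ⊥ bot_ne_top] at hn
  refine ⟨n, fun a ha => ?_⟩
  have h1 : Ideal.Quotient.mk I a ∈ (maximalIdeal A ^ n).map (Ideal.Quotient.mk I) :=
    Ideal.mem_map_of_mem _ ha
  rw [Ideal.map_pow] at h1
  have h2 : (maximalIdeal A).map (Ideal.Quotient.mk I) ^ n ≤ maximalIdeal (A ⧸ I) ^ n :=
    Ideal.pow_right_mono (IsLocalRing.map_maximalIdeal_le (Ideal.Quotient.mk I)) n
  have h3 := h2 h1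
  rw [hn] at h3
  exact Ideal.Quotient.eq_zero_iff_mem.1 h3

/-- an adically continuous matrix representation is locally constant modulo every ideal of finite
index -/
theorem mlto_lev_of_matCts (r : GQ →* Matrix (Fin 2) (Fin 2) A) (hr : MatCts A r) (I : Ideal A)
    (hI : Finite (A ⧸ I)) :
    ∃ F : IntermediateField ℚ Qb, FiniteDimensional ℚ F ∧
      ∀ σ τ : GQ, (∀ x ∈ F, σ x = τ x) → ∀ i j, r σ i j - r τ i j ∈ I := by
  obtain ⟨n, hn⟩ := mlto_exists_pow_le_of_finite I hI
  obtain ⟨L, hL, h⟩ := hr n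
  refine ⟨L, hL, fun σ τ hx i j => ?_⟩
  have hδ : ∀ x ∈ L, (σ⁻¹ * τ) x = x := by
    intro x hxL
    show σ⁻¹ (τ x) = x
    rw [← hx x hxL]
    exact σ.symm_apply_apply x
  have h1 := h (σ⁻¹ * τ) hδ
  have h2 : r τ = r σ * r (σ⁻¹ * τ) := by
    rw [← map_mul, mul_inv_cancel_left]
  have h3 : r σ i j - r τ i j = -(∑ k, r σ i k * (r (σ⁻¹ * τ) - 1) k j) := by
    rw [h2, Matrix.mul_apply, ← Finset.sum_neg_distrib]
    have : r σ i j = ∑ k, r σ i k * (1 : Matrix (Fin 2) (Fin 2) A) k j := by
      rw [← Matrix.mul_apply, mul_one]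
    rw [this, ← Finset.sum_sub_distrib]
    refine Finset.sum_congr rfl fun k _ => ?_
    rw [Matrix.sub_apply]
    ring
  rw [h3]
  refine I.neg_mem (I.sum_mem fun k _ => I.mul_mem_left _ (hn (h1 k j)))

/-- **the ordinary form of an ordinary representation** -/
theorem mlto_ordForm_of_isOrdinaryAt (𝔓 : FFPlace) (ρ : GaloisRepAdic A)
    (hdet : ρ.DetIsCyclotomic 𝔓.p) (hord : ρ.IsOrdinaryAt 𝔓.p) :
    ∃ (r : GQ →* Matrix (Fin 2) (Fin 2) A) (hr : MatCts A r),
      ρ.IsEquiv (ofMat r hr) ∧ MltoOrdForm 𝔓 (fun σ => r σ) := by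
  obtain ⟨L, ⟨b, hb⟩, hD, hI⟩ := hord 𝔓.P 𝔓.hP
  set r := toMatrixRep ρ b with hr
  have hcts : MatCts A r := toMatrixRep_continuous ρ b
  refine ⟨r, hcts, ⟨equivOfMatrix ρ b⟩, ?_⟩
  have hb0 : b 0 ∈ L := by rw [hb]; exact Submodule.mem_span_singleton_self _
  have hentry : ∀ σ i j, r σ i j = b.repr (ρ.ρ σ (b j)) i := by
    intro σ i j
    rw [hr, toMatrixRep_apply, LinearMap.toMatrix_apply]
  refine ⟨map_one r, fun σ τ => map_mul r σ τ, ?_, ?_, ?_, ?_⟩
  · intro σ hσ
    show r σ 1 0 = 0
    rw [hentry]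
    refine mlto_repr_one_of_mem b ?_
    rw [← hb]
    exact hD σ hσ _ hb0
  · intro σ hσ
    show r σ 1 1 = 1
    rw [hentry]
    have h1 := hI σ hσ (b 1)
    rw [hb] at h1
    have h2 := mlto_repr_one_of_mem b h1
    rw [map_sub, Finsupp.sub_apply, Module.Basis.repr_self, Finsupp.single_apply,
      if_pos rfl, sub_eq_zero] at h2
    exact h2
  · intro σ hσ m a ha
    have h1 := hdet.2 m σ a ha
    have h2 : (r σ).det = LinearMap.det (ρ.ρ σ) := by
      rw [hr, toMatrixRep_apply, LinearMap.det_toMatrix]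
    show (r σ).det - (a : A) ∈ _
    rw [h2]
    exact h1
  · intro I hI
    exact mlto_lev_of_matCts r hcts I hI

end

end Fermat.Agent.MLT
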