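/-
Project MLT, stream TWO (helper7), the step at `p`: **formal consequences of the universal
properties**.

`D`, `D'` universal deformations for `𝒟`, `𝒟'`, `π : D'.R → D.R` with `D'.ρ ⊗_π D.R ≅ D.ρ`.

* `mlto_pi_surjective_of_equiv` : if `𝒟` is stable under surjective base change (and `D.R` has an
  `𝒪`-point), then `π` is surjective;
* `mlto_ker_le_of_cond` : `ker π` is contained in the kernel of every surjection `pr` of `D'.R` onto
  a test object such that `D'.ρ ⊗_pr B` satisfies `𝒟`.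
-/
import Fermat.Agent.Lib.MLT.TWO.Univ

set_option autoImplicit false
set_option linter.unusedSectionVars false
set_option linter.style.haveILetI false

open Fermat.Agent.S53Lib IsLocalRing GaloisRep
open Fermat.Agent.TW

namespace Fermat.Agent.MLT

section

variable {𝒪 : Type} [CommRing 𝒪] [IsDomain 𝒪] [IsDiscreteValuationRing 𝒪]
  [IsAdicComplete (maximalIdeal 𝒪) 𝒪]
  {ρbar : ResidualGaloisRep (ResidueField 𝒪)}
  {𝒟 𝒟' : ∀ ⦃A : Type⦄ [CommRing A] [IsLocalRing A] [Algebra 𝒪 A], GaloisRepAdic A → Prop}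
  (D : DeformationRingData 𝒪 ρbar 𝒟) (D' : DeformationRingData 𝒪 ρbar 𝒟')
  (π : D'.R →ₐ[𝒪] D.R) (hπ : IsLocalHom (π : D'.R →+* D.R))
  (hπρ : (D'.ρ.baseChangeAlong (π : D'.R →+* D.R) hπ).IsEquiv D.ρ)

include hπρ in
/-- **`ker π` is contained in the kernel of every surjection onto a test object over which the
universal deformation of `D'` satisfies `𝒟`.** -/
theorem mlto_ker_le_of_cond
    (hbc' : ∀ ⦃A B : Type⦄ [CommRing A] [IsLocalRing A] [Algebra 𝒪 A] [CommRing B] [IsLocalRing B]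
      [Algebra 𝒪 B] (φ : A →ₐ[𝒪] B) (hφ : IsLocalHom (φ : A →+* B)), Function.Surjective φ →
      ∀ ρ : GaloisRepAdic A, 𝒟' ρ → 𝒟' (ρ.baseChangeAlong (φ : A →+* B) hφ))
    {B : Type} [CommRing B] [IsLocalRing B] [IsNoetherianRing B]
    [IsAdicComplete (maximalIdeal B) B] [Algebra 𝒪 B] [IsLocalHom (algebraMap 𝒪 B)]
    (hres : Function.Surjective (residue B ∘ algebraMap 𝒪 B))
    (pr : D'.R →ₐ[𝒪] B) (hpr : IsLocalHom (pr : D'.R →+* B)) (hsurj : Function.Surjective pr)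
    (h𝒟B : 𝒟 (D'.ρ.baseChangeAlong (pr : D'.R →+* B) hpr)) :
    RingHom.ker (π : D'.R →+* D.R) ≤ RingHom.ker (pr : D'.R →+* B) := by
  have h𝒟'B : 𝒟' (D'.ρ.baseChangeAlong (pr : D'.R →+* B) hpr) :=
    hbc' pr hpr hsurj D'.ρ D'.isOfType
  have hresB := mlto_residual_bc D' pr hpr
  obtain ⟨ψ, ⟨hψ, heψ⟩, -⟩ := D.universal B hres _ h𝒟B hresB
  obtain ⟨φ₀, -, huniq⟩ := D'.universal B hres _ h𝒟'B hresB
  have h1 : pr = φ₀ := huniq pr ⟨hpr, ⟨GaloisRepAdic.Equiv.refl _⟩⟩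
  have hloc : IsLocalHom ((ψ.comp π : D'.R →ₐ[𝒪] B) : D'.R →+* B) :=
    isLocalHom_of_algHom D'.instIsLocalHom D'.residue_surjective inferInstance hres (ψ.comp π)
  have h2 : ψ.comp π = φ₀ := by
    refine huniq (ψ.comp π) ⟨hloc, ?_⟩
    have e1 : ((D'.ρ.baseChangeAlong (π : D'.R →+* D.R) hπ).baseChangeAlong
        (ψ : D.R →+* B) hψ).IsEquiv
        (D'.ρ.baseChangeAlong ((ψ : D.R →+* B).comp (π : D'.R →+* D.R)) hloc) :=
      mlto_bc_comp _ hπ _ hψ hloc D'.ρ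
    exact mlto_isEquiv_trans (mlto_isEquiv_symm e1)
      (mlto_isEquiv_trans (mlto_isEquiv_bc hπρ _ hψ) heψ)
  intro z hz
  rw [RingHom.mem_ker] at hz ⊢
  have h3 : pr z = (ψ.comp π) z := by rw [h1, h2]
  show pr z = 0
  rw [h3]
  show ψ (π z) = 0
  have hz' : π z = 0 := hz
  rw [hz', map_zero]

include hπρ in
/-- **`π` is surjective** as soon as `𝒟` is stable under surjective base change. -/
theorem mlto_pi_surjective_of_equiv
    (hbc : ∀ ⦃A B : Type⦄ [CommRing A] [IsLocalRing A] [Algebra 𝒪 A] [CommRing B] [IsLocalRing B]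
      [Algebra 𝒪 B] (φ : A →ₐ[𝒪] B) (hφ : IsLocalHom (φ : A →+* B)), Function.Surjective φ →
      ∀ ρ : GaloisRepAdic A, 𝒟 ρ → 𝒟 (ρ.baseChangeAlong (φ : A →+* B) hφ))
    (x : D.R →ₐ[𝒪] 𝒪) : Function.Surjective π := by
  refine algHom_surjective_of_le_map_sup_sq π hπ (IsNoetherian.noetherian _) D.residue_surjective ?_
  set J : Ideal D.R := (maximalIdeal D'.R).map π ⊔ maximalIdeal D.R ^ 2 with hJdef
  have hJle : J ≤ maximalIdeal D.R := by
    refine sup_le ?_ (Ideal.pow_le_self two_ne_zero)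
    haveI := hπ
    exact IsLocalRing.map_maximalIdeal_le (π : D'.R →+* D.R)
  have hJ : J ≠ ⊤ := fun h => (maximalIdeal.isMaximal D.R).ne_top (top_le_iff.1 (h ▸ hJle))
  haveI : Nontrivial (D.R ⧸ J) := Ideal.Quotient.nontrivial_iff.2 hJ
  haveI : IsLocalRing (D.R ⧸ J) :=
    IsLocalRing.of_surjective' (Ideal.Quotient.mk J) Ideal.Quotient.mk_surjective
  haveI : IsAdicComplete (maximalIdeal (D.R ⧸ J)) (D.R ⧸ J) :=
    isAdicComplete_of_surjective (Ideal.Quotient.mk J) Ideal.Quotient.mk_surjective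
  let s : D.R →ₐ[𝒪] D.R ⧸ J := Ideal.Quotient.mkₐ 𝒪 J
  have hssurj : Function.Surjective s := Ideal.Quotient.mkₐ_surjective 𝒪 J
  have hres : Function.Surjective (residue (D.R ⧸ J) ∘ algebraMap 𝒪 (D.R ⧸ J)) :=
    residue_comp_algebraMap_surjective_of_surjective s hssurj D.residue_surjective
  have hs0 : IsLocalHom (Ideal.Quotient.mk J) :=
    IsLocalHom.of_surjective (Ideal.Quotient.mk J) Ideal.Quotient.mk_surjective
  haveI hlocC : IsLocalHom (algebraMap 𝒪 (D.R ⧸ J)) := by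
    have h1 : algebraMap 𝒪 (D.R ⧸ J) = (Ideal.Quotient.mk J).comp (algebraMap 𝒪 D.R) := rfl
    rw [h1]
    haveI := D.instIsLocalHom
    haveI := hs0
    exact RingHom.isLocalHom_comp _ _
  have hs : IsLocalHom (s : D.R →+* D.R ⧸ J) := hs0
  let t : D.R →ₐ[𝒪] D.R ⧸ J := (Algebra.ofId 𝒪 (D.R ⧸ J)).comp x
  have ht : IsLocalHom (t : D.R →+* D.R ⧸ J) :=
    isLocalHom_of_algHom D.instIsLocalHom D.residue_surjective hlocC hres t
  -- the structure map kills the maximal ideal of `𝒪`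
  have hkill : ∀ a ∈ maximalIdeal 𝒪, algebraMap 𝒪 (D.R ⧸ J) a = 0 := by
    intro a ha
    show Ideal.Quotient.mk J (algebraMap 𝒪 D.R a) = 0
    rw [Ideal.Quotient.eq_zero_iff_mem, ← π.commutes a]
    refine Ideal.mem_sup_left (Ideal.mem_map_of_mem _ ?_)
    haveI := D'.instIsLocalHom
    exact (mem_maximalIdeal _).2 (map_nonunit (algebraMap 𝒪 D'.R) a ((mem_maximalIdeal _).1 ha))
  have hxloc : IsLocalHom (x : D.R →+* 𝒪) :=
    isLocalHom_of_algHom D.instIsLocalHom D.residue_surjective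
      (by rw [Algebra.algebraMap_self]; infer_instance)
      (by rw [Algebra.algebraMap_self]; exact IsLocalRing.residue_surjective) x
  have htm : ∀ m ∈ maximalIdeal D.R, t m = 0 := by
    intro m hm
    show algebraMap 𝒪 (D.R ⧸ J) (x m) = 0
    refine hkill _ ?_
    haveI := hxloc
    exact (mem_maximalIdeal _).2 (map_nonunit (x : D.R →+* 𝒪) m ((mem_maximalIdeal _).1 hm))
  -- `s ∘ π = t ∘ π`
  have hcomp : s.comp π = t.comp π := by
    apply AlgHom.ext
    intro r'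
    obtain ⟨a, ha⟩ := D'.residue_surjective (residue D'.R r')
    rw [Function.comp_apply] at ha
    have hm : r' - algebraMap 𝒪 D'.R a ∈ maximalIdeal D'.R := by
      rw [← residue_eq_zero_iff, map_sub, ha, sub_self]
    have hr' : r' = algebraMap 𝒪 D'.R a + (r' - algebraMap 𝒪 D'.R a) := by ring
    rw [hr', map_add, map_add, AlgHom.commutes, AlgHom.commutes]
    congr 1
    have h1 : (s.comp π) (r' - algebraMap 𝒪 D'.R a) = 0 := by
      show Ideal.Quotient.mk J (π (r' - algebraMap 𝒪 D'.R a)) = 0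
      rw [Ideal.Quotient.eq_zero_iff_mem]
      exact Ideal.mem_sup_left (Ideal.mem_map_of_mem _ hm)
    have h2 : (t.comp π) (r' - algebraMap 𝒪 D'.R a) = 0 := by
      show t (π (r' - algebraMap 𝒪 D'.R a)) = 0
      refine htm _ ?_
      haveI := hπ
      exact (mem_maximalIdeal _).2
        (map_nonunit (π : D'.R →+* D.R) _ ((mem_maximalIdeal _).1 hm))
    rw [h1, h2]
  -- the two base changes are isomorphic
  have hcompR : (s : D.R →+* D.R ⧸ J).comp (π : D'.R →+* D.R) =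
      (t : D.R →+* D.R ⧸ J).comp (π : D'.R →+* D.R) := by
    ext r'
    exact AlgHom.congr_fun hcomp r'
  have hlocs : IsLocalHom ((s : D.R →+* D.R ⧸ J).comp (π : D'.R →+* D.R)) :=
    isLocalHom_of_algHom D'.instIsLocalHom D'.residue_surjective hlocC hres (s.comp π)
  have hloct : IsLocalHom ((t : D.R →+* D.R ⧸ J).comp (π : D'.R →+* D.R)) :=
    isLocalHom_of_algHom D'.instIsLocalHom D'.residue_surjective hlocC hres (t.comp π)
  have e1 : (D.ρ.baseChangeAlong (t : D.R →+* D.R ⧸ J) ht).IsEquiv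
      (D.ρ.baseChangeAlong (s : D.R →+* D.R ⧸ J) hs) := by
    refine mlto_isEquiv_trans (mlto_isEquiv_bc (mlto_isEquiv_symm hπρ) _ ht) ?_
    refine mlto_isEquiv_trans (mlto_bc_comp _ hπ _ ht hloct D'.ρ) ?_
    refine mlto_isEquiv_trans (mlto_bc_congr hcompR.symm hloct hlocs D'.ρ) ?_
    refine mlto_isEquiv_trans (mlto_isEquiv_symm (mlto_bc_comp _ hπ _ hs hlocs D'.ρ)) ?_
    exact mlto_isEquiv_bc hπρ _ hs
  have h𝒟s : 𝒟 (D.ρ.baseChangeAlong (s : D.R →+* D.R ⧸ J) hs) :=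
    hbc s hs hssurj D.ρ D.isOfType
  obtain ⟨φ₀, -, huniq⟩ := D.universal (D.R ⧸ J) hres _ h𝒟s (mlto_residual_bc D s hs)
  have h1 : s = φ₀ := huniq s ⟨hs, ⟨GaloisRepAdic.Equiv.refl _⟩⟩
  have h2 : t = φ₀ := huniq t ⟨ht, e1⟩
  intro m hm
  have h3 : s m = t m := by rw [h1, h2]
  rw [htm m hm] at h3
  exact Ideal.Quotient.eq_zero_iff_mem.1 h3

end

end Fermat.Agent.MLT
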