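/-
Project MLT, stream TWO (helper7), **the step at `p`: the growth bound from the flat to the
ordinary deformation problem** (Galois side, blocker (5a)).

`𝒟'` ("ordinary") implies cyclotomic determinant and ordinary at `p`; `𝒟` ("flat") is implied, over
finite rings, by `𝒟'` together with the peu ramifié condition `MltoPeu` (unit Kummer generators).
`π : R' = D'.R → R = D.R` the canonical map, `x : R → 𝒪`.  Then `π` is surjective and
`length Φ_{R'} ≤ length Φ_R + length 𝒪/(α² - 1)`, where `α` is the eigenvalue of `φ ∈ D_𝔓` on the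
unramified quotient of `ρ_x`.

* `MltoPeuLevel`, `MltoPeu` : the peu ramifié condition (matrix form / representation form);
* `mlto_growthP_step`       : the Galois input at level `n` for `mlto_cot_growth`;
* `mlto_growthP_matrix`     : the bound, `α = x (π (r' φ 1 1))` for an ordinary form `r'` of `D'.ρ`.
-/
import Fermat.Agent.Lib.MLT.TWO.KnForm
import Fermat.Agent.Lib.MLT.TWO.KnBase
import Fermat.Agent.Lib.MLT.TWO.KnSurj
import Fermat.Agent.Lib.MLT.TWO.KnStepAlg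

set_option autoImplicit false
set_option linter.style.haveILetI false
set_option linter.unusedSectionVars false
set_option linter.unusedVariables false

open Fermat.Agent.S53Lib IsLocalRing GaloisRep
open Fermat.Agent.TW Fermat.Agent.S05Lib

namespace Fermat.Agent.MLT

local notation "Qb" => AlgebraicClosure ℚ

noncomputable section

/-- **peu ramifié at a finite level** (matrix form): for one level `m` with `p ^ m = 0` in `A` and one
primitive `p ^ m`-th root of unity `ζ`, all the Kummer cocycles `ι ↦ l (c ι mod I)` of the inertia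
group have generators which are units at `𝔓` -/
def MltoPeuLevel (𝔓 : FFPlace) {A : Type*} [CommRing A] (r : GQ → Matrix (Fin 2) (Fin 2) A) :
    Prop :=
  ∃ (m : ℕ) (ζ : Qb), IsPrimitiveRoot ζ (𝔓.p ^ m) ∧ (𝔓.p : A) ^ m = 0 ∧
    ∀ (I : Ideal A) (l : A ⧸ I →+ ZMod (𝔓.p ^ m)),
      ∃ y, MltoGen 𝔓 (𝔓.p ^ m) ζ (mltoCoc r I l) y ∧ 𝔓.v.Is y 0

/-- **the peu ramifié condition** for a representation over a (finite) local ring: some matrix form
is in ordinary form at `𝔓` and peu ramifié -/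
def MltoPeu (𝔓 : FFPlace) {A : Type} [CommRing A] [IsLocalRing A] (ρ : GaloisRepAdic A) : Prop :=
  ∃ (r : GQ →* Matrix (Fin 2) (Fin 2) A) (hr : MatCts A r), ρ.IsEquiv (ofMat r hr) ∧
    MltoOrdForm 𝔓 (fun σ => r σ) ∧ MltoPeuLevel 𝔓 (fun σ => r σ)

section Main

variable {𝒪 : Type} [CommRing 𝒪] [IsDomain 𝒪] [IsDiscreteValuationRing 𝒪]
  [IsAdicComplete (maximalIdeal 𝒪) 𝒪] [Finite (ResidueField 𝒪)]
  {ρbar : ResidualGaloisRep (ResidueField 𝒪)}
  {𝒟 𝒟' : ∀ ⦃A : Type⦄ [CommRing A] [IsLocalRing A] [Algebra 𝒪 A], GaloisRepAdic A → Prop}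
  (𝔓 : FFPlace) (hp𝒪 : (𝔓.p : 𝒪) ∈ maximalIdeal 𝒪)
  (hbc' : ∀ ⦃A B : Type⦄ [CommRing A] [IsLocalRing A] [Algebra 𝒪 A] [CommRing B] [IsLocalRing B]
    [Algebra 𝒪 B] (φ : A →ₐ[𝒪] B) (hφ : IsLocalHom (φ : A →+* B)), Function.Surjective φ →
    ∀ ρ : GaloisRepAdic A, 𝒟' ρ → 𝒟' (ρ.baseChangeAlong (φ : A →+* B) hφ))
  (hG2 : ∀ ⦃A : Type⦄ [CommRing A] [IsLocalRing A] [Algebra 𝒪 A] (ρ : GaloisRepAdic A),
    Finite A → 𝒟' ρ → MltoPeu 𝔓 ρ → 𝒟 ρ)
  (D : DeformationRingData 𝒪 ρbar 𝒟) (D' : DeformationRingData 𝒪 ρbar 𝒟')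
  (π : D'.R →ₐ[𝒪] D.R) (hπ : IsLocalHom (π : D'.R →+* D.R))
  (hπρ : (D'.ρ.baseChangeAlong (π : D'.R →+* D.R) hπ).IsEquiv D.ρ)
  (x : D.R →ₐ[𝒪] 𝒪)
  (r' : GQ →* Matrix (Fin 2) (Fin 2) D'.R) (hr' : MatCts D'.R r')
  (he : D'.ρ.IsEquiv (ofMat r' hr')) (hform : MltoOrdForm 𝔓 (fun σ => r' σ))
  (φ : GQ) (hφ : φ ∈ 𝔓.D)

omit [IsAdicComplete (maximalIdeal 𝒪) 𝒪] in
/-- the residue field of a local `𝒪`-algebra with `𝒪 → A/𝔪` surjective is finite -/
theorem mlto_finite_residueField {A : Type} [CommRing A] [IsLocalRing A]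
    [Algebra 𝒪 A] [IsLocalHom (algebraMap 𝒪 A)]
    (hres : Function.Surjective (residue A ∘ algebraMap 𝒪 A)) : Finite (ResidueField A) := by
  refine Finite.of_surjective (ResidueField.map (algebraMap 𝒪 A)) ?_
  intro y
  obtain ⟨a, ha⟩ := hres y
  exact ⟨residue 𝒪 a, by rw [ResidueField.map_residue]; exact ha⟩

omit [IsAdicComplete (maximalIdeal 𝒪) 𝒪] in
theorem mlto_finite_quot_maxPow {A : Type} [CommRing A] [IsLocalRing A]
    [IsNoetherianRing A] [Algebra 𝒪 A] [IsLocalHom (algebraMap 𝒪 A)]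
    (hres : Function.Surjective (residue A ∘ algebraMap 𝒪 A)) (n : ℕ) :
    Finite (A ⧸ maximalIdeal A ^ n) := by
  haveI : Finite (A ⧸ maximalIdeal A) := mlto_finite_residueField hres
  exact Ideal.finite_quotient_pow (IsNoetherian.noetherian _) n

include hp𝒪 hbc' hG2 hπρ he hform hφ in
/-- **the step at level `n`** -/
theorem mlto_growthP_step (hα : (x.comp π) (r' φ 1 1) ^ 2 - 1 ≠ 0) (n : ℕ) :
    ∃ v : Fin 3 → D'.R,
      (∀ j, v j ∈ RingHom.ker ((x.comp π : D'.R →ₐ[𝒪] 𝒪) : D'.R →+* 𝒪)) ∧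
      (∀ s ∈ RingHom.ker (π : D'.R →+* D.R),
        s ∈ mltoA (x.comp π) n ⊔ Ideal.span (Set.range v)) ∧
      (∀ i, ∑ j, algebraMap 𝒪 D'.R
        (Matrix.diagonal ![(x.comp π) (r' φ 1 1) ^ 2 - 1, 1, 1] i j) * v j ∈
          mltoA (x.comp π) n) := by
  classical
  set x' : D'.R →ₐ[𝒪] 𝒪 := x.comp π with hx'
  have hfin : ∀ k, Finite (D'.R ⧸ maximalIdeal D'.R ^ k) := fun k =>
    mlto_finite_quot_maxPow D'.residue_surjective k
  have hpR : (𝔓.p : D'.R) ∈ maximalIdeal D'.R := by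
    have h1 : (𝔓.p : D'.R) = algebraMap 𝒪 D'.R (𝔓.p : 𝒪) := (map_natCast _ _).symm
    rw [h1]
    haveI := D'.instIsLocalHom
    exact (mem_maximalIdeal _).2 (map_nonunit (algebraMap 𝒪 D'.R) _ ((mem_maximalIdeal _).1 hp𝒪))
  have hpk : (𝔓.p : D'.R) ^ (n + 1) ∈ maximalIdeal D'.R ^ (n + 1) := Ideal.pow_mem_pow hpR _
  -- the base point
  have hform₀ : MltoOrdForm 𝔓 (fun σ => (r' σ).map (x' : D'.R →+* 𝒪)) := hform.map _
  have hα₀ : ((r' φ).map (x' : D'.R →+* 𝒪)) 1 1 ^ 2 - 1 ≠ 0 := hα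
  obtain ⟨ζ, hζ, hbase⟩ := mlto_valEl_base hp𝒪 hform₀ hφ hα₀ (n + 1)
  obtain ⟨g, hg⟩ := hform.exists_valEl (hfin (n + 1)) hpk hζ
  obtain ⟨vt, rfl⟩ := Ideal.Quotient.mk_surjective g
  -- `x' vt ∈ 𝔪_𝒪 ^ (n + 1)`
  have hvt : x' vt ∈ maximalIdeal 𝒪 ^ (n + 1) := by
    have hIJ : maximalIdeal D'.R ^ (n + 1) ≤
        (maximalIdeal 𝒪 ^ (n + 1)).comap (x' : D'.R →+* 𝒪) := by
      rw [← Ideal.map_le_iff_le_comap]
      exact mlto_map_pow_le x' (n + 1)
    have hJ := mlto_finite_quot_pow (𝒪 := 𝒪) (n + 1)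
    have hm𝒪 : (𝔓.p : 𝒪) ^ (n + 1) ∈ maximalIdeal 𝒪 ^ (n + 1) := Ideal.pow_mem_pow hp𝒪 _
    obtain ⟨g₀, hg₀⟩ := hform₀.exists_valEl hJ hm𝒪 hζ
    have h1 := mlto_valEl_map hform (x' : D'.R →+* 𝒪) hIJ hJ hm𝒪 hg hg₀
    rw [hbase g₀ hg₀, Ideal.quotientMap_mk, Ideal.Quotient.eq_zero_iff_mem] at h1
    exact h1
  -- the Frobenius relation
  have hrel : (r' φ 1 1 ^ 2 - 1) * vt ∈ maximalIdeal D'.R ^ (n + 1) := by
    have h1 := hform.valEl_frob (hfin (n + 1)) hpk hζ hg hφ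
    rw [← map_pow, ← map_one (Ideal.Quotient.mk (maximalIdeal D'.R ^ (n + 1))), ← map_sub,
      ← map_mul, Ideal.Quotient.eq_zero_iff_mem] at h1
    exact h1
  -- the kernel of `π`
  have hker : RingHom.ker (π : D'.R →+* D.R) ≤
      maximalIdeal D'.R ^ (n + 1) ⊔ Ideal.span {vt} := by
    set J : Ideal D'.R := maximalIdeal D'.R ^ (n + 1) ⊔ Ideal.span {vt} with hJdef
    by_cases hJ : J = ⊤
    · rw [hJ]; exact le_top
    haveI : Nontrivial (D'.R ⧸ J) := Ideal.Quotient.nontrivial_iff.2 hJ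
    haveI : IsLocalRing (D'.R ⧸ J) :=
      IsLocalRing.of_surjective' (Ideal.Quotient.mk J) Ideal.Quotient.mk_surjective
    haveI : IsAdicComplete (maximalIdeal (D'.R ⧸ J)) (D'.R ⧸ J) :=
      isAdicComplete_of_surjective (Ideal.Quotient.mk J) Ideal.Quotient.mk_surjective
    let pr : D'.R →ₐ[𝒪] D'.R ⧸ J := Ideal.Quotient.mkₐ 𝒪 J
    have hprsurj : Function.Surjective pr := Ideal.Quotient.mkₐ_surjective 𝒪 J
    have hres : Function.Surjective (residue (D'.R ⧸ J) ∘ algebraMap 𝒪 (D'.R ⧸ J)) :=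
      residue_comp_algebraMap_surjective_of_surjective pr hprsurj D'.residue_surjective
    have hpr0 : IsLocalHom (Ideal.Quotient.mk J) :=
      IsLocalHom.of_surjective (Ideal.Quotient.mk J) Ideal.Quotient.mk_surjective
    haveI hlocB : IsLocalHom (algebraMap 𝒪 (D'.R ⧸ J)) := by
      have h1 : algebraMap 𝒪 (D'.R ⧸ J) = (Ideal.Quotient.mk J).comp (algebraMap 𝒪 D'.R) := rfl
      rw [h1]
      haveI := D'.instIsLocalHom
      haveI := hpr0
      exact RingHom.isLocalHom_comp _ _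
    have hpr : IsLocalHom (pr : D'.R →+* D'.R ⧸ J) := hpr0
    have hleJ : maximalIdeal D'.R ^ (n + 1) ≤ J := le_sup_left
    have hfinB : Finite (D'.R ⧸ J) :=
      haveI := hfin (n + 1)
      Finite.of_surjective (Ideal.Quotient.factor hleJ) (Ideal.Quotient.factor_surjective hleJ)
    have hkerpr : RingHom.ker (pr : D'.R →+* D'.R ⧸ J) = J := Ideal.mk_ker
    -- the peu ramifié condition over `D'.R ⧸ J`
    have hformB : MltoOrdForm 𝔓 (fun σ => (r' σ).map (pr : D'.R →+* D'.R ⧸ J)) := hform.map _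
    have hp0 : (𝔓.p : D'.R ⧸ J) ^ (n + 1) = 0 := by
      have h1 : (𝔓.p : D'.R ⧸ J) ^ (n + 1) = Ideal.Quotient.mk J ((𝔓.p : D'.R) ^ (n + 1)) := by
        rw [map_pow, map_natCast]
      rw [h1, Ideal.Quotient.eq_zero_iff_mem]
      exact hleJ hpk
    have hpeu : MltoPeuLevel 𝔓 (fun σ => (r' σ).map (pr : D'.R →+* D'.R ⧸ J)) := by
      refine ⟨n + 1, ζ, hζ, hp0, fun I l => ?_⟩
      have hfinI : Finite ((D'.R ⧸ J) ⧸ I) :=
        haveI := hfinB
        Finite.of_surjective (Ideal.Quotient.mk I) Ideal.Quotient.mk_surjective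
      have hmI : (𝔓.p : D'.R ⧸ J) ^ (n + 1) ∈ I := by rw [hp0]; exact I.zero_mem
      obtain ⟨gI, hgI⟩ := hformB.exists_valEl hfinI hmI hζ
      have hIJ : maximalIdeal D'.R ^ (n + 1) ≤ I.comap (pr : D'.R →+* D'.R ⧸ J) := by
        intro a ha
        rw [Ideal.mem_comap]
        have : pr a = 0 := by
          show Ideal.Quotient.mk J a = 0
          rw [Ideal.Quotient.eq_zero_iff_mem]
          exact hleJ ha
        show pr a ∈ I
        rw [this]
        exact I.zero_mem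
      have h1 := mlto_valEl_map hform (pr : D'.R →+* D'.R ⧸ J) hIJ hfinI hmI hg hgI
      have h2 : gI = 0 := by
        rw [← h1, Ideal.quotientMap_mk]
        have : (pr : D'.R →+* D'.R ⧸ J) vt = 0 := by
          show Ideal.Quotient.mk J vt = 0
          rw [Ideal.Quotient.eq_zero_iff_mem]
          exact Ideal.mem_sup_right (Ideal.subset_span rfl)
        rw [this, map_zero]
      exact ((hformB.valEl_eq_zero_iff hfinI hmI hζ hgI).1 h2) l
    have h𝒟'B : 𝒟' (D'.ρ.baseChangeAlong (pr : D'.R →+* D'.R ⧸ J) hpr) :=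
      hbc' pr hpr hprsurj D'.ρ D'.isOfType
    have h𝒟B : 𝒟 (D'.ρ.baseChangeAlong (pr : D'.R →+* D'.R ⧸ J) hpr) := by
      refine hG2 _ hfinB h𝒟'B ⟨mapMat (pr : D'.R →+* D'.R ⧸ J) r', hr'.map _ hpr,
        mlto_bc_isEquiv_ofMat _ hpr D'.ρ r' hr' he, hformB, hpeu⟩
    have h := mlto_ker_le_of_cond D D' π hπ hπρ hbc' hres pr hpr hprsurj h𝒟B
    rw [hkerpr] at h
    exact h
  -- conclusion
  have hKle : RingHom.ker (π : D'.R →+* D.R) ≤ RingHom.ker (x' : D'.R →+* 𝒪) := by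
    intro z hz
    rw [RingHom.mem_ker] at hz ⊢
    show x (π z) = 0
    have hz' : π z = 0 := hz
    rw [hz', map_zero]
  have hvt' : x' vt ∈ maximalIdeal 𝒪 ^ n := Ideal.pow_le_pow_right (Nat.le_succ n) hvt
  exact mlto_stepP_alg x' n _ hKle vt (r' φ 1 1) hvt' hrel hker

include hp𝒪 hbc' hG2 hπρ he hform hφ in
/-- **The growth bound at `p`, matrix form**: `α = x (π (r' φ 1 1))` for an ordinary form `r'` of the
universal ordinary deformation. -/
theorem mlto_growthP_matrix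
    (hbc : ∀ ⦃A B : Type⦄ [CommRing A] [IsLocalRing A] [Algebra 𝒪 A] [CommRing B] [IsLocalRing B]
      [Algebra 𝒪 B] (ψ : A →ₐ[𝒪] B) (hψ : IsLocalHom (ψ : A →+* B)), Function.Surjective ψ →
      ∀ ρ : GaloisRepAdic A, 𝒟 ρ → 𝒟 (ρ.baseChangeAlong (ψ : A →+* B) hψ)) :
    Function.Surjective π ∧
    Module.length 𝒪 (RingHom.ker ((x.comp π : D'.R →ₐ[𝒪] 𝒪) : D'.R →+* 𝒪)).Cotangent ≤
      Module.length 𝒪 (RingHom.ker (x : D.R →+* 𝒪)).Cotangent +
        Module.length 𝒪 (𝒪 ⧸ Ideal.span {(x.comp π) (r' φ 1 1) ^ 2 - 1}) := by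
  have hsurj := mlto_pi_surjective_of_equiv D D' π hπ hπρ hbc x
  refine ⟨hsurj, ?_⟩
  by_cases hα : (x.comp π) (r' φ 1 1) ^ 2 - 1 = 0
  · rw [hα, mlto_length_quot_span_zero, add_top]
    exact le_top
  have h := mlto_cot_growth π hsurj x (RingHom.ker (π : D'.R →+* D.R) : Set D'.R)
    Ideal.subset_span (Matrix.diagonal ![(x.comp π) (r' φ 1 1) ^ 2 - 1, 1, 1])
    (fun n => mlto_growthP_step 𝔓 hp𝒪 hbc' hG2 D D' π hπ hπρ x r' hr' he hform φ hφ hα n)
  have hdet : (Matrix.diagonal ![(x.comp π) (r' φ 1 1) ^ 2 - 1, 1, 1]).det =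
      (x.comp π) (r' φ 1 1) ^ 2 - 1 := by
    rw [Matrix.det_diagonal, Fin.prod_univ_three]
    simp
  rw [hdet] at h
  exact h

end Main

end

end Fermat.Agent.MLT
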