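/-
Project MLT, stream TWO (helper7), case C: the Kummer-theoretic core of
"très ramifié ⇒ every first-order ordinary lift is strictly ordinary".

* `mlto_theta_frob_twisted` : Frobenius semilinearity of the Kummer invariants for a function `n`
  which is a cocycle on the inertia group only and satisfies a TWISTED conjugation formula
  `n (φ⁻¹ ι φ) = χ(φ⁻¹) (n ι + c₀ β ι + (χ ι - 1) j₀)` with a genuine cocycle `β`;
* `mlto_twist_eq_zero` : if `ω(φ) χ(φ)⁻¹ = 1` and `β` is très ramifié then `c₀ = 0`;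
* `mlto_tkInv_fst_eq` : the first Kummer invariant of `u ∈ K0` is `ord u mod p`;
* `mlto_tkInv_pow` : `tkInv (u ^ m) = m • tkInv u`.
-/
import Fermat.Agent.Lib.TW.Ord.CoreD
import Fermat.Agent.Lib.TW.LF.Unr

set_option autoImplicit false
set_option linter.style.haveILetI false
set_option linter.unusedSectionVars false

namespace Fermat.Agent.MLT

open Fermat.Agent.TW Fermat.Agent.S05Lib

local notation "Qb" => AlgebraicClosure ℚ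
local notation "GQ" => (AlgebraicClosure ℚ ≃ₐ[ℚ] AlgebraicClosure ℚ)

noncomputable section

variable {𝔓 : FFPlace} {k : Type} [Field k] [Algebra (ZMod 𝔓.p) k] (S : TkSetupD 𝔓 k)

/-- **twisted Frobenius semilinearity** -/
theorem mlto_theta_frob_twisted {β n : GQ → k} (hβ : S.Coc β)
    (hnI : ∀ σ ∈ 𝔓.I, ∀ τ ∈ 𝔓.I, n (σ * τ) = S.χ σ * n τ + n σ)
    (hnlev : ∃ F : IntermediateField ℚ Qb, FiniteDimensional ℚ F ∧
      ∀ σ ∈ 𝔓.I, ∀ τ ∈ 𝔓.I, (∀ x ∈ F, σ x = τ x) → n σ = n τ)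
    (c₀ j₀ : k)
    (hconj : ∀ ι ∈ 𝔓.I, n (S.φ⁻¹ * ι * S.φ) =
      S.χ S.φ⁻¹ * (n ι + c₀ * β ι + (S.χ ι - 1) * j₀)) (b : k) :
    ((S.theta n b).1, (S.theta n b).2 ^ 𝔓.p) =
      S.theta n (S.beta * b) + S.theta β (S.beta * b * c₀) := by
  obtain ⟨y, hy⟩ := S.exists_gen_of_inertia hnI hnlev b
  obtain ⟨y2, hy2⟩ := S.exists_gen_of_inertia hnI hnlev (S.beta * b)
  obtain ⟨y3, hy3⟩ := hβ.exists_gen (S.beta * b * c₀)
  set j : ZMod 𝔓.p := S.lam (S.beta * b * j₀) with hj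
  have h1 := hy.frob S.hζp S.hφD (S.hω S.φ)
  have h2 := (hy2.mul S.hζp hy3).mul S.hζp
    (FFPlace.tkGen_cob S.hζp S.ω (fun σ _ => S.hω σ) j)
  have hagree : ∀ ι ∈ 𝔓.I, (fun ι => S.ω S.φ * S.aux n b (S.φ⁻¹ * ι * S.φ)) ι =
      (S.aux n (S.beta * b) + S.aux β (S.beta * b * c₀) + fun ι => (S.ω ι - 1) * j) ι := by
    intro ι hι
    simp only [Pi.add_apply, TkSetupD.aux]
    rw [hconj ι hι, S.hχ ι hι, ← S.lam_algebraMap_mul, hj, ← S.lam_algebraMap_mul, ← map_add,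
      ← map_add]
    congr 1
    unfold TkSetupD.beta
    rw [map_sub, map_one]
    ring
  have h3 := h1.congr hagree
  have h4 := FFPlace.TkGen.tkInv_eq S.hζp h2 h3
  have h5 : (y2 * y3 * lfZPow S.ζ j) ^ 𝔓.p = y2 ^ 𝔓.p * y3 ^ 𝔓.p := by
    rw [mul_pow, mul_pow, lfZPow_pow S.hζp, mul_one]
  rw [h5, 𝔓.tkInv_mul (hy2.pow_mem_K0 S.hζp) hy2.pow_ne_zero (hy3.pow_mem_K0 S.hζp)
    hy3.pow_ne_zero, ← map_pow,
    𝔓.tkInv_frob S.hφD S.hφ (hy.pow_mem_K0 S.hζp) hy.pow_ne_zero] at h4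
  unfold TkSetupD.theta
  rw [hy.tkGenInv_eq S.hζp, hy2.tkGenInv_eq S.hζp, hy3.tkGenInv_eq S.hζp]
  exact h4

/-- **the twist vanishes** if the residual extension is très ramifié and `ω(φ) χ(φ)⁻¹ = 1` -/
theorem mlto_twist_eq_zero {β n : GQ → k} (hβ : S.Coc β)
    (hnI : ∀ σ ∈ 𝔓.I, ∀ τ ∈ 𝔓.I, n (σ * τ) = S.χ σ * n τ + n σ)
    (hnlev : ∃ F : IntermediateField ℚ Qb, FiniteDimensional ℚ F ∧
      ∀ σ ∈ 𝔓.I, ∀ τ ∈ 𝔓.I, (∀ x ∈ F, σ x = τ x) → n σ = n τ)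
    (c₀ j₀ : k)
    (hconj : ∀ ι ∈ 𝔓.I, n (S.φ⁻¹ * ι * S.φ) =
      S.χ S.φ⁻¹ * (n ι + c₀ * β ι + (S.χ ι - 1) * j₀))
    (hbeta : S.beta = 1) (htres : ∃ b : k, (S.theta β b).1 ≠ 0) : c₀ = 0 := by
  by_contra hc
  obtain ⟨b, hb⟩ := htres
  apply hb
  have h := mlto_theta_frob_twisted S hβ hnI hnlev c₀ j₀ hconj (b / c₀)
  rw [hbeta, one_mul, div_mul_cancel₀ _ hc] at h
  have h1 := congrArg Prod.fst h
  simp only [Prod.fst_add] at h1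
  exact left_eq_add.1 h1

/-! ### Valuation of the first invariant -/

/-- `p`-th powers in the exponent: `ord (p ^ n) = n` for integers `n` -/
lemma mlto_is_p_zpow (𝔓 : FFPlace) (n : ℤ) : 𝔓.v.Is ((𝔓.p : Qb) ^ n) n := by
  refine ⟨zpow_ne_zero _ 𝔓.p_ne_zero, ?_⟩
  obtain ⟨m, rfl | rfl⟩ := n.eq_nat_or_neg
  · rw [zpow_natCast, (𝔓.is_p_pow m).2]
    push_cast; ring
  · rw [zpow_neg, zpow_natCast, 𝔓.v.ord_inv (pow_ne_zero _ 𝔓.p_ne_zero), (𝔓.is_p_pow m).2]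
    push_cast; ring

/-- **the first Kummer invariant is the valuation mod `p`** -/
theorem mlto_tkInv_fst_eq (𝔓 : FFPlace) {u : Qb} (hu : u ∈ 𝔓.K0) {n : ℤ}
    (hn : 𝔓.v.Is u n) : (𝔓.tkInv u).1 = (n : ZMod 𝔓.p) := by
  obtain ⟨n', z, hrep⟩ := 𝔓.tkRep_exists hu hn.1
  rw [𝔓.tkInv_eq hrep]
  obtain ⟨hzW, s, hs, hs0, hus⟩ := hrep
  obtain ⟨m, hm⟩ := 𝔓.lf_unr s hs hs0
  have h1 : 𝔓.v.Is u (n' + 𝔓.p * m + 0) := by
    rw [hus]
    refine ((mlto_is_p_zpow 𝔓 n').mul ?_).mul (𝔓.tk_is_one_add_p_mul (𝔓.tk_ge_of_mem_W hzW))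
    have := (𝔓.v.is_ord hs0).pow 𝔓.p
    rwa [hm] at this
  have h2 := hn.unique h1
  have h3 : n = n' + 𝔓.p * m := by
    have : (n : ℚ) = ((n' + 𝔓.p * m : ℤ) : ℚ) := by push_cast; linarith
    exact_mod_cast this
  show ((n' : ℤ) : ZMod 𝔓.p) = (n : ZMod 𝔓.p)
  rw [h3]
  push_cast
  rw [ZMod.natCast_self, zero_mul, add_zero]

/-- `tkInv` of a power -/
theorem mlto_tkInv_pow (𝔓 : FFPlace) {u : Qb} (hu : u ∈ 𝔓.K0) (hu0 : u ≠ 0) (m : ℕ) :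
    𝔓.tkInv (u ^ m) = m • 𝔓.tkInv u := by
  induction m with
  | zero => rw [pow_zero, zero_smul, 𝔓.tkInv_one]
  | succ m ih =>
    rw [pow_succ, 𝔓.tkInv_mul (pow_mem hu m) (pow_ne_zero m hu0) hu hu0, ih, succ_nsmul]

end

end Fermat.Agent.MLT
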