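/-
Project MLT, stream TWO (helper7), case C: a first-order lift in triangular form.

`r : G_ℚ →* M₂(k[ε])` is upper triangular on the decomposition group `D`, with lower right entry
`1` on the inertia group `I`, determinant the (constant) cyclotomic character, and `z̄² = 1` for
the reduction of the lower right entry.  If the residual extension cocycle `β = fst (y' / z')` is
très ramifié, then `(r φ 1 1) ^ 2 = 1` for the Frobenius `φ` of the Kummer setup.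
-/
import Fermat.Agent.Lib.MLT.TWO.TresKum

set_option autoImplicit false
set_option linter.style.haveILetI false
set_option linter.unusedSectionVars false
set_option linter.unusedVariables false

namespace Fermat.Agent.MLT

open Fermat.Agent.TW Fermat.Agent.S05Lib

local notation "Qb" => AlgebraicClosure ℚ
local notation "GQ" => (AlgebraicClosure ℚ ≃ₐ[ℚ] AlgebraicClosure ℚ)

noncomputable section

section Dual

variable {k : Type} [Field k]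

lemma mlto_dn_fst_mul (x y : DualNumber k) : (x * y).fst = x.fst * y.fst :=
  TrivSqZeroExt.fst_mul x y

lemma mlto_dn_snd_mul (x y : DualNumber k) : (x * y).snd = x.fst * y.snd + x.snd * y.fst := by
  rw [TrivSqZeroExt.snd_mul]
  simp only [smul_eq_mul, MulOpposite.smul_eq_mul_unop, MulOpposite.unop_op]

lemma mlto_dn_ext {x y : DualNumber k} (h1 : x.fst = y.fst) (h2 : x.snd = y.snd) : x = y :=
  TrivSqZeroExt.ext h1 h2

end Dual

variable {𝔓 : FFPlace} {k : Type} [Field k]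
  (r : GQ →* Matrix (Fin 2) (Fin 2) (DualNumber k))

/-- the extension function `y' / z'` -/
def mltoBt (σ : GQ) : DualNumber k := r σ 0 1 * r σ⁻¹ 1 1

/-- the character `x' / z'` -/
def mltoCh (σ : GQ) : DualNumber k := r σ 0 0 * r σ⁻¹ 1 1

section Tri

variable {r} (htri : ∀ σ ∈ 𝔓.D, r σ 1 0 = 0)
include htri

lemma mlto_tri_x_mul {σ τ : GQ} (_hσ : σ ∈ 𝔓.D) (hτ : τ ∈ 𝔓.D) :
    r (σ * τ) 0 0 = r σ 0 0 * r τ 0 0 := by
  rw [map_mul, Matrix.mul_apply, Fin.sum_univ_two, htri τ hτ, mul_zero, add_zero]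

lemma mlto_tri_z_mul {σ τ : GQ} (hσ : σ ∈ 𝔓.D) (_hτ : τ ∈ 𝔓.D) :
    r (σ * τ) 1 1 = r σ 1 1 * r τ 1 1 := by
  rw [map_mul, Matrix.mul_apply, Fin.sum_univ_two, htri σ hσ, zero_mul, zero_add]

lemma mlto_tri_y_mul {σ τ : GQ} (hσ : σ ∈ 𝔓.D) (hτ : τ ∈ 𝔓.D) :
    r (σ * τ) 0 1 = r σ 0 0 * r τ 0 1 + r σ 0 1 * r τ 1 1 := by
  rw [map_mul, Matrix.mul_apply, Fin.sum_univ_two]

lemma mlto_tri_z_inv {σ : GQ} (hσ : σ ∈ 𝔓.D) : r σ 1 1 * r σ⁻¹ 1 1 = 1 := by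
  rw [← mlto_tri_z_mul htri hσ (inv_mem hσ), mul_inv_cancel, map_one, Matrix.one_apply_eq]

lemma mlto_tri_z_inv' {σ : GQ} (hσ : σ ∈ 𝔓.D) : r σ⁻¹ 1 1 * r σ 1 1 = 1 := by
  rw [mul_comm]; exact mlto_tri_z_inv htri hσ

lemma mlto_tri_det {σ : GQ} (hσ : σ ∈ 𝔓.D) : (r σ).det = r σ 0 0 * r σ 1 1 := by
  rw [Matrix.det_fin_two, htri σ hσ, mul_zero, sub_zero]

/-- `χ' = x'/z'` is multiplicative on `D` -/
lemma mltoCh_mul {σ τ : GQ} (hσ : σ ∈ 𝔓.D) (hτ : τ ∈ 𝔓.D) :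
    mltoCh r (σ * τ) = mltoCh r σ * mltoCh r τ := by
  unfold mltoCh
  rw [mlto_tri_x_mul htri hσ hτ, mul_inv_rev, mlto_tri_z_mul htri (inv_mem hτ) (inv_mem hσ)]
  ring

/-- `β' = y'/z'` is a `χ'`-cocycle on `D` -/
lemma mltoBt_mul {σ τ : GQ} (hσ : σ ∈ 𝔓.D) (hτ : τ ∈ 𝔓.D) :
    mltoBt r (σ * τ) = mltoCh r σ * mltoBt r τ + mltoBt r σ := by
  unfold mltoBt mltoCh
  rw [mlto_tri_y_mul htri hσ hτ, mul_inv_rev, mlto_tri_z_mul htri (inv_mem hτ) (inv_mem hσ)]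
  have h1 := mlto_tri_z_inv htri hτ
  linear_combination (r σ 0 1 * r σ⁻¹ 1 1) * h1

omit htri in
lemma mltoCh_one : mltoCh r 1 = 1 := by
  unfold mltoCh
  simp only [inv_one, map_one, Matrix.one_apply_eq, mul_one]

omit htri in
lemma mltoBt_one : mltoBt r 1 = 0 := by
  unfold mltoBt
  rw [map_one, Matrix.one_apply_ne (by decide), zero_mul]

lemma mltoCh_inv_mul {σ : GQ} (hσ : σ ∈ 𝔓.D) : mltoCh r σ⁻¹ * mltoCh r σ = 1 := by
  rw [← mltoCh_mul htri (inv_mem hσ) hσ, inv_mul_cancel, mltoCh_one]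

lemma mltoBt_inv {σ : GQ} (hσ : σ ∈ 𝔓.D) : mltoBt r σ⁻¹ = -(mltoCh r σ⁻¹ * mltoBt r σ) := by
  have h1 := mltoBt_mul htri (inv_mem hσ) hσ
  rw [inv_mul_cancel] at h1
  rw [mltoBt_one] at h1
  linear_combination -h1

/-- the conjugation formula -/
lemma mltoBt_conj {σ τ : GQ} (hσ : σ ∈ 𝔓.D) (hτ : τ ∈ 𝔓.D) :
    mltoBt r (σ⁻¹ * τ * σ) =
      mltoCh r σ⁻¹ * (mltoBt r τ + (mltoCh r τ - 1) * mltoBt r σ) := by
  rw [mul_assoc, mltoBt_mul htri (inv_mem hσ) (mul_mem hτ hσ), mltoBt_mul htri hτ hσ,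
    mltoBt_inv htri hσ]
  ring

end Tri

/-! ### Level constancy -/

section Level

variable {r}

/-- `r` only depends on the restriction to the level -/
lemma mlto_r_eq_of_agree {F : IntermediateField ℚ Qb}
    (hF : ∀ σ : GQ, (∀ x ∈ F, σ x = x) → r σ = 1) {σ τ : GQ} (h : ∀ x ∈ F, σ x = τ x) :
    r σ = r τ := by
  have h1 : r (σ⁻¹ * τ) = 1 := by
    apply hF
    intro x hx
    rw [AlgEquiv.mul_apply, ← h x hx]
    exact σ.symm_apply_apply x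
  have h2 : r σ * r σ⁻¹ = 1 := by rw [← map_mul, mul_inv_cancel, map_one]
  calc r σ = r σ * r (σ⁻¹ * τ) := by rw [h1, mul_one]
    _ = r τ := by rw [map_mul, ← mul_assoc, h2, one_mul]

lemma mlto_r_inv_eq_of_eq {σ τ : GQ} (h : r σ = r τ) : r σ⁻¹ = r τ⁻¹ := by
  have h2 : r σ * r σ⁻¹ = 1 := by rw [← map_mul, mul_inv_cancel, map_one]
  have h3 : r τ⁻¹ * r τ = 1 := by rw [← map_mul, inv_mul_cancel, map_one]
  calc r σ⁻¹ = (r τ⁻¹ * r τ) * r σ⁻¹ := by rw [h3, one_mul]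
    _ = r τ⁻¹ := by rw [← h, mul_assoc, h2, mul_one]

lemma mltoBt_eq_of_agree {F : IntermediateField ℚ Qb}
    (hF : ∀ σ : GQ, (∀ x ∈ F, σ x = x) → r σ = 1) {σ τ : GQ} (h : ∀ x ∈ F, σ x = τ x) :
    mltoBt r σ = mltoBt r τ := by
  unfold mltoBt
  have h1 := mlto_r_eq_of_agree hF h
  rw [h1, mlto_r_inv_eq_of_eq h1]

end Level

/-! ### The main computation -/

section Main

variable {r} [Algebra (ZMod 𝔓.p) k] (S : TkSetupD 𝔓 k)
  (htri : ∀ σ ∈ 𝔓.D, r σ 1 0 = 0) (hin : ∀ ι ∈ 𝔓.I, r ι 1 1 = 1)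
  (hdet : ∀ σ ∈ 𝔓.D, (r σ).det = TrivSqZeroExt.inl (S.χ σ))
  (hz : ∀ σ ∈ 𝔓.D, (r σ 1 1).fst * (r σ 1 1).fst = 1)

include htri hdet hz in
/-- the reduction of `χ' = x'/z'` is `χ` -/
lemma mltoCh_fst {σ : GQ} (hσ : σ ∈ 𝔓.D) : (mltoCh r σ).fst = S.χ σ := by
  have h1 := congrArg TrivSqZeroExt.fst (mlto_tri_z_inv htri hσ)
  rw [mlto_dn_fst_mul, TrivSqZeroExt.fst_one] at h1
  have h2 : (r σ⁻¹ 1 1).fst = (r σ 1 1).fst := by
    have := hz σ hσ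
    calc (r σ⁻¹ 1 1).fst = ((r σ 1 1).fst * (r σ 1 1).fst) * (r σ⁻¹ 1 1).fst := by
          rw [this, one_mul]
      _ = (r σ 1 1).fst * ((r σ 1 1).fst * (r σ⁻¹ 1 1).fst) := by ring
      _ = (r σ 1 1).fst := by rw [h1, mul_one]
  have h3 := congrArg TrivSqZeroExt.fst (hdet σ hσ)
  rw [mlto_tri_det htri hσ, mlto_dn_fst_mul, TrivSqZeroExt.fst_inl] at h3
  unfold mltoCh
  rw [mlto_dn_fst_mul, h2, h3]

include htri hin hdet in
/-- on inertia `χ'` is the constant `χ` -/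
lemma mltoCh_inertia {ι : GQ} (hι : ι ∈ 𝔓.I) : mltoCh r ι = TrivSqZeroExt.inl (S.χ ι) := by
  unfold mltoCh
  rw [hin _ (inv_mem hι), mul_one, ← hdet ι (𝔓.I_le_D hι), mlto_tri_det htri (𝔓.I_le_D hι),
    hin ι hι, mul_one]

variable (hlev : ∃ F : IntermediateField ℚ Qb, FiniteDimensional ℚ F ∧
    ∀ σ : GQ, (∀ x ∈ F, σ x = x) → r σ = 1)

include htri hdet hz hlev in
/-- the residual extension function is a level-constant `χ`-cocycle on `D` -/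
lemma mltoBt_fst_coc : S.Coc (fun σ => (mltoBt r σ).fst) := by
  refine ⟨fun σ hσ τ hτ => ?_, ?_⟩
  · show (mltoBt r (σ * τ)).fst = S.χ σ * (mltoBt r τ).fst + (mltoBt r σ).fst
    rw [mltoBt_mul htri hσ hτ, TrivSqZeroExt.fst_add, mlto_dn_fst_mul,
      mltoCh_fst S htri hdet hz hσ]
  · obtain ⟨F, hF, hFr⟩ := hlev
    exact ⟨F, hF, fun σ _ τ _ hx => by
      show (mltoBt r σ).fst = (mltoBt r τ).fst
      rw [mltoBt_eq_of_agree hFr hx]⟩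

include htri hin hdet hz hlev in
/-- **the main computation**: très ramifié forces the `ε`-part of `z'(φ)` to vanish -/
theorem mlto_snd_z_phi_eq_zero (h2 : (2 : k) ≠ 0)
    (hSχ : S.χ S.φ = algebraMap (ZMod 𝔓.p) k (S.ω S.φ))
    (htres : ∃ b : k, (S.theta (fun σ => (mltoBt r σ).fst) b).1 ≠ 0) :
    (r S.φ 1 1).snd = 0 := by
  set β : GQ → k := fun σ => (mltoBt r σ).fst with hβdef
  set n : GQ → k := fun σ => (mltoBt r σ).snd with hndef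
  have hβ : S.Coc β := mltoBt_fst_coc S htri hdet hz hlev
  have hφi : S.φ⁻¹ ∈ 𝔓.D := inv_mem S.hφD
  -- `n` on inertia
  have hnI : ∀ σ ∈ 𝔓.I, ∀ τ ∈ 𝔓.I, n (σ * τ) = S.χ σ * n τ + n σ := by
    intro σ hσ τ hτ
    show (mltoBt r (σ * τ)).snd = S.χ σ * (mltoBt r τ).snd + (mltoBt r σ).snd
    rw [mltoBt_mul htri (𝔓.I_le_D hσ) (𝔓.I_le_D hτ), mltoCh_inertia S htri hin hdet hσ,
      TrivSqZeroExt.snd_add, mlto_dn_snd_mul, TrivSqZeroExt.fst_inl, TrivSqZeroExt.snd_inl,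
      zero_mul, add_zero]
  have hnlev : ∃ F : IntermediateField ℚ Qb, FiniteDimensional ℚ F ∧
      ∀ σ ∈ 𝔓.I, ∀ τ ∈ 𝔓.I, (∀ x ∈ F, σ x = τ x) → n σ = n τ := by
    obtain ⟨F, hF, hFr⟩ := hlev
    exact ⟨F, hF, fun σ _ τ _ hx => by
      show (mltoBt r σ).snd = (mltoBt r τ).snd
      rw [mltoBt_eq_of_agree hFr hx]⟩
  -- the twist
  set C : DualNumber k := mltoCh r S.φ⁻¹ with hC
  have hCfst : C.fst = S.χ S.φ⁻¹ := mltoCh_fst S htri hdet hz hφi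
  have hχ0 : S.χ S.φ⁻¹ ≠ 0 := S.chi_ne_zero hφi
  set c₀ : k := C.snd / S.χ S.φ⁻¹ with hc₀
  have hconj : ∀ ι ∈ 𝔓.I, n (S.φ⁻¹ * ι * S.φ) =
      S.χ S.φ⁻¹ * (n ι + c₀ * β ι + (S.χ ι - 1) * (n S.φ + c₀ * β S.φ)) := by
    intro ι hι
    show (mltoBt r (S.φ⁻¹ * ι * S.φ)).snd = _
    rw [mltoBt_conj htri S.hφD (𝔓.I_le_D hι), mltoCh_inertia S htri hin hdet hι, ← hC,
      mlto_dn_snd_mul, hCfst]
    simp only [TrivSqZeroExt.fst_add, TrivSqZeroExt.snd_add, mlto_dn_fst_mul, mlto_dn_snd_mul,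
      TrivSqZeroExt.fst_sub, TrivSqZeroExt.snd_sub, TrivSqZeroExt.fst_inl, TrivSqZeroExt.snd_inl,
      TrivSqZeroExt.fst_one, TrivSqZeroExt.snd_one]
    show S.χ S.φ⁻¹ * (n ι + ((S.χ ι - 1) * n S.φ + (0 - 0) * β S.φ)) +
      C.snd * (β ι + (S.χ ι - 1) * β S.φ) = _
    have : C.snd = S.χ S.φ⁻¹ * c₀ := by rw [hc₀, mul_div_cancel₀ _ hχ0]
    rw [this]
    ring
  have hbeta : S.beta = 1 := by
    unfold TkSetupD.beta
    rw [← hSχ]
    exact S.chi_mul_inv S.hφD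
  have hc0 : c₀ = 0 := mlto_twist_eq_zero S hβ hnI hnlev c₀ _ hconj hbeta htres
  have hCsnd : C.snd = 0 := by
    rw [hc₀, div_eq_zero_iff] at hc0
    rcases hc0 with h | h
    · exact h
    · exact absurd h hχ0
  -- `C = χ(φ⁻¹) z'(φ)²`
  have hx : r S.φ⁻¹ 0 0 = TrivSqZeroExt.inl (S.χ S.φ⁻¹) * r S.φ 1 1 := by
    have h1 := hdet _ hφi
    rw [mlto_tri_det htri hφi] at h1
    have h3 := mlto_tri_z_inv' htri S.hφD
    calc r S.φ⁻¹ 0 0 = r S.φ⁻¹ 0 0 * (r S.φ⁻¹ 1 1 * r S.φ 1 1) := by rw [h3, mul_one]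
      _ = TrivSqZeroExt.inl (S.χ S.φ⁻¹) * r S.φ 1 1 := by rw [← mul_assoc, h1]
  have hCeq : C = TrivSqZeroExt.inl (S.χ S.φ⁻¹) * r S.φ 1 1 * r S.φ 1 1 := by
    rw [hC]
    unfold mltoCh
    rw [inv_inv, hx]
  rw [hCeq] at hCsnd
  simp only [mlto_dn_snd_mul, mlto_dn_fst_mul, TrivSqZeroExt.fst_inl, TrivSqZeroExt.snd_inl,
    zero_mul, add_zero] at hCsnd
  have hz0 : (r S.φ 1 1).fst ≠ 0 := by
    intro h0
    have := hz _ S.hφD
    rw [h0, mul_zero] at this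
    exact zero_ne_one this
  have h5 : S.χ S.φ⁻¹ * (2 * (r S.φ 1 1).fst) * (r S.φ 1 1).snd = 0 := by
    linear_combination hCsnd
  rcases mul_eq_zero.1 h5 with h6 | h6
  · rcases mul_eq_zero.1 h6 with h7 | h7
    · exact absurd h7 hχ0
    · rcases mul_eq_zero.1 h7 with h8 | h8
      · exact absurd h8 h2
      · exact absurd h8 hz0
  · exact h6

end Main

end

end Fermat.Agent.MLT
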