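/-
Project MLT, stream TWO (helper7), case C: a Kummer setup (`TkSetupD`) at an ARBITRARY place
`P | p`, with a prescribed primitive `p`-th root of unity and `χ` = the mod `p` cyclotomic
character; and the structure of the decomposition group modulo a finite level.
-/
import Fermat.Agent.Lib.MLT.TWO.TresKum
import Fermat.Agent.Lib.TW.Kum.Final

set_option autoImplicit false
set_option linter.style.haveILetI false
set_option linter.unusedSectionVars false

namespace Fermat.Agent.MLT

open Fermat.Agent.TW Fermat.Agent.S05Lib Fermat.Agent.S53Lib ExtCitation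

local notation "Qb" => AlgebraicClosure ℚ
local notation "GQ" => (AlgebraicClosure ℚ ≃ₐ[ℚ] AlgebraicClosure ℚ)

noncomputable section

/-- the place `P | p` as an `FFPlace` -/
def mltoPlace (p : ℕ) [Fact p.Prime] (P : ValuationSubring Qb) (hP : P.LiesOverPrime p) :
    FFPlace := ⟨P, p, Fact.out, hP⟩

instance mltoAlgebraAt (p : ℕ) [Fact p.Prime] (P : ValuationSubring Qb) (hP : P.LiesOverPrime p)
    {k : Type} [Field k] [inst : Algebra (ZMod p) k] :
    Algebra (ZMod (mltoPlace p P hP).p) k := inst

/-- **a Kummer setup at an arbitrary place over `p`** with `χ` = cyclotomic -/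
theorem mlto_exists_setupD (p : ℕ) [Fact p.Prime] (hp3 : 3 ≤ p) {k : Type} [Field k] [Finite k]
    [Algebra (ZMod p) k] (P : ValuationSubring Qb) (hP : P.LiesOverPrime p) {ζ : Qb}
    (hζ : IsPrimitiveRoot ζ p) :
    ∃ S : TkSetupD (mltoPlace p P hP) k, S.ζ = ζ ∧
      (∀ σ, S.χ σ = algebraMap (ZMod p) k (S.ω σ)) ∧ P.IsFrobeniusAt S.φ p ∧
      ∀ σ, S.ω σ = ((cycloChar p σ : (ZMod p)ˣ) : ZMod p) := by
  have hp : p.Prime := Fact.out
  haveI : NeZero p := ⟨hp.ne_zero⟩
  obtain ⟨lam, hlam⟩ := tk_exists_lam p k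
  obtain ⟨φ, hφ⟩ := Fermat.Agent.Lib.Helper6.exists_isFrobeniusAt P hp hP
  obtain ⟨ι₀, hι₀, hι₀ω⟩ := tw_exists_inertia_cycloChar_ne_one p hp3 P hP
  refine ⟨{ ζ := ζ
            hζ := hζ
            ω := fun σ => ((cycloChar p σ : (ZMod p)ˣ) : ZMod p)
            hω := ?_
            χ := fun σ => algebraMap (ZMod p) k ((cycloChar p σ : (ZMod p)ˣ) : ZMod p)
            hχ1 := ?_
            hχmul := ?_
            hχ := fun σ _ => rfl
            lam := lam
            hlam := hlam
            φ := φ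
            hφD := hφ.mem_decompositionSubgroup
            hφ := ?_
            ι₀ := ι₀
            hι₀ := hι₀
            hι₀ω := ?_ }, rfl, fun σ => rfl, hφ, fun σ => rfl⟩
  · intro σ
    have h1 := Fermat.Agent.CFT.S14.apply_eq_pow_cycloExp p σ hζ.pow_eq_one
    rw [h1]
    rfl
  · rw [map_one, Units.val_one, map_one]
  · intro σ _ τ _
    rw [map_mul, Units.val_mul, map_mul]
  · intro x hx
    have hxP : x ∈ P := ((mltoPlace p P hP).mem_P_iff x).2 hx
    have h1 := Fermat.Agent.FrobDensity.valuation_frobenius_sub_pow_lt_one hφ hxP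
    exact ((mltoPlace p P hP).tk_valuation_lt_one_iff _).1 h1
  · intro h
    apply hι₀ω
    exact Units.ext h

end

end Fermat.Agent.MLT
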