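/-
Project MLT, stream TWO (helper7), case C: **très ramifié ⇒ every first-order ordinary lift with
cyclotomic determinant is strictly ordinary**:
`mlto_hC_of_tres : MltoTres p ρbar → MltTWOOrdFirstOrderStrict p ρbar`.
-/
import Fermat.Agent.Lib.MLT.TWO.TresLift
import Fermat.Agent.Lib.MLT.TWO.TresSetup
import Fermat.Agent.Lib.MLT.TWO.OrdTW
import Fermat.Agent.Lib.MLT.Contracts.TWOTres

set_option autoImplicit false
set_option linter.style.haveILetI false
set_option linter.unusedSectionVars false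
set_option linter.unusedVariables false

namespace Fermat.Agent.MLT

open Fermat.Agent.TW Fermat.Agent.S05Lib Fermat.Agent.S53Lib ExtCitation IsLocalRing Matrix

local notation "Qb" => AlgebraicClosure ℚ
local notation "GQ" => (AlgebraicClosure ℚ ≃ₐ[ℚ] AlgebraicClosure ℚ)

noncomputable section

section Part1


variable {𝔓 : FFPlace} {k : Type} [Field k]
  {r : GQ →* Matrix (Fin 2) (Fin 2) (DualNumber k)}

lemma mlto_tri_z_pow (htri : ∀ σ ∈ 𝔓.D, r σ 1 0 = 0) {σ : GQ} (hσ : σ ∈ 𝔓.D) (n : ℕ) :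
    r (σ ^ n) 1 1 = (r σ 1 1) ^ n := by
  induction n with
  | zero => simp only [pow_zero, map_one, Matrix.one_apply_eq]
  | succ n ih => rw [pow_succ, mlto_tri_z_mul htri (pow_mem hσ n) hσ, ih, pow_succ]

/-- if `z'(φ)² = 1` then `z'(σ)² = 1` on the whole decomposition group -/
theorem mlto_z_sq_eq_one (htri : ∀ σ ∈ 𝔓.D, r σ 1 0 = 0) (hin : ∀ ι ∈ 𝔓.I, r ι 1 1 = 1)
    (hlev : ∃ F : IntermediateField ℚ Qb, FiniteDimensional ℚ F ∧
      ∀ σ : GQ, (∀ x ∈ F, σ x = x) → r σ = 1)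
    {φ : GQ} (hφ : 𝔓.P.IsFrobeniusAt φ 𝔓.p) (hφz : r φ 1 1 * r φ 1 1 = 1)
    {σ : GQ} (hσ : σ ∈ 𝔓.D) : r σ 1 1 * r σ 1 1 = 1 := by
  obtain ⟨F, hF, hFr⟩ := hlev
  haveI : Algebra.IsAlgebraic ℚ Qb := AlgebraicClosure.isAlgebraic ℚ
  haveI : IsAlgClosure ℚ Qb := ⟨inferInstance, inferInstance⟩
  haveI : Normal ℚ Qb := IsAlgClosure.normal ℚ Qb
  haveI := hF
  set F' : IntermediateField ℚ Qb := IntermediateField.normalClosure ℚ ↥F Qb with hF'
  have hfd' : FiniteDimensional ℚ ↥F' := normalClosure.is_finiteDimensional ℚ _ Qb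
  have hnorm : Normal ℚ ↥F' := normalClosure.normal ℚ _ Qb
  have hnorm' : @Normal ℚ ↥F' _ _ F'.algebra' := by
    convert hnorm using 1
    exact Subsingleton.elim _ _
  have hle : F ≤ F' := IntermediateField.le_normalClosure _
  obtain ⟨n, ι, hι, hn⟩ := tw_decomp_eq_frob_pow_mul_inertia F' hfd' hnorm' 𝔓.hp 𝔓.hP hφ hσ
  have hφD : φ ∈ 𝔓.D := hφ.mem_decompositionSubgroup
  have h1 : r σ = r (φ ^ n * ι) := mlto_r_eq_of_agree hFr (fun x hx => by
    rw [hn x (hle hx)]; rfl)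
  have h2 : r σ 1 1 = (r φ 1 1) ^ n := by
    rw [h1, mlto_tri_z_mul htri (pow_mem hφD n) (𝔓.I_le_D hι), hin ι hι, mul_one,
      mlto_tri_z_pow htri hφD]
  rw [h2, ← mul_pow, hφz, one_pow]

end Part1

section Part2


variable {k : Type} [Field k]

lemma mltoDualResidueHom_surjective : Function.Surjective (mltoDualResidueHom k) := by
  intro x
  obtain ⟨a, rfl⟩ := residue_surjective x
  exact ⟨TrivSqZeroExt.fst a, (mlto_residue_eq_fst a).symm⟩

lemma mlto_map_residue_eq (M : Matrix (Fin 2) (Fin 2) (DualNumber k)) :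
    M.map (residue (DualNumber k)) = (mFst M).map (mltoDualResidueHom k) := by
  ext i j
  simp only [Matrix.map_apply, mFst]
  exact mlto_residue_eq_fst _

/-- **identification of the residual representation in an arbitrary basis of the lift** -/
theorem mlto_exists_resEquiv (ρbar : ResidualGaloisRep k) (ρ' : GaloisRepAdic (DualNumber k))
    (hres : ρ'.residual.IsEquiv (ρbar.baseChangeAlong (mltoDualResidueHom k)))
    (b' : Module.Basis (Fin 2) (DualNumber k) ρ'.V) :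
    ∃ E : (Fin 2 → k) ≃ₗ[k] ρbar.V, ∀ (σ : GQ) (u : Fin 2 → k),
      E (mFst (toMatrixRep ρ' b' σ) *ᵥ u) = ρbar.ρ σ (E u) := by
  classical
  obtain ⟨e⟩ := hres
  set φ₀ := mltoDualResidueHom k with hφ₀
  let b : Module.Basis (Fin 2) k ρbar.V := Module.finBasisOfFinrankEq _ _ ρbar.finrank_eq
  set bA := residualBasis ρ' b' with hbA
  set bk := resBaseChangeBasis φ₀ ρbar b with hbk
  set Tb : Matrix (Fin 2) (Fin 2) (ResidueField (DualNumber k)) :=
    LinearMap.toMatrix bA bk e.toLinearEquiv.toLinearMap with hTb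
  set Tb' : Matrix (Fin 2) (Fin 2) (ResidueField (DualNumber k)) :=
    LinearMap.toMatrix bk bA e.toLinearEquiv.symm.toLinearMap with hTb'
  have hTT' : Tb * Tb' = 1 := by
    rw [hTb, hTb', ← LinearMap.toMatrix_comp, LinearEquiv.comp_symm, LinearMap.toMatrix_id]
  have hT'T : Tb' * Tb = 1 := by
    rw [hTb, hTb', ← LinearMap.toMatrix_comp, LinearEquiv.symm_comp, LinearMap.toMatrix_id]
  have hTbar : ∀ σ, Tb * (toMatrixRep ρ' b' σ).map (residue (DualNumber k)) =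
      (LinearMap.toMatrix b b (ρbar.ρ σ)).map φ₀ * Tb := by
    intro σ
    rw [← toMatrix_residual, ← toMatrix_resBaseChange]
    show LinearMap.toMatrix bA bk e.toLinearEquiv.toLinearMap *
        LinearMap.toMatrix bA bA (ρ'.residual.ρ σ) =
      LinearMap.toMatrix bk bk ((ρbar.baseChangeAlong φ₀).ρ σ) *
        LinearMap.toMatrix bA bk e.toLinearEquiv.toLinearMap
    rw [← LinearMap.toMatrix_comp, ← LinearMap.toMatrix_comp]
    congr 1
    ext x
    exact e.map_apply σ x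
  -- descend to `k`
  have hsurj := mltoDualResidueHom_surjective (k := k)
  have hinj : Function.Injective φ₀ := φ₀.injective
  choose f hf using hsurj
  set T : Matrix (Fin 2) (Fin 2) k := Tb.map f with hT
  set T' : Matrix (Fin 2) (Fin 2) k := Tb'.map f with hT'
  have hTmap : T.map φ₀ = Tb := by
    ext i j; simp only [hT, Matrix.map_apply]; exact hf _
  have hT'map : T'.map φ₀ = Tb' := by
    ext i j; simp only [hT', Matrix.map_apply]; exact hf _
  have hmapinj : ∀ M N : Matrix (Fin 2) (Fin 2) k, M.map φ₀ = N.map φ₀ → M = N := by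
    intro M N h
    ext i j
    have := congrFun (congrFun h i) j
    simp only [Matrix.map_apply] at this
    exact hinj this
  have h1 : T * T' = 1 := by
    apply hmapinj
    rw [Matrix.map_mul, hTmap, hT'map, hTT', Matrix.map_one _ (map_zero _) (map_one _)]
  have h2 : T' * T = 1 := by
    apply hmapinj
    rw [Matrix.map_mul, hTmap, hT'map, hT'T, Matrix.map_one _ (map_zero _) (map_one _)]
  have hconj : ∀ σ, T * mFst (toMatrixRep ρ' b' σ) = LinearMap.toMatrix b b (ρbar.ρ σ) * T := by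
    intro σ
    apply hmapinj
    rw [Matrix.map_mul, Matrix.map_mul, hTmap, ← mlto_map_residue_eq]
    exact hTbar σ
  refine ⟨(Matrix.toLin'OfInv h2 h1).trans b.equivFun.symm, fun σ u => ?_⟩
  show b.equivFun.symm (Matrix.toLin' T (mFst (toMatrixRep ρ' b' σ) *ᵥ u)) =
    ρbar.ρ σ (b.equivFun.symm (Matrix.toLin' T u))
  rw [Matrix.toLin'_apply, Matrix.toLin'_apply, Matrix.mulVec_mulVec, hconj σ,
    ← Matrix.mulVec_mulVec]
  apply b.equivFun.injective
  rw [LinearEquiv.apply_symm_apply]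
  set x := b.equivFun.symm (T *ᵥ u) with hx
  have hx' : T *ᵥ u = b.equivFun x := by rw [hx, LinearEquiv.apply_symm_apply]
  rw [hx']
  exact LinearMap.toMatrix_mulVec_repr b b (ρbar.ρ σ) x

end Part2

section Part3


variable {k : Type} [Field k]

/-- linear algebra in `k²`: the position of the très ramifié data relative to a triangular
matrix model -/
theorem mlto_tres_coords {G : Type} [Group G] (D I : Subgroup G) (hID : I ≤ D)
    (M : G → Matrix (Fin 2) (Fin 2) k) (wk : G → k) (ak : G → k)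
    (htri : ∀ σ ∈ D, M σ 1 0 = 0) (hin : ∀ ι ∈ I, M ι 1 1 = 1) (hx : ∀ ι ∈ I, M ι 0 0 = wk ι)
    (u₀ u : Fin 2 → k) (hu₀ : u₀ ≠ 0) (hu : ∀ c : k, u ≠ c • u₀)
    (hD : ∀ σ ∈ D, ∃ x z c : k, z * z = 1 ∧ M σ *ᵥ u₀ = x • u₀ ∧ M σ *ᵥ u = z • u + c • u₀)
    (hI : ∀ ι ∈ I, M ι *ᵥ u = u + ak ι • u₀)
    (ι₀ : G) (hι₀ : ι₀ ∈ I) (hι₀w : wk ι₀ ≠ 1) :
    u₀ 1 = 0 ∧ u₀ 0 ≠ 0 ∧ u 1 ≠ 0 ∧ (∀ σ ∈ D, M σ 1 1 * M σ 1 1 = 1) ∧
      ∀ ι ∈ I, M ι 0 1 = (ak ι * u₀ 0 - u 0 * (wk ι - 1)) / u 1 := by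
  -- independence
  set δ : k := u₀ 0 * u 1 - u₀ 1 * u 0 with hδ
  have hδ0 : δ ≠ 0 := by
    intro h0
    have h1 : twPerp u₀ ⬝ᵥ u = 0 := by
      simp only [twPerp, dotProduct, Fin.sum_univ_two, Matrix.cons_val_zero, Matrix.cons_val_one]
      rw [hδ] at h0
      linear_combination h0
    obtain ⟨c, hc⟩ := tw_eq_smul_of_perp hu₀ h1
    exact hu c hc
  -- the line
  have h01 : u₀ 1 = 0 := by
    obtain ⟨x, z, c, -, hx₀, -⟩ := hD ι₀ (hID hι₀)
    have hw := hI ι₀ hι₀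
    have e0 := congrFun hx₀ 0
    have e1 := congrFun hx₀ 1
    have f0 := congrFun hw 0
    have f1 := congrFun hw 1
    simp only [Matrix.mulVec, dotProduct, Fin.sum_univ_two, Pi.smul_apply, Pi.add_apply,
      smul_eq_mul] at e0 e1 f0 f1
    rw [htri ι₀ (hID hι₀), hin ι₀ hι₀, hx ι₀ hι₀] at *
    by_contra hne
    -- from e1: x = 1; then from e0: (wk - 1) u₀ 0 + M01 u₀ 1 = 0; from f1: ak u₀ 1 = 0 ...
    have hx1 : x = 1 := by
      have : (x - 1) * u₀ 1 = 0 := by linear_combination -e1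
      rcases mul_eq_zero.1 this with h | h
      · exact sub_eq_zero.1 h
      · exact absurd h hne
    have hak : ak ι₀ = 0 := by
      have : ak ι₀ * u₀ 1 = 0 := by linear_combination -f1
      rcases mul_eq_zero.1 this with h | h
      · exact h
      · exact absurd h hne
    rw [hx1] at e0
    rw [hak] at f0
    have h3 : (wk ι₀ - 1) * δ = 0 := by
      rw [hδ]
      linear_combination u 1 * e0 - u₀ 1 * f0
    rcases mul_eq_zero.1 h3 with h | h
    · exact hι₀w (sub_eq_zero.1 h)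
    · exact hδ0 h
  have h00 : u₀ 0 ≠ 0 := by
    intro h0
    apply hu₀
    ext i
    fin_cases i
    · exact h0
    · exact h01
  have hu1 : u 1 ≠ 0 := by
    intro h0
    apply hδ0
    rw [hδ, h0, h01]
    ring
  refine ⟨h01, h00, hu1, fun σ hσ => ?_, fun ι hι => ?_⟩
  · obtain ⟨x, z, c, hz, -, hw⟩ := hD σ hσ
    have f1 := congrFun hw 1
    simp only [Matrix.mulVec, dotProduct, Fin.sum_univ_two, Pi.smul_apply, Pi.add_apply,
      smul_eq_mul] at f1
    rw [htri σ hσ, h01] at f1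
    have : M σ 1 1 = z := by
      have : (M σ 1 1 - z) * u 1 = 0 := by linear_combination f1
      rcases mul_eq_zero.1 this with h | h
      · exact sub_eq_zero.1 h
      · exact absurd h hu1
    rw [this, hz]
  · have f0 := congrFun (hI ι hι) 0
    simp only [Matrix.mulVec, dotProduct, Fin.sum_univ_two, Pi.smul_apply, Pi.add_apply,
      smul_eq_mul] at f0
    rw [hx ι hι] at f0
    rw [eq_div_iff hu1]
    linear_combination f0

end Part3

section Part4


variable {𝔓 : FFPlace} {k : Type} [Field k] [Algebra (ZMod 𝔓.p) k] (S : TkSetupD 𝔓 k)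

/-- a function which on inertia is `A · a + coboundary`, `a` an `𝔽_p`-valued cocycle with an exact
Kummer generator of valuation prime to `p`, is très ramifié -/
theorem mlto_theta_fst_ne_zero {β : GQ → k} {a : GQ → ZMod 𝔓.p} {y : Qb} (A G : k) (hA : A ≠ 0)
    (hβ : ∀ ι ∈ 𝔓.I, β ι = A * algebraMap (ZMod 𝔓.p) k (a ι) - G * (S.χ ι - 1))
    (hy : 𝔓.TkGen S.ζ a y) {n : ℤ} (hn : 𝔓.v.Is (y ^ 𝔓.p) n) (hpn : ¬ (𝔓.p : ℤ) ∣ n) :
    ∃ b : k, (S.theta β b).1 ≠ 0 := by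
  -- an element with `lam = 1`
  obtain ⟨b₁, hlam1⟩ : ∃ b₁ : k, S.lam b₁ = 1 := by
    have hex : ∃ b₀ : k, S.lam b₀ ≠ 0 := by
      by_contra hcon
      have h0 : ∀ b : k, S.lam b = 0 := fun b => by
        by_contra hb
        exact hcon ⟨b, hb⟩
      have := S.hlam 1 (fun b => by rw [mul_one]; exact h0 b)
      exact one_ne_zero this
    obtain ⟨b₀, hb₀⟩ := hex
    refine ⟨algebraMap (ZMod 𝔓.p) k (S.lam b₀)⁻¹ * b₀, ?_⟩
    rw [S.lam_algebraMap_mul, inv_mul_cancel₀ hb₀]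
  set b : k := b₁ / A with hb
  have hbA : b * A = b₁ := div_mul_cancel₀ _ hA
  refine ⟨b, ?_⟩
  set j : ZMod 𝔓.p := -S.lam (b * G) with hj
  have hgen : 𝔓.TkGen S.ζ (S.aux β b) (y * lfZPow S.ζ j) := by
    refine (hy.mul S.hζp (FFPlace.tkGen_cob S.hζp S.ω (fun σ _ => S.hω σ) j)).congr ?_
    intro ι hι
    simp only [Pi.add_apply, TkSetupD.aux]
    rw [hβ ι hι, S.hχ ι hι]
    have e1 : b * (A * algebraMap (ZMod 𝔓.p) k (a ι) -
        G * (algebraMap (ZMod 𝔓.p) k (S.ω ι) - 1)) =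
        algebraMap (ZMod 𝔓.p) k (a ι) * b₁ - algebraMap (ZMod 𝔓.p) k (S.ω ι - 1) * (b * G) := by
      rw [map_sub, map_one, ← hbA]
      ring
    rw [e1, map_sub, S.lam_algebraMap_mul, S.lam_algebraMap_mul, hlam1, hj]
    ring
  unfold TkSetupD.theta
  rw [hgen.tkGenInv_eq S.hζp, mul_pow, lfZPow_pow S.hζp, mul_one,
    mlto_tkInv_fst_eq 𝔓 (hy.pow_mem_K0 S.hζp) hn]
  intro h0
  exact hpn ((ZMod.intCast_zmod_eq_zero_iff_dvd n 𝔓.p).1 h0)

end Part4

section MainThm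

variable {k : Type} [Field k]

lemma mlto_dn_natCast_p (p : ℕ) [Fact p.Prime] [Algebra (ZMod p) k] :
    ((p : ℕ) : DualNumber k) = 0 := tw_natCast_dualNumber_eq_zero p

/-- **très ramifié ⇒ hC** -/
theorem mlto_hC_of_tres (p : ℕ) [Fact p.Prime] (h3 : 3 ≤ p) [Finite k] [Algebra (ZMod p) k]
    (ρbar : ResidualGaloisRep k) (htres : MltoTres p ρbar) :
    MltTWOOrdFirstOrderStrict p ρbar := by
  intro ρ' hres hdet hord
  have hp : p.Prime := Fact.out
  have hp0 : ((p : ℕ) : DualNumber k) = 0 := tw_natCast_dualNumber_eq_zero p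
  have hpk : ((p : ℕ) : k) = 0 := by
    have : ((p : ℕ) : k) = algebraMap (ZMod p) k ((p : ℕ) : ZMod p) := by rw [map_natCast]
    rw [this, ZMod.natCast_self, map_zero]
  have h2 : (2 : k) ≠ 0 := by
    haveI : CharP k p := (CharP.charP_iff_prime_eq_zero hp).2 hpk
    intro h
    have h' : ((2 : ℕ) : k) = 0 := by exact_mod_cast h
    rw [CharP.cast_eq_zero_iff k p] at h'
    have := Nat.le_of_dvd (by norm_num) h'
    omega
  refine ⟨by rw [hp0]; exact zero_mem _, fun P hP => ?_⟩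
  obtain ⟨L, ⟨b', hL⟩, hD, hI⟩ := hord P hP
  set 𝔓 : FFPlace := mltoPlace p P hP with h𝔓
  set r := toMatrixRep ρ' b' with hr
  have hb0 : b' 0 ∈ L := by rw [hL]; exact Submodule.mem_span_singleton_self _
  -- the columns of `r`
  have hcol0 : ∀ σ ∈ 𝔓.D, ρ'.ρ σ (b' 0) = r σ 0 0 • b' 0 ∧ r σ 1 0 = 0 := by
    intro σ hσ
    have h1 := hD σ hσ _ hb0
    rw [hL, Submodule.mem_span_singleton] at h1
    obtain ⟨c, hc⟩ := h1
    have e0 : r σ 0 0 = c := by
      rw [hr, toMatrixRep_apply, LinearMap.toMatrix_apply, ← hc]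
      simp
    have e1 : r σ 1 0 = 0 := by
      rw [hr, toMatrixRep_apply, LinearMap.toMatrix_apply, ← hc]
      simp
    exact ⟨by rw [e0, hc], e1⟩
  have htri : ∀ σ ∈ 𝔓.D, r σ 1 0 = 0 := fun σ hσ => (hcol0 σ hσ).2
  have hcol1 : ∀ σ : GQ, ρ'.ρ σ (b' 1) = r σ 0 1 • b' 0 + r σ 1 1 • b' 1 := by
    intro σ
    have := b'.sum_repr (ρ'.ρ σ (b' 1))
    rw [Fin.sum_univ_two] at this
    rw [hr, toMatrixRep_apply, LinearMap.toMatrix_apply, LinearMap.toMatrix_apply]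
    exact this.symm
  have hin : ∀ ι ∈ 𝔓.I, r ι 1 1 = 1 := by
    intro ι hι
    have h1 := hI ι hι (b' 1)
    rw [hL, Submodule.mem_span_singleton] at h1
    obtain ⟨c, hc⟩ := h1
    have h2 : ρ'.ρ ι (b' 1) = c • b' 0 + b' 1 := by rw [hc]; abel
    rw [hr, toMatrixRep_apply, LinearMap.toMatrix_apply, h2]
    simp
  -- the très ramifié data and the Kummer setup
  obtain ⟨v₀, w, ζ, a, y, hv₀, hw, hζ, hDres, hIres, hy0, n, hn, hpn⟩ := htres P hP
  obtain ⟨S, hSζ, hSχ, hSφ, hSω⟩ := mlto_exists_setupD p h3 P hP hζ (k := k)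
  -- the determinant
  have hdetr : ∀ σ : GQ, (r σ).det = TrivSqZeroExt.inl (S.χ σ) := by
    intro σ
    have hroot : ∀ μ : Qb, μ ^ p ^ 1 = 1 → σ μ = μ ^ cycloExp p σ := by
      intro μ hμ
      rw [pow_one] at hμ
      exact Fermat.Agent.CFT.S14.apply_eq_pow_cycloExp p σ hμ
    have h1 := hdet.2 1 σ (cycloExp p σ) hroot
    have hspan : Ideal.span {((p ^ 1 : ℕ) : DualNumber k)} = ⊥ := by
      rw [pow_one, hp0]; simp
    rw [hspan, Ideal.mem_bot, sub_eq_zero] at h1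
    rw [hr, toMatrixRep_apply, LinearMap.det_toMatrix, h1, hSχ, hSω, ← TrivSqZeroExt.inl_natCast]
    congr 1
    rw [tw_cycloExp_cast]
    rfl
  have hlev := tw_factors_of_matCts r ((matCts_iff r).2 (toMatrixRep_continuous ρ' b'))
  obtain ⟨E, hE⟩ := mlto_exists_resEquiv ρbar ρ' hres b'
  -- coordinates of the très ramifié data
  set u₀ : Fin 2 → k := E.symm v₀ with hu₀
  set u : Fin 2 → k := E.symm w with hu
  have hEu₀ : E u₀ = v₀ := E.apply_symm_apply v₀
  have hEu : E u = w := E.apply_symm_apply w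
  have hx00 : ∀ ι ∈ 𝔓.I, r ι 0 0 = TrivSqZeroExt.inl (S.χ ι) := by
    intro ι hι
    rw [← hdetr ι, mlto_tri_det htri (𝔓.I_le_D hι), hin ι hι, mul_one]
  have hι₀χ : S.χ S.ι₀ ≠ 1 := by
    rw [hSχ]
    intro h
    apply S.hι₀ω
    have : algebraMap (ZMod p) k (S.ω S.ι₀) = algebraMap (ZMod p) k 1 := by rw [h, map_one]
    exact (algebraMap (ZMod p) k).injective this
  obtain ⟨h01, h00, hu1, hzsq, hβform⟩ := mlto_tres_coords 𝔓.D 𝔓.I 𝔓.I_le_D
    (fun σ => mFst (r σ)) (fun σ => S.χ σ) (fun σ => algebraMap (ZMod p) k (a σ))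
    (fun σ hσ => by
      show (r σ 1 0).fst = 0
      rw [htri σ hσ]; rfl)
    (fun ι hι => by
      show (r ι 1 1).fst = 1
      rw [hin ι hι]; rfl)
    (fun ι hι => by
      show (r ι 0 0).fst = S.χ ι
      rw [hx00 ι hι]; rfl)
    u₀ u
    (by
      intro h0
      apply hv₀
      rw [← hEu₀, h0, map_zero])
    (by
      intro c hc
      apply hw c
      rw [← hEu, hc, map_smul, hEu₀])
    (by
      intro σ hσ
      obtain ⟨x, z, c, hz, h1, h2⟩ := hDres σ hσ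
      refine ⟨x, z, c, hz, E.injective ?_, E.injective ?_⟩
      · rw [hE, hEu₀, h1, map_smul, hEu₀]
      · rw [hE, hEu, h2, map_add, map_smul, map_smul, hEu, hEu₀])
    (by
      intro ι hι
      apply E.injective
      rw [hE, hEu, (hIres ι hι).1, map_add, map_smul, hEu, hEu₀])
    S.ι₀ S.hι₀ hι₀χ
  have hz : ∀ σ ∈ 𝔓.D, (r σ 1 1).fst * (r σ 1 1).fst = 1 := fun σ hσ => hzsq σ hσ
  -- the residual cocycle on inertia
  have hβ : ∀ ι ∈ 𝔓.I, (fun σ => (mltoBt r σ).fst) ι =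
      (u₀ 0 / u 1) * algebraMap (ZMod 𝔓.p) k (a ι) - (u 0 / u 1) * (S.χ ι - 1) := by
    intro ι hι
    have h1 : (r ι 0 1).fst =
        (algebraMap (ZMod p) k (a ι) * u₀ 0 - u 0 * (S.χ ι - 1)) / u 1 := hβform ι hι
    show (mltoBt r ι).fst = _
    unfold mltoBt
    rw [hin _ (inv_mem hι), mul_one, h1]
    show _ = u₀ 0 / u 1 * algebraMap (ZMod p) k (a ι) - u 0 / u 1 * (S.χ ι - 1)
    field_simp
  have hy : 𝔓.TkGen S.ζ a y := by
    rw [hSζ]
    exact ⟨hy0, fun ι hι => (hIres ι hι).2⟩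
  have htres' := mlto_theta_fst_ne_zero S (u₀ 0 / u 1) (u 0 / u 1) (div_ne_zero h00 hu1) hβ hy
    hn hpn
  have hsnd := mlto_snd_z_phi_eq_zero S htri hin (fun σ _ => hdetr σ) hz hlev h2 (hSχ S.φ)
    htres'
  have hφz : r S.φ 1 1 * r S.φ 1 1 = 1 := by
    apply mlto_dn_ext
    · rw [mlto_dn_fst_mul, TrivSqZeroExt.fst_one]
      exact hz _ S.hφD
    · rw [mlto_dn_snd_mul, hsnd, TrivSqZeroExt.snd_one]
      ring
  have hzall : ∀ σ ∈ 𝔓.D, r σ 1 1 * r σ 1 1 = 1 := fun σ hσ =>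
    mlto_z_sq_eq_one (𝔓 := 𝔓) htri hin hlev hSφ hφz hσ
  refine ⟨L, ⟨b', hL⟩, hD, hI, fun σ hσ => ⟨r σ 0 0, r σ 1 1, ?_, ?_, ?_⟩⟩
  · intro w' hw'
    rw [hL, Submodule.mem_span_singleton] at hw'
    obtain ⟨c, rfl⟩ := hw'
    rw [map_smul, (hcol0 σ hσ).1, smul_comm]
  · intro v
    rw [hL, Submodule.mem_span_singleton]
    have hv := b'.sum_repr v
    rw [Fin.sum_univ_two] at hv
    refine ⟨b'.repr v 0 * (r σ 0 0 - r σ 1 1) + b'.repr v 1 * r σ 0 1, ?_⟩
    conv_rhs => rw [← hv]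
    rw [map_add, map_smul, map_smul, (hcol0 σ hσ).1, hcol1 σ]
    module
  · intro n' a' hroot
    rcases n' with _ | n'
    · rw [pow_zero, Nat.cast_one, Ideal.span_singleton_one]
      exact Submodule.mem_top
    · have h0 : ((p ^ (n' + 1) : ℕ) : DualNumber k) = 0 := by
        rw [Nat.cast_pow, hp0, zero_pow (Nat.succ_ne_zero _)]
      have hspan : Ideal.span {((p ^ (n' + 1) : ℕ) : DualNumber k)} = ⊥ := by
        rw [h0]; simp
      rw [hspan, Ideal.mem_bot, sub_eq_zero]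
      have h1 := hdet.2 (n' + 1) σ a' hroot
      rw [hspan, Ideal.mem_bot, sub_eq_zero] at h1
      have h3 : r σ 0 0 * r σ 1 1 = (a' : DualNumber k) := by
        rw [← mlto_tri_det htri hσ, hr, toMatrixRep_apply, LinearMap.det_toMatrix, h1]
      calc r σ 0 0 = r σ 0 0 * (r σ 1 1 * r σ 1 1) := by rw [hzall σ hσ, mul_one]
        _ = (a' : DualNumber k) * r σ 1 1 := by rw [← mul_assoc, h3]

end MainThm

end

end Fermat.Agent.MLT
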