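/-
Project MLT, stream TWO (helper7), case C: transport of the "très ramifié" hypothesis.

* `mlto_tres_congr_inst` : `MltoTres` does not depend on the `ZMod p`-algebra structure of `k`;
* `mlto_tres_baseChange` : `MltoTres p ρ₀ → MltoTres p (ρ₀.baseChange k)` for `ρ₀` over `𝔽_p`
  (so a statement about `W[p]` gives the hypothesis for `W[p] ⊗ k`).
-/
import Fermat.Agent.Lib.MLT.Contracts.TWOTres

set_option autoImplicit false
set_option linter.style.haveILetI false
set_option linter.unusedSectionVars false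

namespace Fermat.Agent.MLT

open Fermat.Agent.TW Fermat.Agent.S05Lib
open scoped TensorProduct

local notation "Qb" => AlgebraicClosure ℚ
local notation "GQ" => (AlgebraicClosure ℚ ≃ₐ[ℚ] AlgebraicClosure ℚ)

noncomputable section

variable (p : ℕ) [Fact p.Prime] {k : Type} [Field k]

/-- `MltoTres` is independent of the algebra structure -/
theorem mlto_tres_congr_inst (inst1 inst2 : Algebra (ZMod p) k) (ρbar : ResidualGaloisRep k)
    (h : @MltoTres p _ k _ inst1 ρbar) : @MltoTres p _ k _ inst2 ρbar := by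
  have e : @algebraMap (ZMod p) k _ _ inst1 = @algebraMap (ZMod p) k _ _ inst2 :=
    Subsingleton.elim _ _
  intro P hP
  obtain ⟨v₀, w, ζ, a, y, h1, h2, h3, h4, h5, h6⟩ := h P hP
  refine ⟨v₀, w, ζ, a, y, h1, h2, h3, h4, fun ι hι => ?_, h6⟩
  obtain ⟨h7, h8⟩ := h5 ι hι
  refine ⟨?_, h8⟩
  rw [h7, e]

variable [Algebra (ZMod p) k]

/-- **base change** of the très ramifié hypothesis from `𝔽_p` to `k` -/
theorem mlto_tres_baseChange (ρ₀ : ResidualGaloisRep (ZMod p)) (h : MltoTres p ρ₀) :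
    MltoTres p (ρ₀.baseChange k) := by
  intro P hP
  obtain ⟨v₀, w, ζ, a, y, hv₀, hw, hζ, hD, hI, hy⟩ := h P hP
  -- `(w, v₀)` is a basis
  have hli : LinearIndependent (ZMod p) ![w, v₀] := by
    rw [LinearIndependent.pair_iff]
    intro s t hst
    by_cases hs : s = 0
    · subst hs
      rw [zero_smul, zero_add] at hst
      rcases smul_eq_zero.1 hst with h0 | h0
      · exact ⟨rfl, h0⟩
      · exact absurd h0 hv₀
    · exfalso
      apply hw (-(s⁻¹ * t))
      have : s • w = -(t • v₀) := eq_neg_of_add_eq_zero_left hst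
      calc w = s⁻¹ • (s • w) := by rw [smul_smul, inv_mul_cancel₀ hs, one_smul]
        _ = -(s⁻¹ * t) • v₀ := by rw [this, smul_neg, smul_smul, neg_smul]
  have hcard : Fintype.card (Fin 2) = Module.finrank (ZMod p) ρ₀.V := by
    rw [ρ₀.finrank_eq]; rfl
  let bs : Module.Basis (Fin 2) (ZMod p) ρ₀.V :=
    basisOfLinearIndependentOfCardEqFinrank hli hcard
  have hbs0 : bs 0 = w := by
    simp [bs, coe_basisOfLinearIndependentOfCardEqFinrank]
  have hbs1 : bs 1 = v₀ := by
    simp [bs, coe_basisOfLinearIndependentOfCardEqFinrank]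
  let bk : Module.Basis (Fin 2) k (k ⊗[ZMod p] ρ₀.V) := Algebra.TensorProduct.basis k bs
  have hbk0 : bk 0 = (1 : k) ⊗ₜ[ZMod p] w := by
    rw [Algebra.TensorProduct.basis_apply, hbs0]
  have hbk1 : bk 1 = (1 : k) ⊗ₜ[ZMod p] v₀ := by
    rw [Algebra.TensorProduct.basis_apply, hbs1]
  refine ⟨(1 : k) ⊗ₜ[ZMod p] v₀, (1 : k) ⊗ₜ[ZMod p] w, ζ, a, y, ?_, ?_, hζ, ?_, ?_, hy⟩
  · rw [← hbk1]
    exact bk.ne_zero 1
  · intro c hc
    rw [← hbk0, ← hbk1] at hc
    have h1 := congrArg (fun x => bk.repr x 0) hc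
    simp at h1
  · intro σ hσ
    obtain ⟨x, z, c, hz, h1, h2⟩ := hD σ hσ
    refine ⟨algebraMap (ZMod p) k x, algebraMap (ZMod p) k z, algebraMap (ZMod p) k c, ?_, ?_, ?_⟩
    · rw [← map_mul, hz, map_one]
    · show (ρ₀.ρ σ).baseChange k ((1 : k) ⊗ₜ[ZMod p] v₀) = _
      rw [LinearMap.baseChange_tmul, h1, TensorProduct.tmul_smul, algebraMap_smul]
    · show (ρ₀.ρ σ).baseChange k ((1 : k) ⊗ₜ[ZMod p] w) = _
      rw [LinearMap.baseChange_tmul, h2, TensorProduct.tmul_add, TensorProduct.tmul_smul,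
        TensorProduct.tmul_smul, algebraMap_smul, algebraMap_smul]
  · intro ι hι
    obtain ⟨h1, h2⟩ := hI ι hι
    refine ⟨?_, h2⟩
    show (ρ₀.ρ ι).baseChange k ((1 : k) ⊗ₜ[ZMod p] w) = _
    rw [LinearMap.baseChange_tmul, h1, TensorProduct.tmul_add, TensorProduct.tmul_smul,
      algebraMap_smul, algebraMap_smul]

end

end Fermat.Agent.MLT
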