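/-
Project MLT, stream TWO (helper7), D4: a framework for proving `GaloisRep.IsDeformationCondition`.

A *matrix condition* `E` is a predicate on functions `G_ℚ → M₂(A)` for all local rings `A`.  It is
*good* (`MltoMCGood`) if it is invariant under conjugation, stable under local homomorphisms, and
reflected by jointly injective non-empty families of local homomorphisms.  Every good matrix
condition defines a deformation condition `mltoCondOf 𝒪 E` (`mltoCondOf_isDeformationCondition`).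
Also: `IsDeformationCondition` is closed under conjunction (`mlto_isDefCond_and`), indexed
intersections (`mlto_isDefCond_forall`) and pointwise equivalence (`mlto_isDefCond_of_iff`).
-/
import Fermat.Agent.Lib.MLT.TWO.Univ
import Fermat.Prelude.Def_GaloisRep_DeformationCondition

set_option autoImplicit false
set_option linter.unusedSectionVars false
set_option linter.style.haveILetI false

open Fermat.Agent.S53Lib IsLocalRing GaloisRep
open Fermat.Agent.TW

namespace Fermat.Agent.MLT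

/-! ## Closure properties of `IsDeformationCondition` -/

section Closure

variable {𝒪 : Type} [CommRing 𝒪] [IsLocalRing 𝒪]

theorem mlto_isDefCond_of_iff
    {𝒟 𝒟' : ∀ ⦃A : Type⦄ [CommRing A] [IsLocalRing A] [Algebra 𝒪 A], GaloisRepAdic A → Prop}
    (h : ∀ ⦃A : Type⦄ [CommRing A] [IsLocalRing A] [Algebra 𝒪 A] (ρ : GaloisRepAdic A),
      𝒟 ρ ↔ 𝒟' ρ) (h𝒟 : IsDeformationCondition 𝒪 𝒟) : IsDeformationCondition 𝒪 𝒟' := by
  have heq : 𝒟 = 𝒟' := by
    funext A _ _ _ ρ
    exact propext (h ρ)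
  rw [← heq]
  exact h𝒟

theorem mlto_isDefCond_and
    {𝒟₁ 𝒟₂ : ∀ ⦃A : Type⦄ [CommRing A] [IsLocalRing A] [Algebra 𝒪 A], GaloisRepAdic A → Prop}
    (h₁ : IsDeformationCondition 𝒪 𝒟₁) (h₂ : IsDeformationCondition 𝒪 𝒟₂) :
    IsDeformationCondition 𝒪 (fun _A _ _ _ ρ => 𝒟₁ ρ ∧ 𝒟₂ ρ) where
  of_isEquiv := fun _ _ _ _ hA _ _ e h => ⟨h₁.of_isEquiv hA e h.1, h₂.of_isEquiv hA e h.2⟩
  baseChangeAlong := fun _ _ _ _ _ _ _ _ hA hB φ hφ _ h =>
    ⟨h₁.baseChangeAlong hA hB φ hφ h.1, h₂.baseChangeAlong hA hB φ hφ h.2⟩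
  of_baseChangeAlong_injective := fun _ _ _ _ _ _ _ _ hA hB φ hφ hinj _ h =>
    ⟨h₁.of_baseChangeAlong_injective hA hB φ hφ hinj h.1,
      h₂.of_baseChangeAlong_injective hA hB φ hφ hinj h.2⟩
  of_fibreProduct := fun _ _ _ _ _ _ _ _ _ _ _ _ _ _ _ _ hA hB hC hP f g pA pB hpA hpB hfg hinj
      hsurj _ hρA hρB =>
    ⟨h₁.of_fibreProduct hA hB hC hP f g pA pB hpA hpB hfg hinj hsurj hρA.1 hρB.1,
      h₂.of_fibreProduct hA hB hC hP f g pA pB hpA hpB hfg hinj hsurj hρA.2 hρB.2⟩
  iff_forall_surjective := fun A _ _ _ _ _ hloc hres ρ => by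
    constructor
    · intro h B _ _ _ hB q hq hqs
      exact ⟨(h₁.iff_forall_surjective hloc hres ρ).1 h.1 hB q hq hqs,
        (h₂.iff_forall_surjective hloc hres ρ).1 h.2 hB q hq hqs⟩
    · intro h
      exact ⟨(h₁.iff_forall_surjective hloc hres ρ).2 fun B _ _ _ hB q hq hqs => (h hB q hq hqs).1,
        (h₂.iff_forall_surjective hloc hres ρ).2 fun B _ _ _ hB q hq hqs => (h hB q hq hqs).2⟩

theorem mlto_isDefCond_forall {ι : Sort*}
    {𝒟 : ι → ∀ ⦃A : Type⦄ [CommRing A] [IsLocalRing A] [Algebra 𝒪 A], GaloisRepAdic A → Prop}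
    (h : ∀ i, IsDeformationCondition 𝒪 (𝒟 i)) :
    IsDeformationCondition 𝒪 (fun _A _ _ _ ρ => ∀ i, 𝒟 i ρ) where
  of_isEquiv := fun _ _ _ _ hA _ _ e hρ i => (h i).of_isEquiv hA e (hρ i)
  baseChangeAlong := fun _ _ _ _ _ _ _ _ hA hB φ hφ _ hρ i =>
    (h i).baseChangeAlong hA hB φ hφ (hρ i)
  of_baseChangeAlong_injective := fun _ _ _ _ _ _ _ _ hA hB φ hφ hinj _ hρ i =>
    (h i).of_baseChangeAlong_injective hA hB φ hφ hinj (hρ i)
  of_fibreProduct := fun _ _ _ _ _ _ _ _ _ _ _ _ _ _ _ _ hA hB hC hP f g pA pB hpA hpB hfg hinj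
      hsurj _ hρA hρB i =>
    (h i).of_fibreProduct hA hB hC hP f g pA pB hpA hpB hfg hinj hsurj (hρA i) (hρB i)
  iff_forall_surjective := fun A _ _ _ _ _ hloc hres ρ => by
    constructor
    · intro hρ B _ _ _ hB q hq hqs i
      exact ((h i).iff_forall_surjective hloc hres ρ).1 (hρ i) hB q hq hqs
    · intro hρ i
      exact ((h i).iff_forall_surjective hloc hres ρ).2 fun B _ _ _ hB q hq hqs => hρ hB q hq hqs i

/-- a condition implied by a proposition `c` not depending on the representation -/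
theorem mlto_isDefCond_imp (c : Prop)
    {𝒟 : ∀ ⦃A : Type⦄ [CommRing A] [IsLocalRing A] [Algebra 𝒪 A], GaloisRepAdic A → Prop}
    (h : c → IsDeformationCondition 𝒪 𝒟) :
    IsDeformationCondition 𝒪 (fun _A _ _ _ ρ => c → 𝒟 ρ) :=
  mlto_isDefCond_forall (𝒟 := fun _ : c => 𝒟) h

end Closure

/-! ## Artinian quotients of a complete Noetherian local ring -/

section Quot

variable {𝒪 : Type} [CommRing 𝒪] [IsLocalRing 𝒪]
variable {A : Type} [CommRing A] [IsLocalRing A] [IsNoetherianRing A] [Algebra 𝒪 A]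

theorem mlto_pow_ne_top (n : ℕ) : maximalIdeal A ^ (n + 1) ≠ ⊤ := by
  intro h
  have h1 : maximalIdeal A ^ (n + 1) ≤ maximalIdeal A := Ideal.pow_le_self (Nat.succ_ne_zero n)
  rw [h] at h1
  exact (maximalIdeal.isMaximal A).ne_top (top_le_iff.1 h1)

instance mlto_quot_nontrivial (n : ℕ) : Nontrivial (A ⧸ maximalIdeal A ^ (n + 1)) :=
  Ideal.Quotient.nontrivial_iff.2 (mlto_pow_ne_top n)

instance mlto_quot_isLocalRing (n : ℕ) : IsLocalRing (A ⧸ maximalIdeal A ^ (n + 1)) :=
  IsLocalRing.of_surjective' (Ideal.Quotient.mk _) Ideal.Quotient.mk_surjective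

theorem mlto_quot_mk_isLocalHom (n : ℕ) :
    IsLocalHom (Ideal.Quotient.mk (maximalIdeal A ^ (n + 1))) :=
  IsLocalHom.of_surjective _ Ideal.Quotient.mk_surjective

theorem mlto_quot_isArtinianTestAlgebra (hloc : IsLocalHom (algebraMap 𝒪 A))
    (hres : Function.Surjective (residue A ∘ algebraMap 𝒪 A)) (n : ℕ) :
    IsArtinianTestAlgebra 𝒪 (A ⧸ maximalIdeal A ^ (n + 1)) where
  isLocalHom := by
    have h1 : algebraMap 𝒪 (A ⧸ maximalIdeal A ^ (n + 1)) =
        (Ideal.Quotient.mk (maximalIdeal A ^ (n + 1))).comp (algebraMap 𝒪 A) := rfl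
    rw [h1]
    haveI := hloc
    haveI := mlto_quot_mk_isLocalHom (A := A) n
    exact RingHom.isLocalHom_comp _ _
  residue_surjective := by
    haveI := hloc
    exact residue_comp_algebraMap_surjective_of_surjective
      (Ideal.Quotient.mkₐ 𝒪 (maximalIdeal A ^ (n + 1))) (Ideal.Quotient.mkₐ_surjective 𝒪 _) hres
  isArtinian := by
    rw [isArtinianRing_iff_isNilpotent_maximalIdeal]
    refine ⟨n + 1, ?_⟩
    have hmap : maximalIdeal (A ⧸ maximalIdeal A ^ (n + 1)) =
        Ideal.map (Ideal.Quotient.mk (maximalIdeal A ^ (n + 1))) (maximalIdeal A) := by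
      refine le_antisymm ?_ ?_
      · intro z hz
        obtain ⟨a, rfl⟩ := Ideal.Quotient.mk_surjective z
        refine Ideal.mem_map_of_mem _ ?_
        by_contra ha
        have hu : IsUnit a := by rwa [mem_maximalIdeal, mem_nonunits_iff, not_not] at ha
        exact (mem_maximalIdeal _).1 hz (hu.map _)
      · rw [Ideal.map_le_iff_le_comap]
        intro a ha
        rw [Ideal.mem_comap]
        haveI := mlto_quot_mk_isLocalHom (A := A) n
        exact map_nonunit _ a ha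
    rw [hmap, ← Ideal.map_pow, Ideal.zero_eq_bot, Ideal.map_eq_bot_iff_le_ker, Ideal.mk_ker]

theorem mlto_quot_jointly_injective (a : A)
    (h : ∀ n : ℕ, Ideal.Quotient.mk (maximalIdeal A ^ (n + 1)) a = 0) : a = 0 := by
  have h1 := Ideal.iInf_pow_eq_bot_of_isLocalRing (maximalIdeal A) Ideal.IsPrime.ne_top'
  have h2 : a ∈ ⨅ i : ℕ, maximalIdeal A ^ i := by
    rw [Submodule.mem_iInf]
    intro i
    have h3 : a ∈ maximalIdeal A ^ (i + 1) := Ideal.Quotient.eq_zero_iff_mem.1 (h i)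
    exact Ideal.pow_le_pow_right (Nat.le_succ i) h3
  rw [h1] at h2
  exact h2

end Quot

/-! ## Matrix conditions -/

/-- a condition on matrix-valued functions on `G_ℚ`, for all local rings -/
abbrev MltoMC : Type 1 :=
  ∀ ⦃A : Type⦄ [CommRing A] [IsLocalRing A], (GQ → Matrix (Fin 2) (Fin 2) A) → Prop

/-- good matrix conditions: invariant under conjugation, stable under local homomorphisms, reflected
by jointly injective families of local homomorphisms out of an ARTINIAN local ring, and by the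
family of Artinian quotients of a Noetherian local ring. -/
structure MltoMCGood (E : MltoMC) : Prop where
  conj : ∀ ⦃A : Type⦄ [CommRing A] [IsLocalRing A] (r : GQ → Matrix (Fin 2) (Fin 2) A)
    (u v : Matrix (Fin 2) (Fin 2) A), u * v = 1 → v * u = 1 → E r → E (fun σ => u * r σ * v)
  map : ∀ ⦃A B : Type⦄ [CommRing A] [IsLocalRing A] [CommRing B] [IsLocalRing B] (f : A →+* B),
    IsLocalHom f → ∀ r : GQ → Matrix (Fin 2) (Fin 2) A, E r → E (fun σ => (r σ).map f)
  reflect_art : ∀ ⦃A : Type⦄ [CommRing A] [IsLocalRing A] [IsArtinianRing A] {ι : Type}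
    [Nonempty ι] (B : ι → Type)
    [∀ i, CommRing (B i)] [∀ i, IsLocalRing (B i)] (f : ∀ i, A →+* B i),
    (∀ i, IsLocalHom (f i)) → (∀ a : A, (∀ i, f i a = 0) → a = 0) →
    ∀ r : GQ → Matrix (Fin 2) (Fin 2) A, (∀ i, E (fun σ => (r σ).map (f i))) → E r
  reflect_quot : ∀ ⦃A : Type⦄ [CommRing A] [IsLocalRing A] [IsNoetherianRing A]
    (r : GQ → Matrix (Fin 2) (Fin 2) A),
    (∀ n : ℕ, E (fun σ => (r σ).map (Ideal.Quotient.mk (maximalIdeal A ^ (n + 1))))) → E r

/-- a condition reflected by ALL jointly injective non-empty families of local homomorphisms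
(e.g. a condition given by polynomial identities) is good -/
theorem MltoMCGood.of_reflect {E : MltoMC}
    (conj : ∀ ⦃A : Type⦄ [CommRing A] [IsLocalRing A] (r : GQ → Matrix (Fin 2) (Fin 2) A)
      (u v : Matrix (Fin 2) (Fin 2) A), u * v = 1 → v * u = 1 → E r → E (fun σ => u * r σ * v))
    (map : ∀ ⦃A B : Type⦄ [CommRing A] [IsLocalRing A] [CommRing B] [IsLocalRing B] (f : A →+* B),
      IsLocalHom f → ∀ r : GQ → Matrix (Fin 2) (Fin 2) A, E r → E (fun σ => (r σ).map f))
    (reflect : ∀ ⦃A : Type⦄ [CommRing A] [IsLocalRing A] {ι : Type} [Nonempty ι] (B : ι → Type)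
      [∀ i, CommRing (B i)] [∀ i, IsLocalRing (B i)] (f : ∀ i, A →+* B i),
      (∀ i, IsLocalHom (f i)) → (∀ a : A, (∀ i, f i a = 0) → a = 0) →
      ∀ r : GQ → Matrix (Fin 2) (Fin 2) A, (∀ i, E (fun σ => (r σ).map (f i))) → E r) :
    MltoMCGood E where
  conj := conj
  map := map
  reflect_art := fun _A _ _ _ _ι _ B _ _ f hf hinj r h => reflect B f hf hinj r h
  reflect_quot := fun A _ _ _ r h =>
    reflect (ι := ℕ) (fun n => A ⧸ maximalIdeal A ^ (n + 1))
      (fun n => Ideal.Quotient.mk (maximalIdeal A ^ (n + 1)))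
      (fun n => mlto_quot_mk_isLocalHom n) mlto_quot_jointly_injective r h

/-- the deformation condition attached to a matrix condition -/
def mltoCondOf (𝒪 : Type) [CommRing 𝒪] (E : MltoMC) :
    ∀ ⦃A : Type⦄ [CommRing A] [IsLocalRing A] [Algebra 𝒪 A], GaloisRepAdic A → Prop :=
  fun A _ _ _ ρ => ∃ (r : GQ →* Matrix (Fin 2) (Fin 2) A) (h : MatCts A r),
    ρ.IsEquiv (ofMat r h) ∧ E (fun σ => r σ)

section CondOf

variable {𝒪 : Type} [CommRing 𝒪] {E : MltoMC} (hE : MltoMCGood E)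
variable {A : Type} [CommRing A] [IsLocalRing A] [Algebra 𝒪 A]

include hE in
/-- the condition can be tested on any matrix form -/
theorem mltoCondOf_iff (ρ : GaloisRepAdic A) (r : GQ →* Matrix (Fin 2) (Fin 2) A)
    (h : MatCts A r) (e : ρ.IsEquiv (ofMat r h)) :
    mltoCondOf 𝒪 E ρ ↔ E (fun σ => r σ) := by
  constructor
  · rintro ⟨r₁, h₁, e₁, hE₁⟩
    obtain ⟨e'⟩ := mlto_isEquiv_trans (mlto_isEquiv_symm e₁) e
    obtain ⟨T, hT⟩ := exists_conj_of_equiv e' (ofMatBasis r₁ h₁) (ofMatBasis r h)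
    rw [toMatrixRep_ofMat, toMatrixRep_ofMat] at hT
    have h2 := hE.conj (fun σ => r₁ σ) (T : Matrix (Fin 2) (Fin 2) A)
      ((T⁻¹ : (Matrix (Fin 2) (Fin 2) A)ˣ) : Matrix (Fin 2) (Fin 2) A) (Units.mul_inv T)
      (Units.inv_mul T) hE₁
    have h3 : (fun σ => (T : Matrix (Fin 2) (Fin 2) A) * r₁ σ *
        ((T⁻¹ : (Matrix (Fin 2) (Fin 2) A)ˣ) : Matrix (Fin 2) (Fin 2) A)) = fun σ => r σ := by
      funext σ
      rw [hT σ, mul_assoc, Units.mul_inv, mul_one]
    rwa [h3] at h2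
  · intro hEr
    exact ⟨r, h, e, hEr⟩

include hE in
theorem mltoCondOf_of_isEquiv {ρ ρ' : GaloisRepAdic A} (e : ρ.IsEquiv ρ')
    (h : mltoCondOf 𝒪 E ρ) : mltoCondOf 𝒪 E ρ' := by
  obtain ⟨r, hr, e₁, hEr⟩ := h
  exact ⟨r, hr, mlto_isEquiv_trans (mlto_isEquiv_symm e) e₁, hEr⟩

include hE in
theorem mltoCondOf_baseChange {B : Type} [CommRing B] [IsLocalRing B] [Algebra 𝒪 B]
    (φ : A →+* B) (hφ : IsLocalHom φ) {ρ : GaloisRepAdic A} (h : mltoCondOf 𝒪 E ρ) :
    mltoCondOf 𝒪 E (ρ.baseChangeAlong φ hφ) := by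
  obtain ⟨r, hr, e₁, hEr⟩ := h
  exact ⟨mapMat φ r, hr.map φ hφ, mlto_bc_isEquiv_ofMat φ hφ ρ r hr e₁, hE.map φ hφ _ hEr⟩

include hE in
/-- the condition on a base change, in terms of a matrix form of `ρ` -/
theorem mltoCondOf_baseChange_iff {B : Type} [CommRing B] [IsLocalRing B] [Algebra 𝒪 B]
    (φ : A →+* B) (hφ : IsLocalHom φ) (ρ : GaloisRepAdic A)
    (r : GQ →* Matrix (Fin 2) (Fin 2) A) (h : MatCts A r) (e : ρ.IsEquiv (ofMat r h)) :
    mltoCondOf 𝒪 E (ρ.baseChangeAlong φ hφ) ↔ E (fun σ => (r σ).map φ) :=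
  mltoCondOf_iff hE _ (mapMat φ r) (h.map φ hφ) (mlto_bc_isEquiv_ofMat φ hφ ρ r h e)

end CondOf

/-! ## The family of two rings -/

/-- the family `true ↦ A`, `false ↦ B` -/
def MltoPairTy (A B : Type) : Bool → Type
  | true => A
  | false => B

instance mltoPairCommRing (A B : Type) [CommRing A] [CommRing B] :
    ∀ i, CommRing (MltoPairTy A B i)
  | true => inferInstanceAs (CommRing A)
  | false => inferInstanceAs (CommRing B)

instance mltoPairIsLocalRing (A B : Type) [CommRing A] [CommRing B] [IsLocalRing A]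
    [IsLocalRing B] : ∀ i, IsLocalRing (MltoPairTy A B i)
  | true => inferInstanceAs (IsLocalRing A)
  | false => inferInstanceAs (IsLocalRing B)

/-- the family of two homomorphisms -/
def mltoPairHom {P A B : Type} [CommRing P] [CommRing A] [CommRing B] (pA : P →+* A)
    (pB : P →+* B) : ∀ i, P →+* MltoPairTy A B i
  | true => pA
  | false => pB

/-! ## Good matrix conditions are deformation conditions -/

section Main

variable {𝒪 : Type} [CommRing 𝒪] [IsLocalRing 𝒪] {E : MltoMC}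

theorem mltoCondOf_isDeformationCondition (hE : MltoMCGood E) :
    IsDeformationCondition 𝒪 (mltoCondOf 𝒪 E) where
  of_isEquiv := fun _ _ _ _ _ _ _ e h => mltoCondOf_of_isEquiv hE e h
  baseChangeAlong := fun _ _ _ _ _ _ _ _ _ _ φ hφ _ h => mltoCondOf_baseChange hE _ hφ h
  of_baseChangeAlong_injective := by
    intro A B _ _ _ _ _ _ hA _ φ hφ hinj ρ h
    obtain ⟨r, hr, e⟩ := exists_isEquiv_ofMat ρ
    rw [mltoCondOf_baseChange_iff hE _ hφ ρ r hr e] at h
    rw [mltoCondOf_iff hE ρ r hr e]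
    haveI : IsArtinianRing A := hA.isArtinian
    refine hE.reflect_art (ι := Unit) (fun _ => B) (fun _ => (φ : A →+* B)) (fun _ => hφ) ?_ _
      (fun _ => h)
    intro a ha
    exact (injective_iff_map_eq_zero (φ : A →+* B)).1 hinj a (ha ())
  of_fibreProduct := by
    intro A B C P _ _ _ _ _ _ _ _ _ _ _ _ _ _ _ hP f g pA pB hpA hpB _ hinj _ ρ hρA hρB
    obtain ⟨r, hr, e⟩ := exists_isEquiv_ofMat ρ
    rw [mltoCondOf_baseChange_iff hE _ hpA ρ r hr e] at hρA
    rw [mltoCondOf_baseChange_iff hE _ hpB ρ r hr e] at hρB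
    rw [mltoCondOf_iff hE ρ r hr e]
    haveI : IsArtinianRing P := hP.isArtinian
    refine hE.reflect_art (ι := Bool) (MltoPairTy A B)
      (mltoPairHom (pA : P →+* A) (pB : P →+* B)) ?_ ?_ _ ?_
    · intro i
      cases i
      · exact hpB
      · exact hpA
    · intro a ha
      have h1 : pA a = 0 := ha true
      have h2 : pB a = 0 := ha false
      apply hinj
      show (pA a, pB a) = (pA 0, pB 0)
      rw [h1, h2, map_zero, map_zero]
    · intro i
      cases i
      · exact hρB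
      · exact hρA
  iff_forall_surjective := by
    intro A _ _ _ _ _ hloc hres ρ
    constructor
    · intro h B _ _ _ _ q hq _
      exact mltoCondOf_baseChange hE _ hq h
    · intro h
      obtain ⟨r, hr, e⟩ := exists_isEquiv_ofMat ρ
      rw [mltoCondOf_iff hE ρ r hr e]
      refine hE.reflect_quot _ ?_
      intro n
      have h1 := h (mlto_quot_isArtinianTestAlgebra hloc hres n)
        (Ideal.Quotient.mkₐ 𝒪 (maximalIdeal A ^ (n + 1))) (mlto_quot_mk_isLocalHom n)
        (Ideal.Quotient.mkₐ_surjective 𝒪 _)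
      rw [mltoCondOf_baseChange_iff hE _ _ ρ r hr e] at h1
      exact h1

end Main

end Fermat.Agent.MLT
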