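/-
Project MLT, stream TWO (helper7), D4: the conditions "unramified at `q`" and "unipotent on inertia at
`ℓ`" are deformation conditions.
-/
import Fermat.Agent.Lib.MLT.TWO.DefCond

set_option autoImplicit false
set_option linter.unusedSectionVars false
set_option linter.style.haveILetI false

open Fermat.Agent.S53Lib IsLocalRing GaloisRep
open Fermat.Agent.TW

namespace Fermat.Agent.MLT

local notation "Qb" => AlgebraicClosure ℚ

/-! ## Reflection of matrix identities -/

section Reflect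

variable {A : Type} [CommRing A] {ι : Type} (B : ι → Type) [∀ i, CommRing (B i)]
  (f : ∀ i, A →+* B i) (hinj : ∀ a : A, (∀ i, f i a = 0) → a = 0)

include hinj in
theorem mlto_eq_of_family {a b : A} (h : ∀ i, f i a = f i b) : a = b := by
  rw [← sub_eq_zero]
  refine hinj _ fun i => ?_
  rw [map_sub, h i, sub_self]

include hinj in
theorem mlto_mat_eq_of_family {X Y : Matrix (Fin 2) (Fin 2) A}
    (h : ∀ i, X.map (f i) = Y.map (f i)) : X = Y := by
  ext k l
  refine mlto_eq_of_family B f hinj fun i => ?_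
  have := congrFun (congrFun (h i) k) l
  rwa [Matrix.map_apply, Matrix.map_apply] at this

end Reflect

theorem mlto_map_one {A B : Type} [CommRing A] [CommRing B] (f : A →+* B) :
    (1 : Matrix (Fin 2) (Fin 2) A).map f = 1 :=
  Matrix.map_one f (map_zero f) (map_one f)

/-! ## Unramified at `q` -/

/-- the matrix condition "unramified at `q`" -/
def mltoEUnr (q : ℕ) : MltoMC := fun _A _ _ r =>
  ∀ P : ValuationSubring Qb, P.LiesOverPrime q → ∀ τ ∈ P.inertiaSubgroupIn ℚ, r τ = 1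

theorem mltoEUnr_good (q : ℕ) : MltoMCGood (mltoEUnr q) :=
  MltoMCGood.of_reflect
    (conj := fun A _ _ r u v huv _ h P hP τ hτ => by
      show u * r τ * v = 1
      rw [h P hP τ hτ, mul_one, huv])
    (map := fun A B _ _ _ _ f _ r h P hP τ hτ => by
      show (r τ).map f = 1
      rw [h P hP τ hτ, mlto_map_one])
    (reflect := fun A _ _ ι _ B _ _ f _ hinj r h P hP τ hτ => by
      refine mlto_mat_eq_of_family B f hinj fun i => ?_
      rw [mlto_map_one]
      exact h i P hP τ hτ)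

theorem mltoCondOf_unr_iff {𝒪 : Type} [CommRing 𝒪] (q : ℕ) {A : Type} [CommRing A] [IsLocalRing A]
    [Algebra 𝒪 A] (ρ : GaloisRepAdic A) :
    mltoCondOf 𝒪 (mltoEUnr q) ρ ↔ ρ.IsUnramifiedAt q := by
  constructor
  · rintro ⟨r, hr, e, hE⟩
    refine isUnramifiedAt_of_isEquiv (mlto_isEquiv_symm e) ?_
    intro P hP τ hτ
    exact (ofMat_ρ_eq_one_iff r hr τ).2 (hE P hP τ hτ)
  · intro h
    obtain ⟨r, hr, e⟩ := exists_isEquiv_ofMat ρ
    refine ⟨r, hr, e, fun P hP τ hτ => ?_⟩
    exact (ofMat_ρ_eq_one_iff r hr τ).1 (isUnramifiedAt_of_isEquiv e h P hP τ hτ)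

theorem mlto_isDefCond_unr (𝒪 : Type) [CommRing 𝒪] [IsLocalRing 𝒪] (q : ℕ) :
    IsDeformationCondition 𝒪 (fun _A _ _ _ ρ => ρ.IsUnramifiedAt q) :=
  mlto_isDefCond_of_iff (fun _ _ _ _ ρ => mltoCondOf_unr_iff (𝒪 := 𝒪) q ρ)
    (mltoCondOf_isDeformationCondition (mltoEUnr_good q))

/-! ## Unipotent on inertia at `ℓ` -/

/-- the matrix condition "unipotent on inertia at `ℓ`" -/
def mltoEUnip (ℓ : ℕ) : MltoMC := fun _A _ _ r =>
  ∀ P : ValuationSubring Qb, P.LiesOverPrime ℓ → ∀ τ ∈ P.inertiaSubgroupIn ℚ,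
    (r τ).trace = 2 ∧ (r τ).det = 1

theorem mlto_trace_map {A B : Type} [CommRing A] [CommRing B] (f : A →+* B)
    (M : Matrix (Fin 2) (Fin 2) A) : (M.map f).trace = f M.trace := by
  rw [Matrix.trace_fin_two, Matrix.trace_fin_two, map_add, Matrix.map_apply, Matrix.map_apply]

theorem mlto_det_map {A B : Type} [CommRing A] [CommRing B] (f : A →+* B)
    (M : Matrix (Fin 2) (Fin 2) A) : (M.map f).det = f M.det := by
  rw [← RingHom.mapMatrix_apply, ← RingHom.map_det]

theorem mlto_trace_conj {A : Type} [CommRing A] (u v M : Matrix (Fin 2) (Fin 2) A)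
    (hvu : v * u = 1) : (u * M * v).trace = M.trace := by
  rw [Matrix.trace_mul_comm, ← mul_assoc, hvu, one_mul]

theorem mlto_det_conj {A : Type} [CommRing A] (u v M : Matrix (Fin 2) (Fin 2) A)
    (huv : u * v = 1) : (u * M * v).det = M.det := by
  have h1 : u.det * v.det = 1 := by rw [← Matrix.det_mul, huv, Matrix.det_one]
  rw [Matrix.det_mul, Matrix.det_mul]
  calc u.det * M.det * v.det = (u.det * v.det) * M.det := by ring
    _ = M.det := by rw [h1, one_mul]

theorem mltoEUnip_good (ℓ : ℕ) : MltoMCGood (mltoEUnip ℓ) :=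
  MltoMCGood.of_reflect
    (conj := fun A _ _ r u v huv hvu h P hP τ hτ => by
      show (u * r τ * v).trace = 2 ∧ (u * r τ * v).det = 1
      rw [mlto_trace_conj u v _ hvu, mlto_det_conj u v _ huv]
      exact h P hP τ hτ)
    (map := fun A B _ _ _ _ f _ r h P hP τ hτ => by
      show ((r τ).map f).trace = 2 ∧ ((r τ).map f).det = 1
      rw [mlto_trace_map, mlto_det_map, (h P hP τ hτ).1, (h P hP τ hτ).2, map_ofNat, map_one]
      exact ⟨rfl, rfl⟩)
    (reflect := fun A _ _ ι _ B _ _ f _ hinj r h P hP τ hτ => by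
      constructor
      · refine mlto_eq_of_family B f hinj fun i => ?_
        rw [← mlto_trace_map, (h i P hP τ hτ).1, map_ofNat]
      · refine mlto_eq_of_family B f hinj fun i => ?_
        rw [← mlto_det_map, (h i P hP τ hτ).2, map_one])

theorem mlto_charpoly_eq_iff {A : Type} [CommRing A] [Nontrivial A]
    (M : Matrix (Fin 2) (Fin 2) A) :
    M.charpoly = (Polynomial.X - 1) ^ 2 ↔ M.trace = 2 ∧ M.det = 1 := by
  rw [Matrix.charpoly_fin_two]
  constructor
  · intro h
    have h1 := congrArg (fun P => Polynomial.coeff P 1) h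
    have h0 := congrArg (fun P => Polynomial.coeff P 0) h
    have e : (Polynomial.X - 1 : Polynomial A) ^ 2 =
        Polynomial.X ^ 2 - Polynomial.C 2 * Polynomial.X + Polynomial.C 1 := by
      rw [map_ofNat, map_one]; ring
    rw [e] at h1 h0
    simp only [Polynomial.coeff_add, Polynomial.coeff_sub, Polynomial.coeff_X_pow,
      Polynomial.coeff_C_mul, Polynomial.coeff_X_one, Polynomial.coeff_C_zero,
      Polynomial.coeff_X_zero, Polynomial.coeff_C_succ] at h1 h0
    norm_num at h1 h0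
    exact ⟨h1, h0⟩
  · rintro ⟨h1, h2⟩
    rw [h1, h2, map_ofNat, map_one]
    ring

theorem mltoCondOf_unip_iff {𝒪 : Type} [CommRing 𝒪] (ℓ : ℕ) {A : Type} [CommRing A]
    [IsLocalRing A] [Algebra 𝒪 A] (ρ : GaloisRepAdic A) :
    mltoCondOf 𝒪 (mltoEUnip ℓ) ρ ↔ ρ.IsUnipotentOnInertiaAt ℓ := by
  have key : ∀ (r : GQ →* Matrix (Fin 2) (Fin 2) A) (hr : MatCts A r) (τ : GQ),
      LinearMap.charpoly ((ofMat r hr).ρ τ) = (Polynomial.X - 1) ^ 2 ↔
        (r τ).trace = 2 ∧ (r τ).det = 1 := by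
    intro r hr τ
    rw [← mlto_charpoly_eq_iff]
    show LinearMap.charpoly (Matrix.toLin' (r τ)) = _ ↔ _
    rw [Matrix.charpoly_toLin']
  constructor
  · rintro ⟨r, hr, e, hE⟩
    refine isUnipotentOnInertiaAt_of_isEquiv (mlto_isEquiv_symm e) ?_
    intro P hP τ hτ
    exact (key r hr τ).2 (hE P hP τ hτ)
  · intro h
    obtain ⟨r, hr, e⟩ := exists_isEquiv_ofMat ρ
    refine ⟨r, hr, e, fun P hP τ hτ => ?_⟩
    exact (key r hr τ).1 (isUnipotentOnInertiaAt_of_isEquiv e h P hP τ hτ)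

theorem mlto_isDefCond_unip (𝒪 : Type) [CommRing 𝒪] [IsLocalRing 𝒪] (ℓ : ℕ) :
    IsDeformationCondition 𝒪 (fun _A _ _ _ ρ => ρ.IsUnipotentOnInertiaAt ℓ) :=
  mlto_isDefCond_of_iff (fun _ _ _ _ ρ => mltoCondOf_unip_iff (𝒪 := 𝒪) ℓ ρ)
    (mltoCondOf_isDeformationCondition (mltoEUnip_good ℓ))

end Fermat.Agent.MLT
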