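/-
Project MLT, stream TWO (helper7), D4: "the determinant is the `p`-adic cyclotomic character" is a
deformation condition (`mlto_isDefCond_det`).
-/
import Fermat.Agent.Lib.MLT.TWO.DefCondUN
import Fermat.Agent.Lib.T1.Asm.DetTrick

set_option autoImplicit false
set_option linter.unusedSectionVars false
set_option linter.style.haveILetI false

open Fermat.Agent.S53Lib IsLocalRing GaloisRep
open Fermat.Agent.TW Fermat.Agent.T1 Fermat.Agent.CFT.Pinf

namespace Fermat.Agent.MLT

local notation "Qb" => AlgebraicClosure ℚ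

/-- the matrix condition "the determinant is cyclotomic" -/
def mltoEDet (p : ℕ) : MltoMC := fun A _ _ r =>
  (p : A) ∈ maximalIdeal A ∧ ∀ (n : ℕ) (σ : GQ) (a : ℕ),
    (∀ μ : Qb, μ ^ p ^ n = 1 → σ μ = μ ^ a) →
      (r σ).det - (a : A) ∈ Ideal.span {((p ^ n : ℕ) : A)}

theorem mlto_natCast_mem_of_map {A B : Type} [CommRing A] [IsLocalRing A] [CommRing B]
    [IsLocalRing B] (f : A →+* B) {p : ℕ} (h : (p : B) ∈ maximalIdeal B) :
    (p : A) ∈ maximalIdeal A := by
  by_contra hc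
  have hu : IsUnit (p : A) := by rwa [mem_maximalIdeal, mem_nonunits_iff, not_not] at hc
  rw [← map_natCast f] at h
  exact (mem_maximalIdeal _).1 h (hu.map _)

/-- Krull: an ideal of a Noetherian local ring is closed -/
theorem mlto_mem_of_forall_mem_sup {A : Type} [CommRing A] [IsLocalRing A] [IsNoetherianRing A]
    (I : Ideal A) {x : A} (h : ∀ m : ℕ, x ∈ I ⊔ maximalIdeal A ^ (m + 1)) : x ∈ I := by
  have hH : IsHausdorff (maximalIdeal A) (A ⧸ I) := inferInstance
  have h0 : (Ideal.Quotient.mk I x : A ⧸ I) = 0 := by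
    refine hH.haus _ fun m => ?_
    rw [SModEq.zero]
    obtain ⟨y, hy, z, hz, hyz⟩ := Submodule.mem_sup.1 (h m)
    have hz' : z ∈ maximalIdeal A ^ m := Ideal.pow_le_pow_right (Nat.le_succ m) hz
    have h1 : (Ideal.Quotient.mk I x : A ⧸ I) = z • (Ideal.Quotient.mk I 1 : A ⧸ I) := by
      rw [← hyz, map_add, Ideal.Quotient.eq_zero_iff_mem.2 hy, zero_add]
      show _ = Ideal.Quotient.mk I (z • 1)
      rw [smul_eq_mul, mul_one]
    rw [h1]
    exact Submodule.smul_mem_smul hz' Submodule.mem_top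
  exact Ideal.Quotient.eq_zero_iff_mem.1 h0

theorem mltoEDet_good {p : ℕ} (hp : p.Prime) : MltoMCGood (mltoEDet p) where
  conj := fun A _ _ r u v huv _ h => by
    refine ⟨h.1, fun n σ a ha => ?_⟩
    show (u * r σ * v).det - _ ∈ _
    rw [mlto_det_conj u v _ huv]
    exact h.2 n σ a ha
  map := fun A B _ _ _ _ f hf r h => by
    refine ⟨bc_natCast_mem_maximalIdeal f hf h.1, fun n σ a ha => ?_⟩
    show ((r σ).map f).det - _ ∈ _
    rw [mlto_det_map, ← map_natCast f a, ← map_sub]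
    exact bc_map_mem_span_natCast f (h.2 n σ a ha)
  reflect_art := by
    intro A _ _ _ ι _ B _ _ f hf hinj r h
    obtain ⟨i₀⟩ := ‹Nonempty ι›
    have hpA : (p : A) ∈ maximalIdeal A := mlto_natCast_mem_of_map (f i₀) (h i₀).1
    refine ⟨hpA, fun n σ a ha => ?_⟩
    obtain ⟨N, hN⟩ := (isArtinianRing_iff_isNilpotent_maximalIdeal A).1 inferInstance
    have hpN : (p : A) ^ N = 0 := by
      have h1 : (p : A) ^ N ∈ maximalIdeal A ^ N := Ideal.pow_mem_pow hpA N
      rw [hN] at h1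
      exact h1
    obtain ⟨N', hNN', hnN'⟩ : ∃ N' : ℕ, N ≤ N' ∧ n ≤ N' := ⟨max N n, le_max_left N n, le_max_right N n⟩
    have hpN' : (p : A) ^ N' = 0 := by
      rw [← Nat.sub_add_cancel hNN', pow_add, hpN, mul_zero]
    haveI : NeZero (p ^ N') := ⟨pow_ne_zero _ hp.ne_zero⟩
    haveI : NeZero (p ^ n) := ⟨pow_ne_zero _ hp.ne_zero⟩
    obtain ⟨a', ha'⟩ := te_exists_exponent σ (p ^ N')
    have hmod : a' ≡ a [MOD p ^ n] := by
      apply te_exponent_modEq (p ^ n)
      have hζ := (zetaQbar_spec (p ^ n)).pow_eq_one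
      have hζ' : zetaQbar (p ^ n) ^ p ^ N' = 1 := by
        rw [← Nat.sub_add_cancel hnN', pow_add, mul_comm, pow_mul, hζ, one_pow]
      rw [← ha' _ hζ', ← ha _ hζ]
    have hdet : (r σ).det = (a' : A) := by
      refine mlto_eq_of_family B f hinj fun i => ?_
      have h1 := (h i).2 N' σ a' ha'
      have h2 : ((p ^ N' : ℕ) : B i) = 0 := by
        rw [← map_natCast (f i), Nat.cast_pow, hpN', map_zero]
      rw [h2, Ideal.span_singleton_eq_bot.2 rfl, Ideal.mem_bot, sub_eq_zero, mlto_det_map] at h1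
      rw [h1, map_natCast]
    rw [hdet]
    exact te_cast_sub_mem_of_modEq hmod
  reflect_quot := by
    intro A _ _ _ r h
    have hpA : (p : A) ∈ maximalIdeal A :=
      mlto_natCast_mem_of_map (Ideal.Quotient.mk (maximalIdeal A ^ (0 + 1))) (h 0).1
    refine ⟨hpA, fun n σ a ha => ?_⟩
    refine mlto_mem_of_forall_mem_sup _ fun m => ?_
    have h1 := (h m).2 n σ a ha
    rw [mlto_det_map] at h1
    have h2 : Ideal.Quotient.mk (maximalIdeal A ^ (m + 1)) ((r σ).det - (a : A)) ∈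
        Ideal.map (Ideal.Quotient.mk (maximalIdeal A ^ (m + 1)))
          (Ideal.span {((p ^ n : ℕ) : A)}) := by
      rw [Ideal.map_span, Set.image_singleton, map_natCast, map_sub, map_natCast]
      exact h1
    have h3 := Ideal.mem_comap.2 h2
    rw [Ideal.comap_map_of_surjective _ Ideal.Quotient.mk_surjective, ← RingHom.ker_eq_comap_bot,
      Ideal.mk_ker] at h3
    exact h3

theorem mltoCondOf_det_iff {𝒪 : Type} [CommRing 𝒪] (p : ℕ) {A : Type} [CommRing A]
    [IsLocalRing A] [Algebra 𝒪 A] (ρ : GaloisRepAdic A) :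
    mltoCondOf 𝒪 (mltoEDet p) ρ ↔ ρ.DetIsCyclotomic p := by
  have key : ∀ (r : GQ →* Matrix (Fin 2) (Fin 2) A) (hr : MatCts A r),
      (ofMat r hr).DetIsCyclotomic p ↔ mltoEDet p (fun σ => r σ) := by
    intro r hr
    constructor
    · intro h
      refine ⟨h.1, fun n σ a ha => ?_⟩
      have := h.2 n σ a ha
      rwa [det_ofMat] at this
    · intro h
      refine ⟨h.1, fun n σ a ha => ?_⟩
      rw [det_ofMat]
      exact h.2 n σ a ha
  constructor
  · rintro ⟨r, hr, e, hE⟩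
    exact detIsCyclotomic_of_isEquiv (mlto_isEquiv_symm e) ((key r hr).2 hE)
  · intro h
    obtain ⟨r, hr, e⟩ := exists_isEquiv_ofMat ρ
    exact ⟨r, hr, e, (key r hr).1 (detIsCyclotomic_of_isEquiv e h)⟩

theorem mlto_isDefCond_det (𝒪 : Type) [CommRing 𝒪] [IsLocalRing 𝒪] {p : ℕ} (hp : p.Prime) :
    IsDeformationCondition 𝒪 (fun _A _ _ _ ρ => ρ.DetIsCyclotomic p) :=
  mlto_isDefCond_of_iff (fun _ _ _ _ ρ => mltoCondOf_det_iff (𝒪 := 𝒪) p ρ)
    (mltoCondOf_isDeformationCondition (mltoEDet_good hp))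

end Fermat.Agent.MLT
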