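/-
Project MLT, stream TWO (helper7), D4: **the ordinary deformation problem `D^ord_Σ` is a deformation
condition** (`mlto_isDefCond_ordProblem`), in exactly the shape used by `MltTWOOrdContract` and
`MltTWOGrowthContractOrd`:
`ρ ↦ ordinaryCondition 𝒪 p S ρ ∧ ∀ ℓ ∈ Smin, ℓ.Prime → ℓ ≠ p → ρ.IsUnipotentOnInertiaAt ℓ`.
-/
import Fermat.Agent.Lib.MLT.TWO.DefCondOrdBridge

set_option autoImplicit false
set_option linter.unusedSectionVars false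

open IsLocalRing GaloisRep

namespace Fermat.Agent.MLT

/-- "unramified outside `S`" is a deformation condition -/
theorem mlto_isDefCond_unrOutside (𝒪 : Type) [CommRing 𝒪] [IsLocalRing 𝒪] (S : Finset ℕ) :
    IsDeformationCondition 𝒪
      (fun _A _ _ _ ρ => ∀ q : ℕ, q.Prime → q ∉ S → ρ.IsUnramifiedAt q) :=
  mlto_isDefCond_forall fun q =>
    mlto_isDefCond_imp _ fun _ => mlto_isDefCond_imp _ fun _ => mlto_isDefCond_unr 𝒪 q

/-- "unipotent on inertia at the primes `ℓ ≠ p` of `Smin`" is a deformation condition -/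
theorem mlto_isDefCond_unipOn (𝒪 : Type) [CommRing 𝒪] [IsLocalRing 𝒪] (p : ℕ) (Smin : Finset ℕ) :
    IsDeformationCondition 𝒪
      (fun _A _ _ _ ρ => ∀ ℓ ∈ Smin, ℓ.Prime → ℓ ≠ p → ρ.IsUnipotentOnInertiaAt ℓ) :=
  mlto_isDefCond_forall fun ℓ =>
    mlto_isDefCond_imp _ fun _ => mlto_isDefCond_imp _ fun _ => mlto_isDefCond_imp _ fun _ =>
      mlto_isDefCond_unip 𝒪 ℓ

/-- **`D^ord_Σ` is a deformation condition** (`p ≥ 3`). -/
theorem mlto_isDefCond_ordProblem (𝒪 : Type) [CommRing 𝒪] [IsLocalRing 𝒪] (p : ℕ)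
    [Fact p.Prime] (h3 : 3 ≤ p) (S Smin : Finset ℕ) :
    IsDeformationCondition 𝒪 (fun _A _ _ _ ρ =>
      ordinaryCondition 𝒪 p S ρ ∧ ∀ ℓ ∈ Smin, ℓ.Prime → ℓ ≠ p → ρ.IsUnipotentOnInertiaAt ℓ) := by
  refine mlto_isDefCond_of_iff ?_ (mlto_isDefCond_and (mlto_isDefCond_and
    (mlto_isDefCond_detOrd 𝒪 p h3) (mlto_isDefCond_unrOutside 𝒪 S))
    (mlto_isDefCond_unipOn 𝒪 p Smin))
  intro A _ _ _ ρ
  constructor
  · rintro ⟨⟨⟨h1, h2⟩, h3⟩, h4⟩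
    exact ⟨⟨h1, h2, h3⟩, h4⟩
  · rintro ⟨⟨h1, h2, h3⟩, h4⟩
    exact ⟨⟨⟨h1, h2⟩, h3⟩, h4⟩

end Fermat.Agent.MLT
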