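/-
Project MLT, stream TWO (helper7), D4: **`GaloisRep.TangentFinite`** for every deformation problem
whose members have cyclotomic determinant and are unramified outside a finite set `S`
(`mlto_tangentFinite`), in particular for `D^ord_Σ` (`mlto_tangentFinite_ordProblem`) and
`D^flat_Σ` (`mlto_tangentFinite_flatProblem`).

Proof: the tangent class of a strict matrix form lies in the finite group
`H¹_cont(G_{ℚ,S ∪ {p}}, ad⁰ ρbar)` (`tl_finite_continuousH1S`, class field theory), and lifts with the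
same tangent class are conjugate.
-/
import Fermat.Agent.Lib.MLT.TWO.DefCondFinal
import Fermat.Agent.Lib.TW.S56Reduce3
import Fermat.Prelude.Def_GaloisRep_Flat

set_option autoImplicit false
set_option linter.unusedSectionVars false
set_option linter.style.haveILetI false

open Fermat.Agent.S53Lib IsLocalRing GaloisRep ExtCitation groupCohomology
open Fermat.Agent.TW

namespace Fermat.Agent.MLT

attribute [local instance] dualNumberAlgebra
attribute [local instance] isLocalHom_algebraMap_dualNumber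

section TF

variable {𝒪 : Type} [CommRing 𝒪] [IsLocalRing 𝒪] [Finite (ResidueField 𝒪)]

theorem mlto_tangentFinite (p : ℕ) [hp : Fact p.Prime] (hp2 : p ≠ 2)
    (hp𝒪 : (p : 𝒪) ∈ maximalIdeal 𝒪)
    (ρbar : ResidualGaloisRep (ResidueField 𝒪)) (S : Finset ℕ)
    (hρbar : ∀ q : ℕ, q.Prime → q ∉ S → ρbar.IsUnramifiedAt q)
    (𝒟 : ∀ ⦃A : Type⦄ [CommRing A] [IsLocalRing A] [Algebra 𝒪 A], GaloisRepAdic A → Prop)
    (h𝒟 : ∀ ρ : GaloisRepAdic (DualNumber (ResidueField 𝒪)), 𝒟 ρ →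
      ρ.DetIsCyclotomic p ∧ ∀ q : ℕ, q.Prime → q ∉ S → ρ.IsUnramifiedAt q) :
    TangentFinite 𝒪 ρbar 𝒟 := by
  classical
  letI : Algebra (ZMod p) (ResidueField 𝒪) := tw_algebraZModResidue p hp𝒪
  have hpk : (p : ResidueField 𝒪) = 0 := by
    rw [← map_natCast (residue 𝒪)]
    exact (residue_eq_zero_iff _).2 hp𝒪
  letI := dualNumberResidueAlgebra 𝒪
  let b : Module.Basis (Fin 2) (ResidueField 𝒪) ρbar.V :=
    Module.finBasisOfFinrankEq _ _ ρbar.finrank_eq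
  -- the set of primes
  set S' : Finset Nat.Primes := primesOf (insert p S) with hS'
  have hpS : pPrime p ∈ S' := by
    rw [hS', mem_primesOf]
    exact Finset.mem_insert_self _ _
  have hnot : ∀ q : Nat.Primes, q ∉ S' → (q : ℕ) ∉ S := by
    intro q hq hqS
    apply hq
    rw [hS', mem_primesOf]
    exact Finset.mem_insert_of_mem hqS
  have hunrbar : IsUnramifiedOutsideRep S' (ad0Rep ρbar) :=
    isUnramifiedOutsideRep_ad0 ρbar S' fun q hq => hρbar q q.2 (hnot q hq)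
  have h₀ := (tlDataOf p (ad0Rep ρbar) (isSmoothRep_ad0 ρbar)).hS S' hpS hunrbar
  haveI hfin : Finite (continuousH1S S' (ad0Rep ρbar)) :=
    tl_finite_continuousH1S p (ad0Rep ρbar)
      (tlPTc p (ad0Rep ρbar) (isSmoothRep_ad0 ρbar) hp2 S' hpS h₀)
      (tlDataOf p (ad0Rep ρbar) (isSmoothRep_ad0 ρbar)).hM
  -- the setoid
  show Finite (Quotient (⟨fun ρ ρ' : {ρ : GaloisRepAdic (DualNumber (ResidueField 𝒪)) //
      𝒟 ρ ∧ ρ.residual.IsEquiv (ρbar.baseChange (ResidueField (DualNumber (ResidueField 𝒪)))) } =>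
      ρ.1.IsEquiv ρ'.1, _⟩ : Setoid _))
  set st : Setoid {ρ : GaloisRepAdic (DualNumber (ResidueField 𝒪)) //
      𝒟 ρ ∧ ρ.residual.IsEquiv (ρbar.baseChange (ResidueField (DualNumber (ResidueField 𝒪)))) } :=
    ⟨fun ρ ρ' => ρ.1.IsEquiv ρ'.1, ⟨fun ρ => ⟨GaloisRepAdic.Equiv.refl ρ.1⟩,
        fun ⟨e⟩ => ⟨e.symm⟩, fun ⟨e⟩ ⟨e'⟩ => ⟨e.trans e'⟩⟩⟩ with hst
  -- strict matrix forms
  have hx : ∀ x : {ρ : GaloisRepAdic (DualNumber (ResidueField 𝒪)) //
      𝒟 ρ ∧ ρ.residual.IsEquiv (ρbar.baseChange (ResidueField (DualNumber (ResidueField 𝒪)))) },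
      ∃ (r : GQ →* Matrix (Fin 2) (Fin 2) (DualNumber (ResidueField 𝒪)))
        (h : MatCts (DualNumber (ResidueField 𝒪)) r),
        IsStrictLift (𝒪 := 𝒪) (resMat ρbar b) r ∧ x.1.IsEquiv (ofMat r h) := by
    intro x
    refine exists_strictLift_of_residual_isEquiv ρbar b x.1 ?_
    rw [baseChangeAlong_residueFieldMap_dualNumber]
    exact x.2.2
  choose r hr hstrict hequiv using hx
  have hdual : ∀ x, IsDualLift ρbar b (r x) := fun x =>
    isDualLift_of_isStrictLift ρbar b (hstrict x)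
  have hdetres : ∀ x, HasResidualDet (r x) := fun x =>
    hasResidualDet_of_detIsCyclotomic p hpk (r x) (hr x)
      (detIsCyclotomic_of_isEquiv (hequiv x) (h𝒟 x.1 x.2.1).1)
  have hunr : ∀ x, ∀ q : Nat.Primes, q ∉ S' → ∀ A : ValuationSubring (AlgebraicClosure ℚ),
      A.LiesOverPrime (q : ℕ) → ∀ σ ∈ A.inertiaSubgroupIn ℚ, r x σ = 1 := by
    intro x q hq A hA σ hσ
    have h1 := (h𝒟 x.1 x.2.1).2 q q.2 (hnot q hq)
    have h2 := isUnramifiedAt_of_isEquiv (hequiv x) h1 A hA σ hσ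
    exact (ofMat_ρ_eq_one_iff (r x) (hr x) σ).1 h2
  let Φ : {ρ : GaloisRepAdic (DualNumber (ResidueField 𝒪)) //
      𝒟 ρ ∧ ρ.residual.IsEquiv (ρbar.baseChange (ResidueField (DualNumber (ResidueField 𝒪)))) } →
      continuousH1S S' (ad0Rep ρbar) := fun x =>
    ⟨tangentClass (r x) (hdual x) (hdetres x),
      tangentClass_mem_continuousH1S S' (hr x) (hdual x) (hdetres x) (hunr x)⟩
  have hΦ : ∀ x y, Φ x = Φ y → x.1.IsEquiv y.1 := by
    intro x y h
    have h' : tangentClass (r x) (hdual x) (hdetres x) =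
        tangentClass (r y) (hdual y) (hdetres y) := congrArg Subtype.val h
    obtain ⟨u, hu⟩ := exists_conj_of_tangentClass_eq (hdual x) (hdetres x) (hdual y) (hdetres y) h'
    have e1 : (ofMat (r y) (hr y)).IsEquiv (ofMat (r x) (hr x)) :=
      isEquiv_ofMat_of_conj (hr y) (hr x) u hu
    exact mlto_isEquiv_trans (hequiv x)
      (mlto_isEquiv_trans (mlto_isEquiv_symm e1) (mlto_isEquiv_symm (hequiv y)))
  refine Finite.of_injective (fun q : Quotient st => Φ q.out) ?_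
  intro q q' h
  have h1 : st.r q.out q'.out := hΦ _ _ h
  rw [← Quotient.out_eq q, ← Quotient.out_eq q']
  exact Quotient.sound h1

/-- **`TangentFinite` for `D^ord_Σ`.** -/
theorem mlto_tangentFinite_ordProblem (p : ℕ) [Fact p.Prime] (hp2 : p ≠ 2)
    (hp𝒪 : (p : 𝒪) ∈ maximalIdeal 𝒪)
    (ρbar : ResidualGaloisRep (ResidueField 𝒪)) (S Smin : Finset ℕ)
    (hρbar : ∀ q : ℕ, q.Prime → q ∉ S → ρbar.IsUnramifiedAt q) :
    TangentFinite 𝒪 ρbar (fun _A _ _ _ ρ =>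
      ordinaryCondition 𝒪 p S ρ ∧ ∀ ℓ ∈ Smin, ℓ.Prime → ℓ ≠ p → ρ.IsUnipotentOnInertiaAt ℓ) :=
  mlto_tangentFinite p hp2 hp𝒪 ρbar S hρbar _ (fun _ h => ⟨h.1.1, h.1.2.2⟩)

/-- **`TangentFinite` for `D^flat_Σ`.** -/
theorem mlto_tangentFinite_flatProblem (p : ℕ) [Fact p.Prime] (hp2 : p ≠ 2)
    (hp𝒪 : (p : 𝒪) ∈ maximalIdeal 𝒪)
    (ρbar : ResidualGaloisRep (ResidueField 𝒪)) (S Smin : Finset ℕ)
    (hρbar : ∀ q : ℕ, q.Prime → q ∉ S → ρbar.IsUnramifiedAt q) :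
    TangentFinite 𝒪 ρbar (fun _A _ _ _ ρ =>
      flatCondition 𝒪 p S ρ ∧ ∀ ℓ ∈ Smin, ℓ.Prime → ℓ ≠ p → ρ.IsUnipotentOnInertiaAt ℓ) :=
  mlto_tangentFinite p hp2 hp𝒪 ρbar S hρbar _ (fun _ h => ⟨h.1.1, h.1.2.2⟩)

end TF

end Fermat.Agent.MLT
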