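/-
Project MLT, stream TWO (helper7), D4: **existence of the universal ordinary deformation ring
`R^ord_Σ`** (`mlto_nonempty_ordRing`) and, given the flat condition is a deformation condition, of
`R^flat_Σ` (`mlto_nonempty_flatRing`), from S53 + `mlto_isDefCond_ordProblem` +
`mlto_tangentFinite_ordProblem`.
-/
import Fermat.Agent.Lib.MLT.TWO.TangentFin
import Fermat.Agent.S53

set_option autoImplicit false

open IsLocalRing GaloisRep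

namespace Fermat.Agent.MLT

variable (𝒪 : Type) [CommRing 𝒪] [IsDomain 𝒪] [IsDiscreteValuationRing 𝒪]
  [IsAdicComplete (maximalIdeal 𝒪) 𝒪] [Finite (ResidueField 𝒪)]

/-- **`R^ord_Σ` exists.** -/
theorem mlto_nonempty_ordRing (p : ℕ) [Fact p.Prime] (h3 : 3 ≤ p)
    (hp𝒪 : (p : 𝒪) ∈ maximalIdeal 𝒪)
    (ρbar : ResidualGaloisRep (ResidueField 𝒪)) (habs : ρbar.IsAbsolutelyIrreducible)
    (S Smin : Finset ℕ)
    (hρbar : ∀ q : ℕ, q.Prime → q ∉ S → ρbar.IsUnramifiedAt q)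
    (hbar : ordinaryCondition 𝒪 p S (GaloisRepAdic.ofResidualGaloisRep ρbar) ∧
      ∀ ℓ ∈ Smin, ℓ.Prime → ℓ ≠ p →
        (GaloisRepAdic.ofResidualGaloisRep ρbar).IsUnipotentOnInertiaAt ℓ) :
    Nonempty (DeformationRingData 𝒪 ρbar (fun _A _ _ _ ρ =>
      ordinaryCondition 𝒪 p S ρ ∧ ∀ ℓ ∈ Smin, ℓ.Prime → ℓ ≠ p → ρ.IsUnipotentOnInertiaAt ℓ)) :=
  Fermat.Agent.S53.result 𝒪 ρbar _ habs (mlto_isDefCond_ordProblem 𝒪 p h3 S Smin) hbar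
    (mlto_tangentFinite_ordProblem p (by omega) hp𝒪 ρbar S Smin hρbar)

/-- **`R^flat_Σ` exists**, given that "flat at `p`" is a deformation condition. -/
theorem mlto_nonempty_flatRing (p : ℕ) [hp : Fact p.Prime] (hp2 : p ≠ 2)
    (hp𝒪 : (p : 𝒪) ∈ maximalIdeal 𝒪)
    (hflat : IsDeformationCondition 𝒪 (fun _A _ _ _ ρ => ρ.IsFlatAt p))
    (ρbar : ResidualGaloisRep (ResidueField 𝒪)) (habs : ρbar.IsAbsolutelyIrreducible)
    (S Smin : Finset ℕ)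
    (hρbar : ∀ q : ℕ, q.Prime → q ∉ S → ρbar.IsUnramifiedAt q)
    (hbar : flatCondition 𝒪 p S (GaloisRepAdic.ofResidualGaloisRep ρbar) ∧
      ∀ ℓ ∈ Smin, ℓ.Prime → ℓ ≠ p →
        (GaloisRepAdic.ofResidualGaloisRep ρbar).IsUnipotentOnInertiaAt ℓ) :
    Nonempty (DeformationRingData 𝒪 ρbar (fun _A _ _ _ ρ =>
      flatCondition 𝒪 p S ρ ∧ ∀ ℓ ∈ Smin, ℓ.Prime → ℓ ≠ p → ρ.IsUnipotentOnInertiaAt ℓ)) := by
  refine Fermat.Agent.S53.result 𝒪 ρbar _ habs ?_ hbar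
    (mlto_tangentFinite_flatProblem p hp2 hp𝒪 ρbar S Smin hρbar)
  refine mlto_isDefCond_of_iff ?_ (mlto_isDefCond_and (mlto_isDefCond_and (mlto_isDefCond_and
    (mlto_isDefCond_det 𝒪 hp.out) hflat) (mlto_isDefCond_unrOutside 𝒪 S))
    (mlto_isDefCond_unipOn 𝒪 p Smin))
  intro A _ _ _ ρ
  constructor
  · rintro ⟨⟨⟨h1, h2⟩, h3⟩, h4⟩
    exact ⟨⟨h1, h2, h3⟩, h4⟩
  · rintro ⟨⟨h1, h2, h3⟩, h4⟩
    exact ⟨⟨⟨h1, h2⟩, h3⟩, h4⟩

end Fermat.Agent.MLT
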