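/-
Project MLT, stream TWO (helper7), D4: the GENERIC wrappers (G1), (G2) for the deformation problems
`twCond 𝒪 X p Smin T` of `Lib/TW/Wiring` (cyclotomic determinant, `X` at `p`, unramified outside
`T`, unipotent inertia at the primes `≠ p` of `Smin`), for an arbitrary condition `X` at `p`:

* `mlto_isDefCond_twCond'` : from `IsDeformationCondition (det cyclotomic ∧ X)`;
* `mlto_isDefCond_twCond`  : from `IsDeformationCondition X`;
* `mlto_tangentFinite_twCond` : `TangentFinite` for every `X` (`p` odd);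
* `mlto_nonempty_twRing`   : existence of the universal ring (S53).
-/
import Fermat.Agent.Lib.MLT.TWO.OrdRing

set_option autoImplicit false
set_option linter.unusedSectionVars false

open IsLocalRing GaloisRep Fermat.Agent.TW

namespace Fermat.Agent.MLT

section Wrap

variable (𝒪 : Type) [CommRing 𝒪] [IsLocalRing 𝒪]
  (X : ∀ ⦃A : Type⦄ [CommRing A] [IsLocalRing A], GaloisRepAdic A → Prop)

/-- **(G1)**, from "cyclotomic determinant and `X`" -/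
theorem mlto_isDefCond_twCond' (p : ℕ) (Smin T : Finset ℕ)
    (hX : IsDeformationCondition 𝒪 (fun _A _ _ _ ρ => ρ.DetIsCyclotomic p ∧ X ρ)) :
    IsDeformationCondition 𝒪 (twCond 𝒪 X p Smin T) := by
  refine mlto_isDefCond_of_iff ?_ (mlto_isDefCond_and (mlto_isDefCond_and hX
    (mlto_isDefCond_unrOutside 𝒪 T)) (mlto_isDefCond_unipOn 𝒪 p Smin))
  intro A _ _ _ ρ
  constructor
  · rintro ⟨⟨⟨h1, h2⟩, h3⟩, h4⟩
    exact ⟨⟨h1, h2, h3⟩, h4⟩
  · rintro ⟨⟨h1, h2, h3⟩, h4⟩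
    exact ⟨⟨⟨h1, h2⟩, h3⟩, h4⟩

/-- **(G1)**, from `X` alone -/
theorem mlto_isDefCond_twCond {p : ℕ} (hp : p.Prime) (Smin T : Finset ℕ)
    (hX : IsDeformationCondition 𝒪 (fun _A _ _ _ ρ => X ρ)) :
    IsDeformationCondition 𝒪 (twCond 𝒪 X p Smin T) :=
  mlto_isDefCond_twCond' 𝒪 X p Smin T (mlto_isDefCond_and (mlto_isDefCond_det 𝒪 hp) hX)

variable {𝒪}

/-- **(G2)** -/
theorem mlto_tangentFinite_twCond [Finite (ResidueField 𝒪)] (p : ℕ) [Fact p.Prime] (hp2 : p ≠ 2)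
    (hp𝒪 : (p : 𝒪) ∈ maximalIdeal 𝒪) (ρbar : ResidualGaloisRep (ResidueField 𝒪))
    (Smin T : Finset ℕ) (hρbar : ∀ q : ℕ, q.Prime → q ∉ T → ρbar.IsUnramifiedAt q) :
    TangentFinite 𝒪 ρbar (twCond 𝒪 X p Smin T) :=
  mlto_tangentFinite p hp2 hp𝒪 ρbar T hρbar _ (fun _ h => ⟨h.1.1, h.1.2.2⟩)

end Wrap

/-- **existence of the universal ring of `twCond 𝒪 X p Smin T`** -/
theorem mlto_nonempty_twRing (𝒪 : Type) [CommRing 𝒪] [IsDomain 𝒪] [IsDiscreteValuationRing 𝒪]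
    [IsAdicComplete (maximalIdeal 𝒪) 𝒪] [Finite (ResidueField 𝒪)]
    (X : ∀ ⦃A : Type⦄ [CommRing A] [IsLocalRing A], GaloisRepAdic A → Prop)
    (p : ℕ) [Fact p.Prime] (hp2 : p ≠ 2) (hp𝒪 : (p : 𝒪) ∈ maximalIdeal 𝒪)
    (Smin T : Finset ℕ)
    (hX : IsDeformationCondition 𝒪 (fun _A _ _ _ ρ => ρ.DetIsCyclotomic p ∧ X ρ))
    (ρbar : ResidualGaloisRep (ResidueField 𝒪)) (habs : ρbar.IsAbsolutelyIrreducible)
    (hρbar : ∀ q : ℕ, q.Prime → q ∉ T → ρbar.IsUnramifiedAt q)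
    (hbar : twCond 𝒪 X p Smin T (GaloisRepAdic.ofResidualGaloisRep ρbar)) :
    Nonempty (DeformationRingData 𝒪 ρbar (twCond 𝒪 X p Smin T)) :=
  Fermat.Agent.S53.result 𝒪 ρbar _ habs (mlto_isDefCond_twCond' 𝒪 X p Smin T hX) hbar
    (mlto_tangentFinite_twCond X p hp2 hp𝒪 ρbar Smin T hρbar)

end Fermat.Agent.MLT
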