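/-
Project MLT, stream TWO (helper7): lengths over a PID / DVR.

* `mlto_length_coker_eq` : `length coker f = length R/(det f)` (PID, `det f ≠ 0`);
* `mlto_length_span_le` : relations `∑ j, T i j • y j = 0` with `det T ≠ 0` bound the length of
  the span of the `y j` by `length R/(det T)`;
* `mlto_length_le_of_forall_quot` : `length (M / I^m M) ≤ B` for all `m` implies `length M ≤ B`.
-/
import Mathlib

set_option autoImplicit false
set_option linter.unusedSectionVars false
set_option linter.style.haveILetI false

namespace Fermat.Agent.MLT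

open Module Submodule

section PID

variable {R : Type*} [CommRing R] [IsDomain R]

/-- `length R/(xy) = length R/(x) + length R/(y)` for `x ≠ 0`. -/
theorem mlto_length_quot_span_mul (x y : R) (hx : x ≠ 0) :
    Module.length R (R ⧸ Ideal.span {x * y}) =
      Module.length R (R ⧸ Ideal.span {y}) + Module.length R (R ⧸ Ideal.span {x}) := by
  -- `f : R/(y) → R/(xy)`, multiplication by `x`; `g : R/(xy) → R/(x)` the projection
  let f : (R ⧸ Ideal.span {y}) →ₗ[R] (R ⧸ Ideal.span {x * y}) :=
    Submodule.liftQ _ ((Ideal.span {x * y}).mkQ ∘ₗ LinearMap.mulLeft R x) (by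
      intro a ha
      rw [Ideal.mem_span_singleton'] at ha
      obtain ⟨c, rfl⟩ := ha
      rw [LinearMap.mem_ker, LinearMap.comp_apply, LinearMap.mulLeft_apply, Submodule.mkQ_apply,
        Submodule.Quotient.mk_eq_zero]
      exact Ideal.mem_span_singleton'.2 ⟨c, by ring⟩)
  let g : (R ⧸ Ideal.span {x * y}) →ₗ[R] (R ⧸ Ideal.span {x}) :=
    Submodule.liftQ _ (Ideal.span {x}).mkQ (by
      intro a ha
      rw [Ideal.mem_span_singleton'] at ha
      obtain ⟨c, rfl⟩ := ha
      rw [LinearMap.mem_ker, Submodule.mkQ_apply, Submodule.Quotient.mk_eq_zero]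
      exact Ideal.mem_span_singleton'.2 ⟨c * y, by ring⟩)
  have hf : Function.Injective f := by
    rw [injective_iff_map_eq_zero]
    intro a ha
    obtain ⟨a, rfl⟩ := Submodule.Quotient.mk_surjective _ a
    have h1 : f (Submodule.Quotient.mk a) = Submodule.Quotient.mk (x * a) := rfl
    rw [h1, Submodule.Quotient.mk_eq_zero, Ideal.mem_span_singleton'] at ha
    obtain ⟨c, hc⟩ := ha
    rw [Submodule.Quotient.mk_eq_zero, Ideal.mem_span_singleton']
    refine ⟨c, mul_left_cancel₀ hx ?_⟩
    rw [← hc]; ring
  have hg : Function.Surjective g := by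
    intro a
    obtain ⟨a, rfl⟩ := Submodule.Quotient.mk_surjective _ a
    exact ⟨Submodule.Quotient.mk a, rfl⟩
  have hex : Function.Exact f g := by
    intro a
    obtain ⟨a, rfl⟩ := Submodule.Quotient.mk_surjective _ a
    have h1 : g (Submodule.Quotient.mk a) = Submodule.Quotient.mk a := rfl
    rw [h1, Submodule.Quotient.mk_eq_zero, Ideal.mem_span_singleton']
    constructor
    · rintro ⟨c, rfl⟩
      refine ⟨Submodule.Quotient.mk c, ?_⟩
      show (Submodule.Quotient.mk (x * c) : R ⧸ Ideal.span {x * y}) = _
      congr 1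
      ring
    · rintro ⟨b, hb⟩
      obtain ⟨b, rfl⟩ := Submodule.Quotient.mk_surjective _ b
      have h2 : f (Submodule.Quotient.mk b) = Submodule.Quotient.mk (x * b) := rfl
      rw [h2, Submodule.Quotient.eq, Ideal.mem_span_singleton'] at hb
      obtain ⟨c, hc⟩ := hb
      refine ⟨b - c * y, ?_⟩
      linear_combination -hc
  exact Module.length_eq_add_of_exact f g hf hg hex

/-- `length R/(∏ a i) = ∑ length R/(a i)` for nonzero `a i`. -/
theorem mlto_length_quot_span_prod {ι : Type*} (s : Finset ι) (a : ι → R)
    (ha : ∀ i ∈ s, a i ≠ 0) :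
    Module.length R (R ⧸ Ideal.span {∏ i ∈ s, a i}) =
      ∑ i ∈ s, Module.length R (R ⧸ Ideal.span {a i}) := by
  classical
  induction s using Finset.induction_on with
  | empty =>
    rw [Finset.prod_empty, Finset.sum_empty, Ideal.span_singleton_one]
    haveI : Subsingleton (R ⧸ (⊤ : Ideal R)) := Ideal.Quotient.subsingleton_iff.2 rfl
    exact Module.length_eq_zero
  | insert i s hi ih =>
    rw [Finset.prod_insert hi, Finset.sum_insert hi,
      mlto_length_quot_span_mul _ _ (ha i (Finset.mem_insert_self i s)),
      ih (fun j hj => ha j (Finset.mem_insert_of_mem hj)), add_comm]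

variable [IsPrincipalIdealRing R]

/-- an endomorphism of a finite free module over a domain with nonzero determinant is injective -/
theorem mlto_injective_of_det_ne_zero {M : Type*} [AddCommGroup M] [Module R M] [Module.Free R M]
    [Module.Finite R M] (f : M →ₗ[R] M) (hdet : LinearMap.det f ≠ 0) : Function.Injective f := by
  classical
  let b := Module.Free.chooseBasis R M
  rw [injective_iff_map_eq_zero]
  intro x hx
  have h1 : (LinearMap.toMatrix b b f).det ≠ 0 := by rwa [LinearMap.det_toMatrix]
  have h2 : (LinearMap.toMatrix b b f).mulVec (b.repr x) = 0 := by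
    rw [LinearMap.toMatrix_mulVec_repr, hx, map_zero]
    rfl
  have h3 := Matrix.eq_zero_of_mulVec_eq_zero h1 h2
  have h4 : b.repr x = 0 := by
    ext i
    exact congrFun h3 i
  exact b.repr.map_eq_zero_iff.1 h4

/-- **`length coker f = length R/(det f)`** for an endomorphism with nonzero determinant of a
finite free module over a PID. -/
theorem mlto_length_coker_eq {M : Type*} [AddCommGroup M] [Module R M] [Module.Free R M]
    [Module.Finite R M] (f : M →ₗ[R] M) (hdet : LinearMap.det f ≠ 0) :
    Module.length R (M ⧸ LinearMap.range f) =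
      Module.length R (R ⧸ Ideal.span {LinearMap.det f}) := by
  classical
  let b := Module.Free.chooseBasis R M
  have hinj := mlto_injective_of_det_ne_zero f hdet
  let N : Submodule R M := LinearMap.range f
  let e : M ≃ₗ[R] N := LinearEquiv.ofInjective f hinj
  have h : Module.finrank R N = Module.finrank R M := e.symm.finrank_eq
  let a := smithNormalFormCoeffs b h
  let b' := smithNormalFormTopBasis b h
  let ab := smithNormalFormBotBasis b h
  have ab_eq := smithNormalFormBotBasis_def b h
  let e' : M ≃ₗ[R] N := b'.equiv ab (Equiv.refl _)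
  let f' : M →ₗ[R] M := N.subtype.comp (e' : M →ₗ[R] N)
  have hff' : Associated (LinearMap.det f) (LinearMap.det f') := by
    have h1 : f = N.subtype.comp (e : M →ₗ[R] N) := by
      ext x
      rfl
    rw [h1]
    exact LinearMap.associated_det_comp_equiv _ _ _
  have ha : ∀ i, f' (b' i) = a i • b' i := by
    intro i
    show ((b'.equiv ab (Equiv.refl _) (b' i) : N) : M) = _
    rw [b'.equiv_apply, Equiv.refl_apply]
    exact ab_eq i
  have hdet' : LinearMap.det f' = ∏ i, a i := by
    rw [← LinearMap.det_toMatrix b', ← Matrix.det_diagonal]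
    congr 1
    ext i j
    rw [LinearMap.toMatrix_apply, ha, map_smul, Module.Basis.repr_self, Finsupp.smul_single,
      smul_eq_mul, mul_one]
    by_cases hij : i = j
    · rw [hij, Matrix.diagonal_apply_eq, Finsupp.single_eq_same]
    · rw [Matrix.diagonal_apply_ne _ hij, Finsupp.single_eq_of_ne hij]
  have hspan : Ideal.span {LinearMap.det f} = Ideal.span {∏ i, a i} := by
    rw [← hdet']
    exact Ideal.span_singleton_eq_span_singleton.2 hff'
  rw [hspan, mlto_length_quot_span_prod _ _ (fun i _ => smithNormalFormCoeffs_ne_zero b h i),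
    (N.quotientEquivPiSpan b h).length_eq, Module.length_pi_of_fintype]

/-- **Relations bound the span.**  If `y : ι → Y` satisfies the relations `∑ j, T i j • y j = 0`
with `det T ≠ 0`, then `length (span y) ≤ length R/(det T)`. -/
theorem mlto_length_span_le {ι : Type*} [Fintype ι] [DecidableEq ι] {Y : Type*} [AddCommGroup Y]
    [Module R Y] (T : Matrix ι ι R) (hT : T.det ≠ 0) (y : ι → Y)
    (hrel : ∀ i, ∑ j, T i j • y j = 0) :
    Module.length R (Submodule.span R (Set.range y)) ≤
      Module.length R (R ⧸ Ideal.span {T.det}) := by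
  let g : (ι → R) →ₗ[R] Y := Fintype.linearCombination R y
  let f : (ι → R) →ₗ[R] (ι → R) := Matrix.toLin' T.transpose
  have hdet : LinearMap.det f = T.det := by
    rw [LinearMap.det_toLin', Matrix.det_transpose]
  have hgf : ∀ c, g (f c) = 0 := by
    intro c
    have h1 : g ∘ₗ f = 0 := by
      apply LinearMap.pi_ext'
      intro i
      ext
      show g (f (Pi.single i 1)) = 0
      have h2 : f (Pi.single i 1) = fun j => T i j := by
        ext j
        show (T.transpose.mulVec (Pi.single i 1)) j = T i j
        rw [Matrix.mulVec_single_one]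
        rfl
      rw [h2]
      show Fintype.linearCombination R y (fun j => T i j) = 0
      rw [Fintype.linearCombination_apply]
      exact hrel i
    exact LinearMap.congr_fun h1 c
  have hrange : LinearMap.range g = Submodule.span R (Set.range y) :=
    Fintype.range_linearCombination R y
  rw [← hrange, ← hdet, ← mlto_length_coker_eq f (by rwa [hdet])]
  let g' : ((ι → R) ⧸ LinearMap.range f) →ₗ[R] LinearMap.range g :=
    Submodule.liftQ _ g.rangeRestrict (by
      rintro _ ⟨c, rfl⟩
      rw [LinearMap.mem_ker]
      apply Subtype.ext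
      exact hgf c)
  refine Module.length_le_of_surjective g' ?_
  rintro ⟨_, ⟨c, rfl⟩⟩
  exact ⟨Submodule.Quotient.mk c, rfl⟩

end PID

section Limit

variable {R : Type*} [CommRing R] {M : Type*} [AddCommGroup M] [Module R M]

/-- if `length (M / I^m M) = length (M / I^(m+1) M) < ∞` then `I^m M ≤ I^(m+1) M` -/
theorem mlto_le_of_length_quot_eq (I : Ideal R) (m : ℕ)
    (hfin : Module.length R (M ⧸ (I ^ m • (⊤ : Submodule R M))) ≠ ⊤)
    (heq : Module.length R (M ⧸ (I ^ (m + 1) • (⊤ : Submodule R M))) =
      Module.length R (M ⧸ (I ^ m • (⊤ : Submodule R M)))) :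
    I ^ m • (⊤ : Submodule R M) ≤ I ^ (m + 1) • (⊤ : Submodule R M) := by
  have hle : I ^ (m + 1) • (⊤ : Submodule R M) ≤ I ^ m • (⊤ : Submodule R M) :=
    Submodule.smul_mono_left (Ideal.pow_le_pow_right (Nat.le_succ m))
  let g : (M ⧸ (I ^ (m + 1) • (⊤ : Submodule R M))) →ₗ[R] (M ⧸ (I ^ m • (⊤ : Submodule R M))) :=
    Submodule.mapQ _ _ LinearMap.id hle
  have hg : Function.Surjective g := by
    intro x
    obtain ⟨x, rfl⟩ := Submodule.Quotient.mk_surjective _ x
    exact ⟨Submodule.Quotient.mk x, rfl⟩
  have h1 := Module.length_eq_add_of_exact (LinearMap.ker g).subtype g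
    (Submodule.subtype_injective _) hg (LinearMap.exact_subtype_ker_map g)
  rw [heq] at h1
  have h2 : Module.length R (LinearMap.ker g) = 0 := by
    by_contra h0
    have h3 : Module.length R (M ⧸ (I ^ m • (⊤ : Submodule R M))) <
        Module.length R (LinearMap.ker g) + Module.length R (M ⧸ (I ^ m • (⊤ : Submodule R M))) := by
      conv_lhs => rw [← zero_add (Module.length R (M ⧸ (I ^ m • (⊤ : Submodule R M))))]
      exact (ENat.add_lt_add_iff_right hfin).2 (pos_iff_ne_zero.2 h0)
    exact absurd h1 (ne_of_lt h3)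
  rw [Module.length_eq_zero_iff] at h2
  intro x hx
  have h3 : (⟨Submodule.Quotient.mk x, by
      rw [LinearMap.mem_ker]
      show (Submodule.Quotient.mk x : M ⧸ (I ^ m • (⊤ : Submodule R M))) = 0
      rwa [Submodule.Quotient.mk_eq_zero]⟩ : LinearMap.ker g) = 0 := Subsingleton.elim _ _
  have h4 := congrArg Subtype.val h3
  simpa [Submodule.Quotient.mk_eq_zero] using h4

/-- **Passage to the limit.** For a finitely generated module `M` and an ideal `I` in the Jacobson
radical: if `length (M / I^m M) ≤ B` for all `m` (`B` finite), then `length M ≤ B`. -/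
theorem mlto_length_le_of_forall_quot [IsNoetherianRing R] (I : Ideal R)
    (hI : I ≤ Ideal.jacobson ⊥) [Module.Finite R M] (B : ℕ)
    (h : ∀ m : ℕ, Module.length R (M ⧸ (I ^ m • (⊤ : Submodule R M))) ≤ B) :
    Module.length R M ≤ B := by
  -- the lengths `ℓ m` as natural numbers
  have hfin : ∀ m, Module.length R (M ⧸ (I ^ m • (⊤ : Submodule R M))) ≠ ⊤ := fun m =>
    ne_top_of_le_ne_top (ENat.natCast_ne_top B) (h m)
  let ℓ : ℕ → ℕ := fun m => (Module.length R (M ⧸ (I ^ m • (⊤ : Submodule R M)))).toNat
  have hℓ : ∀ m, (ℓ m : ℕ∞) = Module.length R (M ⧸ (I ^ m • (⊤ : Submodule R M))) := fun m =>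
    ENat.natCast_toNat (hfin m)
  have hℓB : ∀ m, ℓ m ≤ B := fun m => by
    have := h m
    rw [← hℓ m] at this
    exact_mod_cast this
  have hmono : ∀ m, ℓ m ≤ ℓ (m + 1) := by
    intro m
    have hle : I ^ (m + 1) • (⊤ : Submodule R M) ≤ I ^ m • (⊤ : Submodule R M) :=
      Submodule.smul_mono_left (Ideal.pow_le_pow_right (Nat.le_succ m))
    have h1 : Module.length R (M ⧸ (I ^ m • (⊤ : Submodule R M))) ≤
        Module.length R (M ⧸ (I ^ (m + 1) • (⊤ : Submodule R M))) := by
      refine Module.length_le_of_surjective (Submodule.mapQ _ _ LinearMap.id hle) ?_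
      intro x
      obtain ⟨x, rfl⟩ := Submodule.Quotient.mk_surjective _ x
      exact ⟨Submodule.Quotient.mk x, rfl⟩
    rw [← hℓ m, ← hℓ (m + 1)] at h1
    exact_mod_cast h1
  -- some step is stationary
  obtain ⟨m, hm⟩ : ∃ m, ℓ (m + 1) = ℓ m := by
    by_contra hne
    push Not at hne
    have hstrict : ∀ m, m ≤ ℓ m := by
      intro m
      induction m with
      | zero => exact Nat.zero_le _
      | succ m ih =>
        have := lt_of_le_of_ne (hmono m) (hne m).symm
        omega
    have := hstrict (B + 1)
    have := hℓB (B + 1)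
    omega
  have hle := mlto_le_of_length_quot_eq (M := M) I m (hfin m) (by rw [← hℓ m, ← hℓ (m + 1), hm])
  -- Nakayama
  have hbot : I ^ m • (⊤ : Submodule R M) = ⊥ := by
    refine Submodule.eq_bot_of_le_smul_of_le_jacobson_bot I _ ?_ ?_ hI
    · exact Submodule.FG.smul ((IsNoetherian.noetherian _)) Module.Finite.fg_top
    · rw [pow_succ', mul_smul] at hle
      exact hle
  have h1 := h m
  rw [hbot] at h1
  rwa [(Submodule.quotEquivOfEqBot (⊥ : Submodule R M) rfl).length_eq] at h1

end Limit

end Fermat.Agent.MLT
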