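/-
Project MLT, stream TWO (helper7), the step at `p` (peu ramifié ordinary condition):
**Kummer generators at level `N`** (in the applications `N = p ^ n`) of cocycles of the inertia
group with values in `ZMod N (1)`, and the class `mltoVal` of the valuation of `y ^ N` modulo `N`.

For `a : G_ℚ → ZMod N` which is an `ω`-cocycle on the inertia group `I` (`σ ζ = ζ ^ ω σ`) and
constant modulo a finite level, Hilbert 90 gives `y ≠ 0` with `ι y = ζ ^ (a ι) * y` on `I`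
(`mltoGen_exists`); `y ^ N` lies in the inertia field `K0`, which is unramified, so that
`ord (y ^ N)` is an integer, well defined modulo `N`: `mltoVal 𝔓 N ζ a`.  It is additive in `a`,
vanishes on coboundaries, is invariant under Frobenius conjugation, and vanishes if and only if `a`
has a generator which is a unit at `𝔓`.
-/
import Fermat.Agent.Lib.TW.Kum.Generator
import Fermat.Agent.Lib.TW.LF.Unr

set_option autoImplicit false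
set_option linter.style.haveILetI false
set_option linter.unusedSectionVars false

namespace Fermat.Agent.MLT

open Fermat.Agent.TW Fermat.Agent.S05Lib

local notation "Qb" => AlgebraicClosure ℚ
local notation "GQ" => (AlgebraicClosure ℚ ≃ₐ[ℚ] AlgebraicClosure ℚ)

noncomputable section

variable (𝔓 : FFPlace) (N : ℕ) [NeZero N]

/-- `y` is a Kummer generator at level `N` of `a` on the inertia group: `ι y = ζ ^ (a ι) * y` -/
def MltoGen (ζ : Qb) (a : GQ → ZMod N) (y : Qb) : Prop :=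
  y ≠ 0 ∧ ∀ ι ∈ 𝔓.I, ι y = lfZPow ζ (a ι) * y

variable {𝔓 N} {ζ : Qb} {a a' : GQ → ZMod N} {y y' : Qb}

lemma MltoGen.pow_mem_K0 (hζ : ζ ^ N = 1) (h : MltoGen 𝔓 N ζ a y) : y ^ N ∈ 𝔓.K0 := by
  rw [FFPlace.mem_K0_iff]
  intro ι hι
  rw [map_pow, h.2 ι hι, mul_pow, lfZPow_pow hζ, one_mul]

lemma MltoGen.pow_ne_zero (h : MltoGen 𝔓 N ζ a y) : y ^ N ≠ 0 := _root_.pow_ne_zero _ h.1

lemma MltoGen.mul (hζ : ζ ^ N = 1) (h : MltoGen 𝔓 N ζ a y) (h' : MltoGen 𝔓 N ζ a' y') :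
    MltoGen 𝔓 N ζ (a + a') (y * y') := by
  refine ⟨mul_ne_zero h.1 h'.1, fun ι hι => ?_⟩
  rw [map_mul, h.2 ι hι, h'.2 ι hι, Pi.add_apply, lfZPow_add hζ]
  ring

lemma MltoGen.congr (h : MltoGen 𝔓 N ζ a y) (haa : ∀ ι ∈ 𝔓.I, a ι = a' ι) :
    MltoGen 𝔓 N ζ a' y :=
  ⟨h.1, fun ι hι => by rw [← haa ι hι]; exact h.2 ι hι⟩

lemma MltoGen.div_mem_K0 (hζ : ζ ^ N = 1) (h : MltoGen 𝔓 N ζ a y) (h' : MltoGen 𝔓 N ζ a y') :
    y' / y ∈ 𝔓.K0 := by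
  rw [FFPlace.mem_K0_iff]
  intro ι hι
  rw [map_div₀, h.2 ι hι, h'.2 ι hι, mul_div_mul_left _ _ (lfZPow_ne_zero hζ _)]

/-- multiplying a generator by an element of the inertia field -/
lemma MltoGen.mul_K0 (h : MltoGen 𝔓 N ζ a y) {s : Qb} (hs : s ∈ 𝔓.K0) (hs0 : s ≠ 0) :
    MltoGen 𝔓 N ζ a (y * s) := by
  refine ⟨mul_ne_zero h.1 hs0, fun ι hι => ?_⟩
  rw [map_mul, h.2 ι hι, (𝔓.mem_K0_iff s).1 hs ι hι, mul_assoc]

variable (𝔓 N)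

/-- **existence of Kummer generators** (Hilbert 90) -/
theorem mltoGen_exists (hζ : ζ ^ N = 1) (ω : GQ → ZMod N)
    (hω : ∀ σ ∈ 𝔓.I, σ ζ = lfZPow ζ (ω σ)) (a : GQ → ZMod N)
    (hcoc : ∀ σ ∈ 𝔓.I, ∀ τ ∈ 𝔓.I, a (σ * τ) = a σ + ω σ * a τ)
    (F : IntermediateField ℚ Qb) (hF : FiniteDimensional ℚ F)
    (hlev : ∀ σ ∈ 𝔓.I, ∀ τ ∈ 𝔓.I, (∀ x ∈ F, σ x = τ x) → a σ = a τ) :
    ∃ y, MltoGen 𝔓 N ζ a y := by
  haveI : Algebra.IsAlgebraic ℚ Qb := AlgebraicClosure.isAlgebraic ℚ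
  haveI : IsAlgClosure ℚ Qb := ⟨inferInstance, inferInstance⟩
  haveI : Normal ℚ Qb := IsAlgClosure.normal ℚ Qb
  haveI := hF
  set F₁ : IntermediateField ℚ Qb := F ⊔ IntermediateField.adjoin ℚ {ζ} with hF₁
  haveI : FiniteDimensional ℚ ↥(IntermediateField.adjoin ℚ {ζ}) :=
    IntermediateField.adjoin.finiteDimensional (Algebra.IsIntegral.isIntegral ζ)
  haveI : FiniteDimensional ℚ ↥F₁ := IntermediateField.finiteDimensional_sup _ _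
  set F' : IntermediateField ℚ Qb := IntermediateField.normalClosure ℚ ↥F₁ Qb with hF'
  haveI hfd' : FiniteDimensional ℚ ↥F' := normalClosure.is_finiteDimensional ℚ _ Qb
  have hnorm : Normal ℚ ↥F' := normalClosure.normal ℚ _ Qb
  have hle : F ≤ F' := le_sup_left.trans (IntermediateField.le_normalClosure _)
  have hζF' : ζ ∈ F' := (le_sup_right.trans (IntermediateField.le_normalClosure F₁))
    (IntermediateField.mem_adjoin_simple_self ℚ ζ)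
  obtain ⟨y, -, hy0, hy⟩ := tk_hilbert90 𝔓.I F' (fun σ => lfZPow ζ (a σ))
    (fun σ _ => pow_mem hζF' _) (fun σ _ => lfZPow_ne_zero hζ _)
    (fun σ hσ τ hτ => by
      rw [hcoc σ hσ τ hτ, lfZPow_add hζ, tk_apply_lfZPow hζ σ (hω σ hσ)])
    (fun σ hσ τ hτ hx => by
      rw [hlev σ hσ τ hτ (fun x hxF => hx x (hle hxF))])
  exact ⟨y, hy0, hy⟩

variable {𝔓 N}

/-- the coboundaries have generator `ζ ^ j` -/
lemma mltoGen_cob (hζ : ζ ^ N = 1) (ω : GQ → ZMod N)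
    (hω : ∀ σ ∈ 𝔓.I, σ ζ = lfZPow ζ (ω σ)) (j : ZMod N) :
    MltoGen 𝔓 N ζ (fun ι => (ω ι - 1) * j) (lfZPow ζ j) := by
  refine ⟨lfZPow_ne_zero hζ j, fun ι hι => ?_⟩
  rw [tk_apply_lfZPow hζ ι (hω ι hι), ← lfZPow_add hζ]
  congr 1
  ring

/-- **Frobenius conjugation** of Kummer generators -/
theorem MltoGen.frob (hζ : ζ ^ N = 1) {φ : GQ} (hφD : φ ∈ 𝔓.D) {w : ZMod N}
    (hφζ : φ ζ = lfZPow ζ w) (h : MltoGen 𝔓 N ζ a y) :
    MltoGen 𝔓 N ζ (fun ι => w * a (φ⁻¹ * ι * φ)) (φ y) := by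
  refine ⟨by rw [Ne, EmbeddingLike.map_eq_zero_iff]; exact h.1, fun ι hι => ?_⟩
  have h1 := h.2 _ (𝔓.conj_mem_I' hφD hι)
  have h2 : ι (φ y) = φ ((φ⁻¹ * ι * φ) y) := by
    have : φ * (φ⁻¹ * ι * φ) = ι * φ := by group
    rw [← AlgEquiv.mul_apply φ, this, AlgEquiv.mul_apply]
  rw [h2, h1, map_mul, tk_apply_lfZPow hζ φ hφζ]

/-! ### The valuation class -/

/-- `ord (y ^ N)` is an integer -/
lemma MltoGen.exists_is (hζ : ζ ^ N = 1) (h : MltoGen 𝔓 N ζ a y) :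
    ∃ m : ℤ, 𝔓.v.Is (y ^ N) m := by
  obtain ⟨m, hm⟩ := 𝔓.lf_unr _ (h.pow_mem_K0 hζ) h.pow_ne_zero
  exact ⟨m, h.pow_ne_zero, hm⟩

/-- two generators have the same valuation class -/
lemma MltoGen.is_unique (hζ : ζ ^ N = 1) (h : MltoGen 𝔓 N ζ a y) (h' : MltoGen 𝔓 N ζ a y')
    {m m' : ℤ} (hm : 𝔓.v.Is (y ^ N) m) (hm' : 𝔓.v.Is (y' ^ N) m') :
    (m : ZMod N) = (m' : ZMod N) := by
  have h2 : y' / y ≠ 0 := div_ne_zero h'.1 h.1
  obtain ⟨k, hk⟩ := 𝔓.lf_unr _ (h.div_mem_K0 hζ h') h2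
  have h1 : y' ^ N = y ^ N * (y' / y) ^ N := by
    rw [div_pow, mul_div_cancel₀ _ h.pow_ne_zero]
  have h3 : 𝔓.v.Is (y' ^ N) ((m : ℚ) + (N : ℚ) * k) := by
    rw [h1]
    exact hm.mul (QVal.Is.pow ⟨h2, hk⟩ N)
  have h4 := hm'.unique h3
  have h5 : m' = m + N * k := by
    have : (m' : ℚ) = ((m + N * k : ℤ) : ℚ) := by push_cast; linarith
    exact_mod_cast this
  rw [h5]
  push_cast
  rw [ZMod.natCast_self, zero_mul, add_zero]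

variable (𝔓 N)

open Classical in
/-- **the valuation class** of the Kummer generators of `a`: `ord (y ^ N) mod N` -/
def mltoVal (ζ : Qb) (a : GQ → ZMod N) : ZMod N :=
  if h : ∃ y, ∃ m : ℤ, MltoGen 𝔓 N ζ a y ∧ 𝔓.v.Is (y ^ N) m then (h.choose_spec.choose : ZMod N)
  else 0

variable {𝔓 N}

lemma MltoGen.val_eq (hζ : ζ ^ N = 1) (h : MltoGen 𝔓 N ζ a y) {m : ℤ} (hm : 𝔓.v.Is (y ^ N) m) :
    mltoVal 𝔓 N ζ a = (m : ZMod N) := by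
  have hex : ∃ y, ∃ m : ℤ, MltoGen 𝔓 N ζ a y ∧ 𝔓.v.Is (y ^ N) m := ⟨y, m, h, hm⟩
  unfold mltoVal
  rw [dif_pos hex]
  exact MltoGen.is_unique hζ hex.choose_spec.choose_spec.1 h hex.choose_spec.choose_spec.2 hm

lemma MltoGen.val_add (hζ : ζ ^ N = 1) (h : MltoGen 𝔓 N ζ a y) (h' : MltoGen 𝔓 N ζ a' y') :
    mltoVal 𝔓 N ζ (a + a') = mltoVal 𝔓 N ζ a + mltoVal 𝔓 N ζ a' := by
  obtain ⟨m, hm⟩ := h.exists_is hζ
  obtain ⟨m', hm'⟩ := h'.exists_is hζ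
  have h1 : 𝔓.v.Is ((y * y') ^ N) ((m + m' : ℤ) : ℚ) := by
    rw [mul_pow]
    push_cast
    exact hm.mul hm'
  rw [(h.mul hζ h').val_eq hζ h1, h.val_eq hζ hm, h'.val_eq hζ hm']
  push_cast
  rfl

lemma mltoVal_congr (hζ : ζ ^ N = 1) (haa : ∀ ι ∈ 𝔓.I, a ι = a' ι) :
    mltoVal 𝔓 N ζ a = mltoVal 𝔓 N ζ a' := by
  classical
  by_cases hex : ∃ y, ∃ m : ℤ, MltoGen 𝔓 N ζ a y ∧ 𝔓.v.Is (y ^ N) m
  · obtain ⟨y, m, hy, hm⟩ := hex
    rw [hy.val_eq hζ hm, (hy.congr haa).val_eq hζ hm]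
  · have hex' : ¬ ∃ y, ∃ m : ℤ, MltoGen 𝔓 N ζ a' y ∧ 𝔓.v.Is (y ^ N) m := by
      rintro ⟨y, m, hy, hm⟩
      exact hex ⟨y, m, hy.congr (fun ι hι => (haa ι hι).symm), hm⟩
    unfold mltoVal
    rw [dif_neg hex, dif_neg hex']

/-- roots of unity are units -/
lemma mlto_is_of_pow_eq_one {x : Qb} (hx : x ^ N = 1) : 𝔓.v.Is x 0 := by
  have hx0 : x ≠ 0 := by
    rintro rfl
    rw [zero_pow (NeZero.ne N)] at hx
    exact zero_ne_one hx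
  refine ⟨hx0, ?_⟩
  have h1 := 𝔓.v.ord_pow hx0 N
  rw [hx, 𝔓.v.ord_one] at h1
  have hN : (N : ℚ) ≠ 0 := by exact_mod_cast NeZero.ne N
  rcases mul_eq_zero.1 h1.symm with h | h
  · exact absurd h hN
  · exact h

/-- the valuation class of a coboundary vanishes -/
lemma mltoVal_cob (hζ : ζ ^ N = 1) (ω : GQ → ZMod N)
    (hω : ∀ σ ∈ 𝔓.I, σ ζ = lfZPow ζ (ω σ)) (j : ZMod N) :
    mltoVal 𝔓 N ζ (fun ι => (ω ι - 1) * j) = 0 := by
  have h := mltoGen_cob (𝔓 := 𝔓) hζ ω hω j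
  have h1 : 𝔓.v.Is (lfZPow ζ j ^ N) ((0 : ℤ) : ℚ) := by
    rw [lfZPow_pow hζ]
    push_cast
    exact 𝔓.v.is_one
  rw [h.val_eq hζ h1, Int.cast_zero]

/-- **Frobenius invariance** of the valuation class -/
theorem MltoGen.val_frob (hζ : ζ ^ N = 1) {φ : GQ} (hφD : φ ∈ 𝔓.D) {w : ZMod N}
    (hφζ : φ ζ = lfZPow ζ w) (h : MltoGen 𝔓 N ζ a y) :
    mltoVal 𝔓 N ζ (fun ι => w * a (φ⁻¹ * ι * φ)) = mltoVal 𝔓 N ζ a := by
  obtain ⟨m, hm⟩ := h.exists_is hζ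
  have h1 : 𝔓.v.Is (φ y ^ N) m := by
    rw [← map_pow]
    exact 𝔓.is_D hφD hm
  rw [(h.frob hζ hφD hφζ).val_eq hζ h1, h.val_eq hζ hm]

/-- a generator which is a unit has valuation class `0` -/
lemma MltoGen.val_eq_zero_of_unit (hζ : ζ ^ N = 1) (h : MltoGen 𝔓 N ζ a y) (hy : 𝔓.v.Is y 0) :
    mltoVal 𝔓 N ζ a = 0 := by
  have h1 : 𝔓.v.Is (y ^ N) ((0 : ℤ) : ℚ) := by
    have := hy.pow N
    rw [mul_zero] at this
    push_cast
    exact this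
  rw [h.val_eq hζ h1, Int.cast_zero]

/-- **if the valuation class vanishes, there is a generator which is a unit** -/
theorem MltoGen.exists_unit (hζ : ζ ^ N = 1) (h : MltoGen 𝔓 N ζ a y)
    (h0 : mltoVal 𝔓 N ζ a = 0) : ∃ y', MltoGen 𝔓 N ζ a y' ∧ 𝔓.v.Is y' 0 := by
  obtain ⟨m, hm⟩ := h.exists_is hζ
  rw [h.val_eq hζ hm, ZMod.intCast_zmod_eq_zero_iff_dvd] at h0
  obtain ⟨k, hk⟩ := h0
  have hN : (N : ℚ) ≠ 0 := by exact_mod_cast NeZero.ne N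
  have hy : 𝔓.v.Is y k := by
    refine ⟨h.1, ?_⟩
    have h1 := 𝔓.v.ord_pow h.1 N
    rw [hm.2, hk] at h1
    push_cast at h1
    exact (mul_left_cancel₀ hN h1).symm
  have hpk : 𝔓.v.Is ((𝔓.p : Qb) ^ (-k)) (((-k : ℤ) : ℚ) * 1) := 𝔓.lf_is_zpow 𝔓.is_p (-k)
  have hpK0 : (𝔓.p : Qb) ^ (-k) ∈ 𝔓.K0 := by
    rw [FFPlace.mem_K0_iff]
    intro ι _
    rw [map_zpow₀, map_natCast]
  refine ⟨y * (𝔓.p : Qb) ^ (-k), h.mul_K0 hpK0 hpk.1, ?_⟩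
  have := hy.mul hpk
  push_cast at this
  rw [mul_one, add_neg_cancel] at this
  exact this

end

end Fermat.Agent.MLT
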