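/-
Project MLT, stream TWO (helper7), the step at `p`: **the eigenvalue of Frobenius on the unramified
quotient does not depend on the choice of the ordinary line** (`p ≥ 3`).

* `mlto_ordLine_eigen` : `ρ ≅ ofMat r₀` with `r₀` in ordinary form, `σ₀` in the inertia group with
  `r₀ σ₀ 0 0 - 1` a unit; for any cyclic submodule `L` of `ρ.V` such that the inertia group acts
  trivially on `ρ.V / L`, if `φ` acts on `ρ.V / L` by the scalar `α` then `α = r₀ φ 1 1`;
* `mlto_exists_inertia_unit` : existence of `σ₀` (cyclotomic determinant, `p ≥ 3`).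
-/
import Fermat.Agent.Lib.MLT.TWO.KnForm

set_option autoImplicit false
set_option linter.style.haveILetI false
set_option linter.unusedSectionVars false
set_option linter.unusedVariables false

open Fermat.Agent.S53Lib IsLocalRing GaloisRep
open Fermat.Agent.TW Fermat.Agent.S05Lib

namespace Fermat.Agent.MLT

local notation "Qb" => AlgebraicClosure ℚ

noncomputable section

variable {A : Type} [CommRing A] [IsLocalRing A]

/-- the eigenvalue of `φ` on the unramified quotient, computed in an ordinary form -/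
theorem mlto_ordLine_eigen (𝔓 : FFPlace) (ρ : GaloisRepAdic A)
    (r₀ : GQ →* Matrix (Fin 2) (Fin 2) A) (hr₀ : MatCts A r₀) (e : ρ.IsEquiv (ofMat r₀ hr₀))
    (hform : MltoOrdForm 𝔓 (fun σ => r₀ σ)) {σ₀ : GQ} (hσ₀ : σ₀ ∈ 𝔓.I)
    (hu : IsUnit (r₀ σ₀ 0 0 - 1)) (L : Submodule A ρ.V) (hL : ∃ w, L = A ∙ w)
    (hLI : ∀ σ ∈ 𝔓.I, ∀ v, ρ.ρ σ v - v ∈ L) {φ : GQ} {α : A}
    (hα : ∀ v, ρ.ρ φ v - α • v ∈ L) : α = r₀ φ 1 1 := by
  obtain ⟨E⟩ := e
  obtain ⟨w, rfl⟩ := hL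
  set F : ρ.V ≃ₗ[A] (Fin 2 → A) := E.toLinearEquiv with hF
  have hFρ : ∀ σ v, F (ρ.ρ σ v) = (r₀ σ).mulVec (F v) := fun σ v => E.map_apply σ v
  set β : Fin 2 → A := F w with hβ
  -- step 1
  obtain ⟨a, ha⟩ := Submodule.mem_span_singleton.1 (hLI σ₀ hσ₀ (F.symm (Pi.single 0 1)))
  have ha' : a • β = (r₀ σ₀).mulVec (Pi.single 0 1) - Pi.single 0 1 := by
    have := congrArg F ha
    rw [map_smul, map_sub, hFρ, LinearEquiv.apply_symm_apply] at this
    exact this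
  have h10 : r₀ σ₀ 1 0 = 0 := hform.tri σ₀ (𝔓.I_le_D hσ₀)
  have hA0 : a * β 0 = r₀ σ₀ 0 0 - 1 := by
    have := congrFun ha' 0
    simpa [Matrix.mulVec, dotProduct, Fin.sum_univ_two] using this
  have hA1 : a * β 1 = 0 := by
    have := congrFun ha' 1
    simpa [Matrix.mulVec, dotProduct, Fin.sum_univ_two, h10] using this
  have hau : IsUnit a := by
    rw [← hA0] at hu
    exact isUnit_of_mul_isUnit_left hu
  have hβ1 : β 1 = 0 := by
    have := hau.mul_left_cancel (a := a) (b := β 1) (c := 0) (by rw [hA1, mul_zero])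
    exact this
  -- step 2
  obtain ⟨c, hc⟩ := Submodule.mem_span_singleton.1 (hα (F.symm (Pi.single 1 1)))
  have hc' : c • β = (r₀ φ).mulVec (Pi.single 1 1) - α • Pi.single 1 1 := by
    have := congrArg F hc
    rw [map_smul, map_sub, hFρ, map_smul, LinearEquiv.apply_symm_apply] at this
    exact this
  have h1 := congrFun hc' 1
  have h2 : c * β 1 = r₀ φ 1 1 - α := by
    simpa [Matrix.mulVec, dotProduct, Fin.sum_univ_two] using h1
  rw [hβ1, mul_zero] at h2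
  exact (sub_eq_zero.1 h2.symm).symm

/-- an inertia element `σ₀` with `r σ₀ 0 0 - 1` a unit (`p ≥ 3`) -/
theorem mlto_exists_inertia_unit (𝔓 : FFPlace) (h3 : 3 ≤ 𝔓.p)
    (r : GQ →* Matrix (Fin 2) (Fin 2) A) (hr : MatCts A r)
    (hdet : (ofMat r hr).DetIsCyclotomic 𝔓.p) (hform : MltoOrdForm 𝔓 (fun σ => r σ)) :
    ∃ σ₀ ∈ 𝔓.I, IsUnit (r σ₀ 0 0 - 1) := by
  haveI : Fact 𝔓.p.Prime := ⟨𝔓.hp⟩
  obtain ⟨σ₀, hσ₀, hχ⟩ := tw_exists_inertia_cycloChar_ne_one 𝔓.p h3 𝔓.P 𝔓.hP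
  refine ⟨σ₀, hσ₀, ?_⟩
  have h := mlto_isUnit_det_sub_one 𝔓.p r hr hdet hχ
  have h1 : (r σ₀).det = r σ₀ 0 0 := by
    have := hform.det_eq (𝔓.I_le_D hσ₀)
    rw [hform.uni σ₀ hσ₀, mul_one] at this
    exact this
  rwa [h1] at h

end

end Fermat.Agent.MLT
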