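/-
Project MLT, stream TWO (helper7), **the step at `p`: the growth bound from the flat to the
ordinary deformation problem, generic form** (Galois side, blocker (5a)).

`mlto_growthP_generic` : `𝒟'` implies "cyclotomic determinant and ordinary at `p`" and is stable under
surjective base change; `𝒟` is stable under surjective base change and is implied, over finite rings,
by `𝒟'` together with `MltoPeu` (hypothesis (G2)).  `π : D'.R → D.R` the canonical map, `x : D.R → 𝒪`,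
`ρ_x = D.ρ ⊗_x 𝒪`, `L ⊆ ρ_x.V` a cyclic submodule such that the inertia group at `𝔓` acts trivially on
`ρ_x.V / L`, `φ ∈ D_𝔓` acting on `ρ_x.V / L` by the scalar `α`.  Then `π` is surjective and
`length Φ_{D'.R} ≤ length Φ_{D.R} + length 𝒪/(α² - 1)`.
-/
import Fermat.Agent.Lib.MLT.TWO.KnGrowth
import Fermat.Agent.Lib.MLT.TWO.KnLine
import Fermat.Agent.Lib.MLT.TWO.OrdTW

set_option autoImplicit false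
set_option linter.style.haveILetI false
set_option linter.unusedSectionVars false
set_option linter.unusedVariables false

open Fermat.Agent.S53Lib IsLocalRing GaloisRep
open Fermat.Agent.TW Fermat.Agent.S05Lib

namespace Fermat.Agent.MLT

local notation "Qb" => AlgebraicClosure ℚ

noncomputable section

variable {𝒪 : Type} [CommRing 𝒪] [IsDomain 𝒪] [IsDiscreteValuationRing 𝒪]
  [IsAdicComplete (maximalIdeal 𝒪) 𝒪] [Finite (ResidueField 𝒪)]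
  {ρbar : ResidualGaloisRep (ResidueField 𝒪)}
  {𝒟 𝒟' : ∀ ⦃A : Type⦄ [CommRing A] [IsLocalRing A] [Algebra 𝒪 A], GaloisRepAdic A → Prop}

/-- **The growth bound at `p`, generic form**, the ordinary line being given on any representation
`ρ₀ ≅ D.ρ ⊗_x 𝒪`. -/
theorem mlto_growthP_generic' (𝔓 : FFPlace) (h3 : 3 ≤ 𝔓.p) (hp𝒪 : (𝔓.p : 𝒪) ∈ maximalIdeal 𝒪)
    (hbc : ∀ ⦃A B : Type⦄ [CommRing A] [IsLocalRing A] [Algebra 𝒪 A] [CommRing B] [IsLocalRing B]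
      [Algebra 𝒪 B] (ψ : A →ₐ[𝒪] B) (hψ : IsLocalHom (ψ : A →+* B)), Function.Surjective ψ →
      ∀ ρ : GaloisRepAdic A, 𝒟 ρ → 𝒟 (ρ.baseChangeAlong (ψ : A →+* B) hψ))
    (hbc' : ∀ ⦃A B : Type⦄ [CommRing A] [IsLocalRing A] [Algebra 𝒪 A] [CommRing B] [IsLocalRing B]
      [Algebra 𝒪 B] (ψ : A →ₐ[𝒪] B) (hψ : IsLocalHom (ψ : A →+* B)), Function.Surjective ψ →
      ∀ ρ : GaloisRepAdic A, 𝒟' ρ → 𝒟' (ρ.baseChangeAlong (ψ : A →+* B) hψ))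
    (hord : ∀ ⦃A : Type⦄ [CommRing A] [IsLocalRing A] [Algebra 𝒪 A] (ρ : GaloisRepAdic A),
      𝒟' ρ → ρ.DetIsCyclotomic 𝔓.p ∧ ρ.IsOrdinaryAt 𝔓.p)
    (hG2 : ∀ ⦃A : Type⦄ [CommRing A] [IsLocalRing A] [Algebra 𝒪 A] (ρ : GaloisRepAdic A),
      Finite A → 𝒟' ρ → MltoPeu 𝔓 ρ → 𝒟 ρ)
    (D : DeformationRingData 𝒪 ρbar 𝒟) (D' : DeformationRingData 𝒪 ρbar 𝒟')
    (π : D'.R →ₐ[𝒪] D.R) (hπ : IsLocalHom (π : D'.R →+* D.R))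
    (hπρ : (D'.ρ.baseChangeAlong (π : D'.R →+* D.R) hπ).IsEquiv D.ρ)
    (x : D.R →ₐ[𝒪] 𝒪) (hx : IsLocalHom (x : D.R →+* 𝒪))
    (φ : GQ) (hφ : φ ∈ 𝔓.D)
    (ρ₀ : GaloisRepAdic 𝒪) (hρ₀ : ρ₀.IsEquiv (D.ρ.baseChangeAlong (x : D.R →+* 𝒪) hx))
    (L : Submodule 𝒪 ρ₀.V) (hL : ∃ w, L = 𝒪 ∙ w)
    (hLI : ∀ σ ∈ 𝔓.I, ∀ v, ρ₀.ρ σ v - v ∈ L)
    (α : 𝒪) (hα : ∀ v, ρ₀.ρ φ v - α • v ∈ L) :
    Function.Surjective π ∧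
    Module.length 𝒪 (RingHom.ker ((x.comp π : D'.R →ₐ[𝒪] 𝒪) : D'.R →+* 𝒪)).Cotangent ≤
      Module.length 𝒪 (RingHom.ker (x : D.R →+* 𝒪)).Cotangent +
        Module.length 𝒪 (𝒪 ⧸ Ideal.span {α ^ 2 - 1}) := by
  obtain ⟨hdet', hord'⟩ := hord D'.ρ D'.isOfType
  obtain ⟨r', hr', he, hform⟩ := mlto_ordForm_of_isOrdinaryAt 𝔓 D'.ρ hdet' hord'
  have hx' : IsLocalHom ((x : D.R →+* 𝒪).comp (π : D'.R →+* D.R)) := by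
    haveI := hx
    haveI := hπ
    exact RingHom.isLocalHom_comp _ _
  have key : α = (x.comp π) (r' φ 1 1) := by
    have e1 : (D.ρ.baseChangeAlong (x : D.R →+* 𝒪) hx).IsEquiv
        (ofMat (mapMat ((x : D.R →+* 𝒪).comp (π : D'.R →+* D.R)) r') (hr'.map _ hx')) := by
      refine mlto_isEquiv_trans (mlto_isEquiv_bc (mlto_isEquiv_symm hπρ) _ hx) ?_
      refine mlto_isEquiv_trans (mlto_bc_comp _ hπ _ hx hx' D'.ρ) ?_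
      exact mlto_bc_isEquiv_ofMat _ hx' D'.ρ r' hr' he
    have hdet₀ : (ofMat (mapMat ((x : D.R →+* 𝒪).comp (π : D'.R →+* D.R)) r')
        (hr'.map _ hx')).DetIsCyclotomic 𝔓.p :=
      detIsCyclotomic_of_isEquiv (mlto_bc_isEquiv_ofMat _ hx' D'.ρ r' hr' he)
        (detIsCyclotomic_baseChangeAlong _ hx' D'.ρ hdet')
    have hform₀ : MltoOrdForm 𝔓
        (fun σ => mapMat ((x : D.R →+* 𝒪).comp (π : D'.R →+* D.R)) r' σ) :=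
      hform.map ((x : D.R →+* 𝒪).comp (π : D'.R →+* D.R))
    obtain ⟨σ₀, hσ₀, hu⟩ := mlto_exists_inertia_unit 𝔓 h3 _ _ hdet₀ hform₀
    have := mlto_ordLine_eigen 𝔓 _ _ _ (mlto_isEquiv_trans hρ₀ e1) hform₀ hσ₀ hu L hL hLI hα
    rw [this]
    rfl
  rw [key]
  exact mlto_growthP_matrix 𝔓 hp𝒪 hbc' hG2 D D' π hπ hπρ x r' hr' he hform φ hφ hbc

/-- **The growth bound at `p`, generic form.** -/
theorem mlto_growthP_generic (𝔓 : FFPlace) (h3 : 3 ≤ 𝔓.p) (hp𝒪 : (𝔓.p : 𝒪) ∈ maximalIdeal 𝒪)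
    (hbc : ∀ ⦃A B : Type⦄ [CommRing A] [IsLocalRing A] [Algebra 𝒪 A] [CommRing B] [IsLocalRing B]
      [Algebra 𝒪 B] (ψ : A →ₐ[𝒪] B) (hψ : IsLocalHom (ψ : A →+* B)), Function.Surjective ψ →
      ∀ ρ : GaloisRepAdic A, 𝒟 ρ → 𝒟 (ρ.baseChangeAlong (ψ : A →+* B) hψ))
    (hbc' : ∀ ⦃A B : Type⦄ [CommRing A] [IsLocalRing A] [Algebra 𝒪 A] [CommRing B] [IsLocalRing B]
      [Algebra 𝒪 B] (ψ : A →ₐ[𝒪] B) (hψ : IsLocalHom (ψ : A →+* B)), Function.Surjective ψ →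
      ∀ ρ : GaloisRepAdic A, 𝒟' ρ → 𝒟' (ρ.baseChangeAlong (ψ : A →+* B) hψ))
    (hord : ∀ ⦃A : Type⦄ [CommRing A] [IsLocalRing A] [Algebra 𝒪 A] (ρ : GaloisRepAdic A),
      𝒟' ρ → ρ.DetIsCyclotomic 𝔓.p ∧ ρ.IsOrdinaryAt 𝔓.p)
    (hG2 : ∀ ⦃A : Type⦄ [CommRing A] [IsLocalRing A] [Algebra 𝒪 A] (ρ : GaloisRepAdic A),
      Finite A → 𝒟' ρ → MltoPeu 𝔓 ρ → 𝒟 ρ)
    (D : DeformationRingData 𝒪 ρbar 𝒟) (D' : DeformationRingData 𝒪 ρbar 𝒟')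
    (π : D'.R →ₐ[𝒪] D.R) (hπ : IsLocalHom (π : D'.R →+* D.R))
    (hπρ : (D'.ρ.baseChangeAlong (π : D'.R →+* D.R) hπ).IsEquiv D.ρ)
    (x : D.R →ₐ[𝒪] 𝒪) (hx : IsLocalHom (x : D.R →+* 𝒪))
    (φ : GQ) (hφ : φ ∈ 𝔓.D)
    (L : Submodule 𝒪 (D.ρ.baseChangeAlong (x : D.R →+* 𝒪) hx).V) (hL : ∃ w, L = 𝒪 ∙ w)
    (hLI : ∀ σ ∈ 𝔓.I, ∀ v, (D.ρ.baseChangeAlong (x : D.R →+* 𝒪) hx).ρ σ v - v ∈ L)
    (α : 𝒪) (hα : ∀ v, (D.ρ.baseChangeAlong (x : D.R →+* 𝒪) hx).ρ φ v - α • v ∈ L) :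
    Function.Surjective π ∧
    Module.length 𝒪 (RingHom.ker ((x.comp π : D'.R →ₐ[𝒪] 𝒪) : D'.R →+* 𝒪)).Cotangent ≤
      Module.length 𝒪 (RingHom.ker (x : D.R →+* 𝒪)).Cotangent +
        Module.length 𝒪 (𝒪 ⧸ Ideal.span {α ^ 2 - 1}) :=
  mlto_growthP_generic' 𝔓 h3 hp𝒪 hbc hbc' hord hG2 D D' π hπ hπρ x hx φ hφ _
    ⟨GaloisRepAdic.Equiv.refl _⟩ L hL hLI α hα

/-- **(G2), concrete form** (helper8): over a finite local ring, "cyclotomic determinant, ordinary at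
`p` and peu ramifié" implies "flat at `p`" -/
def MltoG2 (𝔓 : FFPlace) : Prop :=
  3 ≤ 𝔓.p → ∀ ⦃A : Type⦄ [CommRing A] [IsLocalRing A] (ρ : GaloisRepAdic A), Finite A →
    ρ.DetIsCyclotomic 𝔓.p → ρ.IsOrdinaryAt 𝔓.p → MltoPeu 𝔓 ρ → ρ.IsFlatAt 𝔓.p

/-- **The growth bound at `p` for the concrete problems**, the ordinary line being given on any
`ρ₀ ≅ D.ρ ⊗_x 𝒪`; see `mlto_growthP_flatOrd`.   `D^flat_T` and `D^ord_T` (the shape of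
`MltTWOGrowthStatement`, `mltCond 𝒪 p true/false Smin Sig` of `Min/Defs.lean` with `T = Smin ∪ Sig`). -/
theorem mlto_growthP_flatOrd' (𝔓 : FFPlace) (h3 : 3 ≤ 𝔓.p) (hp𝒪 : (𝔓.p : 𝒪) ∈ maximalIdeal 𝒪)
    (hG2 : MltoG2 𝔓) (Smin T : Finset ℕ)
    (D : DeformationRingData 𝒪 ρbar (fun _A _ _ _ ρ =>
      GaloisRep.flatCondition 𝒪 𝔓.p T ρ ∧
        ∀ ℓ ∈ Smin, ℓ.Prime → ℓ ≠ 𝔓.p → ρ.IsUnipotentOnInertiaAt ℓ))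
    (D' : DeformationRingData 𝒪 ρbar (fun _A _ _ _ ρ =>
      GaloisRep.ordinaryCondition 𝒪 𝔓.p T ρ ∧
        ∀ ℓ ∈ Smin, ℓ.Prime → ℓ ≠ 𝔓.p → ρ.IsUnipotentOnInertiaAt ℓ))
    (π : D'.R →ₐ[𝒪] D.R) (hπ : IsLocalHom (π : D'.R →+* D.R))
    (hπρ : (D'.ρ.baseChangeAlong (π : D'.R →+* D.R) hπ).IsEquiv D.ρ)
    (x : D.R →ₐ[𝒪] 𝒪) (hx : IsLocalHom (x : D.R →+* 𝒪))
    (φ : GQ) (hφ : φ ∈ 𝔓.D)
    (ρ₀ : GaloisRepAdic 𝒪) (hρ₀ : ρ₀.IsEquiv (D.ρ.baseChangeAlong (x : D.R →+* 𝒪) hx))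
    (L : Submodule 𝒪 ρ₀.V) (hL : ∃ w, L = 𝒪 ∙ w)
    (hLI : ∀ σ ∈ 𝔓.I, ∀ v, ρ₀.ρ σ v - v ∈ L)
    (α : 𝒪) (hα : ∀ v, ρ₀.ρ φ v - α • v ∈ L) :
    Function.Surjective π ∧
    Module.length 𝒪 (RingHom.ker ((x.comp π : D'.R →ₐ[𝒪] 𝒪) : D'.R →+* 𝒪)).Cotangent ≤
      Module.length 𝒪 (RingHom.ker (x : D.R →+* 𝒪)).Cotangent +
        Module.length 𝒪 (𝒪 ⧸ Ideal.span {α ^ 2 - 1}) := by
  refine mlto_growthP_generic' 𝔓 h3 hp𝒪 ?_ ?_ ?_ ?_ D D' π hπ hπρ x hx φ hφ ρ₀ hρ₀ L hL hLI α hα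
  · intro A B _ _ _ _ _ _ ψ hψ hsurj ρ h
    exact ⟨⟨detIsCyclotomic_baseChangeAlong _ hψ ρ h.1.1,
      isFlatAt_baseChangeAlong_of_surjective _ hψ hsurj ρ h.1.2.1,
      fun ℓ hℓ hℓS => isUnramifiedAt_baseChangeAlong _ hψ ρ (h.1.2.2 ℓ hℓ hℓS)⟩,
      fun ℓ hℓ hℓp hne => isUnipotentOnInertiaAt_baseChangeAlong _ hψ ρ (h.2 ℓ hℓ hℓp hne)⟩
  · intro A B _ _ _ _ _ _ ψ hψ hsurj ρ h
    exact ⟨⟨detIsCyclotomic_baseChangeAlong _ hψ ρ h.1.1,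
      mlto_isOrdinaryAt_baseChangeAlong _ hψ ρ h.1.2.1,
      fun ℓ hℓ hℓS => isUnramifiedAt_baseChangeAlong _ hψ ρ (h.1.2.2 ℓ hℓ hℓS)⟩,
      fun ℓ hℓ hℓp hne => isUnipotentOnInertiaAt_baseChangeAlong _ hψ ρ (h.2 ℓ hℓ hℓp hne)⟩
  · intro A _ _ _ ρ h
    exact ⟨h.1.1, h.1.2.1⟩
  · intro A _ _ _ ρ hfin h hpeu
    exact ⟨⟨h.1.1, hG2 h3 ρ hfin h.1.1 h.1.2.1 hpeu, h.1.2.2⟩, h.2⟩

/-- **The growth bound at `p` for the concrete problems** `D^flat_T` and `D^ord_T` (the shape of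
`MltTWOGrowthStatement`, `mltCond 𝒪 p true/false Smin Sig` of `Min/Defs.lean` with `T = Smin ∪ Sig`). -/
theorem mlto_growthP_flatOrd (𝔓 : FFPlace) (h3 : 3 ≤ 𝔓.p) (hp𝒪 : (𝔓.p : 𝒪) ∈ maximalIdeal 𝒪)
    (hG2 : MltoG2 𝔓) (Smin T : Finset ℕ)
    (D : DeformationRingData 𝒪 ρbar (fun _A _ _ _ ρ =>
      GaloisRep.flatCondition 𝒪 𝔓.p T ρ ∧
        ∀ ℓ ∈ Smin, ℓ.Prime → ℓ ≠ 𝔓.p → ρ.IsUnipotentOnInertiaAt ℓ))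
    (D' : DeformationRingData 𝒪 ρbar (fun _A _ _ _ ρ =>
      GaloisRep.ordinaryCondition 𝒪 𝔓.p T ρ ∧
        ∀ ℓ ∈ Smin, ℓ.Prime → ℓ ≠ 𝔓.p → ρ.IsUnipotentOnInertiaAt ℓ))
    (π : D'.R →ₐ[𝒪] D.R) (hπ : IsLocalHom (π : D'.R →+* D.R))
    (hπρ : (D'.ρ.baseChangeAlong (π : D'.R →+* D.R) hπ).IsEquiv D.ρ)
    (x : D.R →ₐ[𝒪] 𝒪) (hx : IsLocalHom (x : D.R →+* 𝒪))
    (φ : GQ) (hφ : φ ∈ 𝔓.D)
    (L : Submodule 𝒪 (D.ρ.baseChangeAlong (x : D.R →+* 𝒪) hx).V) (hL : ∃ w, L = 𝒪 ∙ w)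
    (hLI : ∀ σ ∈ 𝔓.I, ∀ v, (D.ρ.baseChangeAlong (x : D.R →+* 𝒪) hx).ρ σ v - v ∈ L)
    (α : 𝒪) (hα : ∀ v, (D.ρ.baseChangeAlong (x : D.R →+* 𝒪) hx).ρ φ v - α • v ∈ L) :
    Function.Surjective π ∧
    Module.length 𝒪 (RingHom.ker ((x.comp π : D'.R →ₐ[𝒪] 𝒪) : D'.R →+* 𝒪)).Cotangent ≤
      Module.length 𝒪 (RingHom.ker (x : D.R →+* 𝒪)).Cotangent +
        Module.length 𝒪 (𝒪 ⧸ Ideal.span {α ^ 2 - 1}) := by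
  refine mlto_growthP_generic 𝔓 h3 hp𝒪 ?_ ?_ ?_ ?_ D D' π hπ hπρ x hx φ hφ L hL hLI α hα
  · intro A B _ _ _ _ _ _ ψ hψ hsurj ρ h
    exact ⟨⟨detIsCyclotomic_baseChangeAlong _ hψ ρ h.1.1,
      isFlatAt_baseChangeAlong_of_surjective _ hψ hsurj ρ h.1.2.1,
      fun ℓ hℓ hℓS => isUnramifiedAt_baseChangeAlong _ hψ ρ (h.1.2.2 ℓ hℓ hℓS)⟩,
      fun ℓ hℓ hℓp hne => isUnipotentOnInertiaAt_baseChangeAlong _ hψ ρ (h.2 ℓ hℓ hℓp hne)⟩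
  · intro A B _ _ _ _ _ _ ψ hψ hsurj ρ h
    exact ⟨⟨detIsCyclotomic_baseChangeAlong _ hψ ρ h.1.1,
      mlto_isOrdinaryAt_baseChangeAlong _ hψ ρ h.1.2.1,
      fun ℓ hℓ hℓS => isUnramifiedAt_baseChangeAlong _ hψ ρ (h.1.2.2 ℓ hℓ hℓS)⟩,
      fun ℓ hℓ hℓp hne => isUnipotentOnInertiaAt_baseChangeAlong _ hψ ρ (h.2 ℓ hℓ hℓp hne)⟩
  · intro A _ _ _ ρ h
    exact ⟨h.1.1, h.1.2.1⟩
  · intro A _ _ _ ρ hfin h hpeu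
    exact ⟨⟨h.1.1, hG2 h3 ρ hfin h.1.1 h.1.2.1 hpeu, h.1.2.2⟩, h.2⟩

end

end Fermat.Agent.MLT
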