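import Fermat.Agent.Lib.MLT.TWO.Cot

set_option autoImplicit false
set_option linter.style.haveILetI false
set_option linter.unusedSectionVars false
set_option linter.unusedVariables false

open IsLocalRing

namespace Fermat.Agent.MLT

section

variable {𝒪 : Type*} [CommRing 𝒪] [IsLocalRing 𝒪]
variable {R' : Type*} [CommRing R'] [Algebra 𝒪 R'] [IsLocalRing R']
variable (x' : R' →ₐ[𝒪] 𝒪)

/-- `ι (a) * y ∈ 𝔞_n` for `a ∈ 𝔪_𝒪^n`, `y ∈ 𝔭'` -/
lemma mlto_algebraMap_mul_mem_mltoA {n : ℕ} {a : 𝒪} (ha : a ∈ maximalIdeal 𝒪 ^ n) {y : R'}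
    (hy : y ∈ RingHom.ker (x' : R' →+* 𝒪)) : algebraMap 𝒪 R' a * y ∈ mltoA x' n :=
  Ideal.mem_sup_right (Ideal.mul_mem_mul (Ideal.mem_map_of_mem _ ha) hy)

/-- the algebraic part of the step at `p` -/
theorem mlto_stepP_alg (n : ℕ) (K : Ideal R') (hK : K ≤ RingHom.ker (x' : R' →+* 𝒪)) (vt z : R')
    (hvt : x' vt ∈ maximalIdeal 𝒪 ^ n) (hrel : (z ^ 2 - 1) * vt ∈ maximalIdeal R' ^ (n + 1))
    (hker : K ≤ maximalIdeal R' ^ (n + 1) ⊔ Ideal.span {vt}) :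
    ∃ v : Fin 3 → R',
      (∀ j, v j ∈ RingHom.ker (x' : R' →+* 𝒪)) ∧
      (∀ s ∈ K, s ∈ mltoA x' n ⊔ Ideal.span (Set.range v)) ∧
      (∀ i, ∑ j, algebraMap 𝒪 R' (Matrix.diagonal ![x' z ^ 2 - 1, 1, 1] i j) * v j ∈
        mltoA x' n) := by
  set v₀ := mltoD x' vt with hv₀
  have hv₀mem : v₀ ∈ RingHom.ker (x' : R' →+* 𝒪) := mltoD_mem x' vt
  have hsq : ∀ a b : R', mltoD x' a * mltoD x' b ∈ mltoA x' n := fun a b =>
    sq_le_mltoA x' n (by rw [pow_two]; exact Ideal.mul_mem_mul (mltoD_mem x' a) (mltoD_mem x' b))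
  refine ⟨![v₀, 0, 0], ?_, ?_, ?_⟩
  · intro j
    fin_cases j
    · exact hv₀mem
    · exact Ideal.zero_mem _
    · exact Ideal.zero_mem _
  · intro s hs
    have hsk := hK hs
    obtain ⟨μ, hμ, w, hw, rfl⟩ := Submodule.mem_sup.1 (hker hs)
    obtain ⟨c, rfl⟩ := Ideal.mem_span_singleton'.1 hw
    rw [← mltoD_of_mem x' hsk, mltoD_add, mltoD_mul]
    have hspan : v₀ ∈ Ideal.span (Set.range ![v₀, (0 : R'), 0]) :=
      Ideal.subset_span ⟨0, rfl⟩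
    refine Ideal.add_mem _ (Ideal.mem_sup_left (mltoD_mem_mltoA x' n hμ)) ?_
    refine Ideal.add_mem _ (Ideal.add_mem _ (Ideal.mem_sup_left (hsq _ _)) ?_) ?_
    · exact Ideal.mem_sup_right (Ideal.mul_mem_left _ _ hspan)
    · exact Ideal.mem_sup_left (mlto_algebraMap_mul_mem_mltoA x' hvt (mltoD_mem x' c))
  · intro i
    have hmain : algebraMap 𝒪 R' (x' z ^ 2 - 1) * v₀ ∈ mltoA x' n := by
      have h1 := mltoD_mem_mltoA x' n hrel
      rw [mltoD_mul] at h1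
      have hx : x' (z ^ 2 - 1) = x' z ^ 2 - 1 := by rw [map_sub, map_pow, map_one]
      rw [hx] at h1
      have h2 : algebraMap 𝒪 R' (x' z ^ 2 - 1) * v₀ =
          (mltoD x' (z ^ 2 - 1) * mltoD x' vt + algebraMap 𝒪 R' (x' z ^ 2 - 1) * mltoD x' vt +
            algebraMap 𝒪 R' (x' vt) * mltoD x' (z ^ 2 - 1)) -
          mltoD x' (z ^ 2 - 1) * mltoD x' vt -
          algebraMap 𝒪 R' (x' vt) * mltoD x' (z ^ 2 - 1) := by
        rw [hv₀]
        ring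
      rw [h2]
      exact Ideal.sub_mem _ (Ideal.sub_mem _ h1 (hsq _ _))
        (mlto_algebraMap_mul_mem_mltoA x' hvt (mltoD_mem x' _))
    rw [Fin.sum_univ_three]
    fin_cases i
    · simpa using hmain
    · simp
    · simp

end

end Fermat.Agent.MLT
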