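/-
Project MLT, stream TWO (helper7), the step at `p`: **the contract (pΦ) of helper6's
`Contracts/StepP.lean`**:

* `mlto_G2 : MltoG2 𝔓` (helper8's `mltfo_isFlatAt_of_mltoPeu`);
* `mlto_phiPContract : MltcPhiPContract`.
-/
import Fermat.Agent.Lib.MLT.TWO.KnMain
import Fermat.Agent.Lib.MLT.FlatOrd.PeuWrap
import Fermat.Agent.Lib.MLT.Contracts.StepP

set_option autoImplicit false
set_option linter.style.haveILetI false
set_option linter.unusedSectionVars false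
set_option linter.unusedVariables false

open Fermat.Agent.S53Lib IsLocalRing GaloisRep
open Fermat.Agent.TW Fermat.Agent.S05Lib

namespace Fermat.Agent.MLT

local notation "Qb" => AlgebraicClosure ℚ

/-- **(G2)** (helper8) -/
theorem mlto_G2 (𝔓 : FFPlace) : MltoG2 𝔓 := fun _ _A _ _ ρ hfin hdet _ hpeu =>
  mltfo_isFlatAt_of_mltoPeu 𝔓
    (haveI := hfin; Finite.of_surjective (residue _A) IsLocalRing.residue_surjective) ρ hdet hpeu

/-- **(pΦ)** -/
theorem mlto_phiPContract : MltcPhiPContract := by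
  intro 𝒪 _ _ _ _ _ _ B lamp hB hB' hflat D D' πR hπR hπρ x hx' P hP L hL φ hφ z hz hz1
  obtain ⟨p, ρbar, flat, Smin, N0, S0, t, cut, lam⟩ := B
  change flat = true at hflat
  subst hflat
  have hp : p.Prime := hB.prime
  have hp2 : p ≠ 2 := hB.odd
  have h3 : 3 ≤ p := by
    have := hp.two_le
    omega
  have hp𝒪 : (p : 𝒪) ∈ maximalIdeal 𝒪 := hB.mem
  set 𝔓 : FFPlace := ⟨P, p, hp, hP⟩ with h𝔓
  have hx : IsLocalHom (x : D.R →+* 𝒪) :=
    isLocalHom_of_algHom D.instIsLocalHom D.residue_surjective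
      (by rw [Algebra.algebraMap_self]; infer_instance)
      (by rw [Algebra.algebraMap_self]; exact IsLocalRing.residue_surjective) x
  have hρ₀ : (D'.ρ.baseChangeAlong ((x.comp πR : D'.R →ₐ[𝒪] 𝒪) : D'.R →+* 𝒪) hx').IsEquiv
      (D.ρ.baseChangeAlong (x : D.R →+* 𝒪) hx) :=
    mlto_isEquiv_trans (mlto_isEquiv_symm (mlto_bc_comp _ hπR _ hx hx' D'.ρ))
      (mlto_isEquiv_bc hπρ _ hx)
  obtain ⟨⟨b, hb⟩, -, hLI⟩ := hL
  exact mlto_growthP_flatOrd' 𝔓 h3 hp𝒪 (mlto_G2 𝔓) Smin (Smin ∪ ∅) D D' πR hπR hπρ x hx φ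
    hφ.mem_decompositionSubgroup _ hρ₀ L ⟨b 0, hb⟩ hLI z hz

end Fermat.Agent.MLT
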