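/-
Project MLT, stream TWO (helper7), the step at `p`: **the valuation of the extension class of an
ordinary representation, at a finite level**.

`r : G_ℚ → M₂(A)` is in ORDINARY FORM at the place `𝔓` (`MltoOrdForm`): multiplicative, upper
triangular on the decomposition group, `r ι = (x c; 0 1)` on the inertia group, determinant
congruent to the cyclotomic character, locally constant modulo ideals of finite index.
For an ideal `I` of finite index with `p ^ m ∈ I`, a primitive `p ^ m`-th root of unity `ζ` and an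
additive map `l : A ⧸ I → ZMod (p ^ m)`, the function `ι ↦ l (c ι mod I)` is a cocycle of the inertia
group with values in `ZMod (p ^ m) (1)`; it has Kummer generators, and

* `mlto_exists_valEl` : there is a unique `g ∈ A ⧸ I` with `mltoVal (l ∘ c) = l g` for all `l`;
* `mlto_valEl_frob`   : `(z_φ ^ 2 - 1) g = 0` for `φ` in the decomposition group, `z_φ = r φ 1 1`;
* `mlto_valEl_eq_zero_iff` : `g = 0` iff all the cocycles `l ∘ c` have generators which are units.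
-/
import Fermat.Agent.Lib.MLT.TWO.KnGen
import Fermat.Agent.Lib.MLT.TWO.KnDual

set_option autoImplicit false
set_option linter.style.haveILetI false
set_option linter.unusedSectionVars false
set_option linter.unusedVariables false

namespace Fermat.Agent.MLT

open Fermat.Agent.TW Fermat.Agent.S05Lib

local notation "Qb" => AlgebraicClosure ℚ
local notation "GQ" => (AlgebraicClosure ℚ ≃ₐ[ℚ] AlgebraicClosure ℚ)

noncomputable section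

/-- `r` is in ordinary form at `𝔓` -/
structure MltoOrdForm (𝔓 : FFPlace) {A : Type*} [CommRing A]
    (r : GQ → Matrix (Fin 2) (Fin 2) A) : Prop where
  r_one : r 1 = 1
  r_mul : ∀ σ τ, r (σ * τ) = r σ * r τ
  tri : ∀ σ ∈ 𝔓.D, r σ 1 0 = 0
  uni : ∀ ι ∈ 𝔓.I, r ι 1 1 = 1
  det : ∀ σ ∈ 𝔓.D, ∀ (m a : ℕ), (∀ μ : Qb, μ ^ 𝔓.p ^ m = 1 → σ μ = μ ^ a) →
    (r σ).det - (a : A) ∈ Ideal.span {((𝔓.p ^ m : ℕ) : A)}
  lev : ∀ I : Ideal A, Finite (A ⧸ I) → ∃ F : IntermediateField ℚ Qb, FiniteDimensional ℚ F ∧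
    ∀ σ τ : GQ, (∀ x ∈ F, σ x = τ x) → ∀ i j, r σ i j - r τ i j ∈ I

section Form

variable {𝔓 : FFPlace} {A : Type*} [CommRing A] {r : GQ → Matrix (Fin 2) (Fin 2) A}

lemma MltoOrdForm.mul00 (h : MltoOrdForm 𝔓 r) (σ : GQ) {τ : GQ} (hτ : τ ∈ 𝔓.D) :
    r (σ * τ) 0 0 = r σ 0 0 * r τ 0 0 := by
  rw [h.r_mul, Matrix.mul_apply, Fin.sum_univ_two, h.tri τ hτ, mul_zero, add_zero]

lemma MltoOrdForm.mul11 (h : MltoOrdForm 𝔓 r) {σ : GQ} (τ : GQ) (hσ : σ ∈ 𝔓.D) :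
    r (σ * τ) 1 1 = r σ 1 1 * r τ 1 1 := by
  rw [h.r_mul, Matrix.mul_apply, Fin.sum_univ_two, h.tri σ hσ, zero_mul, zero_add]

lemma MltoOrdForm.mul01 (h : MltoOrdForm 𝔓 r) (σ τ : GQ) :
    r (σ * τ) 0 1 = r σ 0 0 * r τ 0 1 + r σ 0 1 * r τ 1 1 := by
  rw [h.r_mul, Matrix.mul_apply, Fin.sum_univ_two]

lemma MltoOrdForm.det_eq (h : MltoOrdForm 𝔓 r) {σ : GQ} (hσ : σ ∈ 𝔓.D) :
    (r σ).det = r σ 0 0 * r σ 1 1 := by
  rw [Matrix.det_fin_two, h.tri σ hσ, mul_zero, sub_zero]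

lemma MltoOrdForm.inv00 (h : MltoOrdForm 𝔓 r) {σ : GQ} (hσ : σ ∈ 𝔓.D) :
    r σ⁻¹ 0 0 * r σ 0 0 = 1 := by
  rw [← h.mul00 _ hσ, inv_mul_cancel, h.r_one]
  rfl

lemma MltoOrdForm.inv11 (h : MltoOrdForm 𝔓 r) {σ : GQ} (hσ : σ ∈ 𝔓.D) :
    r σ⁻¹ 1 1 * r σ 1 1 = 1 := by
  rw [← h.mul11 _ (𝔓.D.inv_mem hσ), inv_mul_cancel, h.r_one]
  rfl

/-- the conjugation formula for the upper right entry -/
lemma MltoOrdForm.conj01 (h : MltoOrdForm 𝔓 r) {φ ι : GQ} (hφ : φ ∈ 𝔓.D) (hι : ι ∈ 𝔓.I) :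
    r (φ⁻¹ * ι * φ) 0 1 =
      r φ⁻¹ 0 0 * r φ 1 1 * r ι 0 1 + r φ⁻¹ 0 0 * r φ 0 1 * (r ι 0 0 - 1) := by
  have hιD := 𝔓.I_le_D hι
  have h1 : r φ⁻¹ 0 0 * r φ 0 1 + r φ⁻¹ 0 1 * r φ 1 1 = 0 := by
    rw [← h.mul01, inv_mul_cancel, h.r_one]
    rfl
  rw [h.mul01, h.mul00 _ hιD, h.mul01, h.uni ι hι]
  linear_combination (1 : A) * h1

end Form

/-! ### The cocycles `l ∘ c` -/

section Coc

variable {𝔓 : FFPlace} {A : Type*} [CommRing A] (r : GQ → Matrix (Fin 2) (Fin 2) A)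
  (I : Ideal A) {m : ℕ}

instance mlto_neZero_pow (𝔓 : FFPlace) (m : ℕ) : NeZero (𝔓.p ^ m) :=
  ⟨pow_ne_zero _ 𝔓.hp.ne_zero⟩

/-- the function `σ ↦ l (c σ mod I)` -/
def mltoCoc (l : A ⧸ I →+ ZMod (𝔓.p ^ m)) : GQ → ZMod (𝔓.p ^ m) :=
  fun σ => l (Ideal.Quotient.mk I (r σ 0 1))

lemma mltoCoc_add (l l' : A ⧸ I →+ ZMod (𝔓.p ^ m)) :
    mltoCoc r I (l + l') = mltoCoc r I l + mltoCoc r I l' := rfl

/-- the exponent of the action of `σ` on `ζ` -/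
def mltoOm {N : ℕ} [NeZero N] {ζ : Qb} (hζ : IsPrimitiveRoot ζ N) (σ : GQ) : ZMod N :=
  (lf_exists_eq_lfZPow hζ (ξ := σ ζ) (by rw [← map_pow, hζ.pow_eq_one, map_one])).choose

lemma mltoOm_spec {N : ℕ} [NeZero N] {ζ : Qb} (hζ : IsPrimitiveRoot ζ N) (σ : GQ) :
    σ ζ = lfZPow ζ (mltoOm hζ σ) :=
  (lf_exists_eq_lfZPow hζ (ξ := σ ζ) (by rw [← map_pow, hζ.pow_eq_one, map_one])).choose_spec

lemma mltoOm_pow {N : ℕ} [NeZero N] {ζ : Qb} (hζ : IsPrimitiveRoot ζ N) (σ : GQ) {μ : Qb}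
    (hμ : μ ^ N = 1) : σ μ = μ ^ (mltoOm hζ σ).val := by
  obtain ⟨i, -, rfl⟩ := hζ.eq_pow_of_pow_eq_one hμ
  rw [map_pow, mltoOm_spec hζ σ, lfZPow, ← pow_mul, ← pow_mul, mul_comm]

variable {r I}

/-- multiplication by the diagonal entry of an inertia element is multiplication by `ω` -/
lemma MltoOrdForm.l_mul (h : MltoOrdForm 𝔓 r) (hm : (𝔓.p : A) ^ m ∈ I) {ζ : Qb}
    (hζ : IsPrimitiveRoot ζ (𝔓.p ^ m)) (l : A ⧸ I →+ ZMod (𝔓.p ^ m)) {ι : GQ} (hι : ι ∈ 𝔓.I)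
    (t : A) :
    l (Ideal.Quotient.mk I (r ι 0 0 * t)) = mltoOm hζ ι * l (Ideal.Quotient.mk I t) := by
  have hιD := 𝔓.I_le_D hι
  have h1 := h.det ι hιD m (mltoOm hζ ι).val (fun μ hμ => mltoOm_pow hζ ι hμ)
  rw [h.det_eq hιD, h.uni ι hι, mul_one] at h1
  have h2 : Ideal.span {((𝔓.p ^ m : ℕ) : A)} ≤ I := by
    rw [Ideal.span_singleton_le_iff_mem]
    push_cast
    exact hm
  have h3 : Ideal.Quotient.mk I (r ι 0 0) = (((mltoOm hζ ι).val : ℕ) : A ⧸ I) := by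
    rw [← map_natCast (Ideal.Quotient.mk I), Ideal.Quotient.eq]
    exact h2 h1
  rw [map_mul, h3, ← nsmul_eq_mul, map_nsmul, nsmul_eq_mul, ZMod.natCast_zmod_val]

/-- `l ∘ c` is a cocycle on the inertia group -/
lemma MltoOrdForm.coc (h : MltoOrdForm 𝔓 r) (hm : (𝔓.p : A) ^ m ∈ I) {ζ : Qb}
    (hζ : IsPrimitiveRoot ζ (𝔓.p ^ m)) (l : A ⧸ I →+ ZMod (𝔓.p ^ m)) :
    ∀ σ ∈ 𝔓.I, ∀ τ ∈ 𝔓.I,
      mltoCoc r I l (σ * τ) = mltoCoc r I l σ + mltoOm hζ σ * mltoCoc r I l τ := by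
  intro σ hσ τ hτ
  unfold mltoCoc
  rw [h.mul01, h.uni τ hτ, mul_one, map_add, map_add, h.l_mul hm hζ l hσ, add_comm]

/-- **Kummer generators exist** -/
theorem MltoOrdForm.gen_exists (h : MltoOrdForm 𝔓 r) (hI : Finite (A ⧸ I))
    (hm : (𝔓.p : A) ^ m ∈ I) {ζ : Qb} (hζ : IsPrimitiveRoot ζ (𝔓.p ^ m))
    (l : A ⧸ I →+ ZMod (𝔓.p ^ m)) : ∃ y, MltoGen 𝔓 (𝔓.p ^ m) ζ (mltoCoc r I l) y := by
  obtain ⟨F, hF, hlev⟩ := h.lev I hI
  refine mltoGen_exists 𝔓 (𝔓.p ^ m) hζ.pow_eq_one (mltoOm hζ) (fun σ _ => mltoOm_spec hζ σ)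
    (mltoCoc r I l) (h.coc hm hζ l) F hF (fun σ _ τ _ hx => ?_)
  unfold mltoCoc
  congr 1
  rw [Ideal.Quotient.eq]
  exact hlev σ τ hx 0 1

end Coc

/-! ### The valuation element -/

section Val

variable {𝔓 : FFPlace} {A : Type*} [CommRing A] {r : GQ → Matrix (Fin 2) (Fin 2) A}
  {I : Ideal A} {m : ℕ}

lemma mlto_nsmul_quot_eq_zero (hm : (𝔓.p : A) ^ m ∈ I) (x : A ⧸ I) : (𝔓.p ^ m) • x = 0 := by
  rw [nsmul_eq_mul]
  have : ((𝔓.p ^ m : ℕ) : A ⧸ I) = 0 := by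
    rw [← map_natCast (Ideal.Quotient.mk I), Ideal.Quotient.eq_zero_iff_mem]
    push_cast
    exact hm
  rw [this, zero_mul]

/-- **the valuation element**: `g ∈ A ⧸ I` with `mltoVal (l ∘ c) = l g` for all `l` -/
theorem MltoOrdForm.exists_valEl (h : MltoOrdForm 𝔓 r) (hI : Finite (A ⧸ I))
    (hm : (𝔓.p : A) ^ m ∈ I) {ζ : Qb} (hζ : IsPrimitiveRoot ζ (𝔓.p ^ m)) :
    ∃ g : A ⧸ I, ∀ l : A ⧸ I →+ ZMod (𝔓.p ^ m),
      mltoVal 𝔓 (𝔓.p ^ m) ζ (mltoCoc r I l) = l g := by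
  haveI := hI
  let Φ : (A ⧸ I →+ ZMod (𝔓.p ^ m)) →+ ZMod (𝔓.p ^ m) :=
    AddMonoidHom.mk' (fun l => mltoVal 𝔓 (𝔓.p ^ m) ζ (mltoCoc r I l)) (fun l l' => by
      obtain ⟨y, hy⟩ := h.gen_exists hI hm hζ l
      obtain ⟨y', hy'⟩ := h.gen_exists hI hm hζ l'
      rw [mltoCoc_add]
      exact hy.val_add hζ.pow_eq_one hy')
  obtain ⟨g, hg⟩ := mlto_dual_double (mlto_nsmul_quot_eq_zero hm) Φ
  exact ⟨g, fun l => hg l⟩

/-- uniqueness of the valuation element -/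
lemma mlto_valEl_unique (hI : Finite (A ⧸ I)) (hm : (𝔓.p : A) ^ m ∈ I) {g g' : A ⧸ I}
    (hgg : ∀ l : A ⧸ I →+ ZMod (𝔓.p ^ m), l g = l g') : g = g' := by
  haveI := hI
  by_contra hne
  obtain ⟨l, hl⟩ := mlto_dual_separates (mlto_nsmul_quot_eq_zero (𝔓 := 𝔓) hm)
    (sub_ne_zero.2 hne)
  apply hl
  rw [map_sub, hgg l, sub_self]

/-- **the Frobenius relation**: `(z_φ ^ 2 - 1) g = 0` -/
theorem MltoOrdForm.valEl_frob (h : MltoOrdForm 𝔓 r) (hI : Finite (A ⧸ I))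
    (hm : (𝔓.p : A) ^ m ∈ I) {ζ : Qb} (hζ : IsPrimitiveRoot ζ (𝔓.p ^ m)) {g : A ⧸ I}
    (hg : ∀ l : A ⧸ I →+ ZMod (𝔓.p ^ m), mltoVal 𝔓 (𝔓.p ^ m) ζ (mltoCoc r I l) = l g)
    {φ : GQ} (hφ : φ ∈ 𝔓.D) :
    (Ideal.Quotient.mk I (r φ 1 1) ^ 2 - 1) * g = 0 := by
  have hζN := hζ.pow_eq_one
  set w := mltoOm hζ φ with hw
  -- the determinant of `r φ` is `w` modulo `I`
  have hdet : Ideal.Quotient.mk I (r φ 0 0 * r φ 1 1) = ((w.val : ℕ) : A ⧸ I) := by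
    have h1 := h.det φ hφ m w.val (fun μ hμ => mltoOm_pow hζ φ hμ)
    rw [h.det_eq hφ] at h1
    have h2 : Ideal.span {((𝔓.p ^ m : ℕ) : A)} ≤ I := by
      rw [Ideal.span_singleton_le_iff_mem]
      push_cast
      exact hm
    rw [← map_natCast (Ideal.Quotient.mk I), Ideal.Quotient.eq]
    exact h2 h1
  -- the element `u = x⁻¹ z`
  set u : A ⧸ I := Ideal.Quotient.mk I (r φ⁻¹ 0 0 * r φ 1 1) with hu
  set t : A ⧸ I := Ideal.Quotient.mk I (r φ⁻¹ 0 0 * r φ 0 1) with ht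
  have key : (w.val : ℕ) • (u * g) = g := by
    apply mlto_valEl_unique hI hm
    intro l
    -- the additive map `l' = w • l (u ·)`
    let l' : A ⧸ I →+ ZMod (𝔓.p ^ m) :=
      w.val • (l.comp (AddMonoidHom.mulLeft u))
    have hl' : ∀ x, l' x = w * l (u * x) := by
      intro x
      show w.val • l (u * x) = _
      rw [nsmul_eq_mul, ZMod.natCast_zmod_val]
    obtain ⟨y, hy⟩ := h.gen_exists hI hm hζ l
    have h1 := hy.val_frob hζN hφ (mltoOm_spec hζ φ)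
    -- the conjugated cocycle is `l' ∘ c` plus a coboundary
    have h2 : ∀ ι ∈ 𝔓.I, (fun ι => w * mltoCoc r I l (φ⁻¹ * ι * φ)) ι =
        (mltoCoc r I l' + fun ι => (mltoOm hζ ι - 1) * (w * l t)) ι := by
      intro ι hι
      simp only [Pi.add_apply, mltoCoc]
      have e0 : Ideal.Quotient.mk I (r φ⁻¹ 0 0 * r φ 1 1 * r ι 0 1) =
          u * Ideal.Quotient.mk I (r ι 0 1) := by
        rw [hu, ← _root_.map_mul]
      have e1 : w * l (Ideal.Quotient.mk I (r φ⁻¹ 0 0 * r φ 0 1 * (r ι 0 0 - 1))) =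
          (mltoOm hζ ι - 1) * (w * l t) := by
        have e2 : r φ⁻¹ 0 0 * r φ 0 1 * (r ι 0 0 - 1) =
            r ι 0 0 * (r φ⁻¹ 0 0 * r φ 0 1) - r φ⁻¹ 0 0 * r φ 0 1 := by ring
        rw [e2, _root_.map_sub, _root_.map_sub, h.l_mul hm hζ l hι, ← ht]
        ring
      rw [h.conj01 hφ hι, _root_.map_add, _root_.map_add, mul_add, e0, e1, hl']
    rw [mltoVal_congr hζN h2] at h1
    obtain ⟨y', hy'⟩ := h.gen_exists hI hm hζ l'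
    rw [hy'.val_add hζN (mltoGen_cob hζN (mltoOm hζ) (fun σ _ => mltoOm_spec hζ σ) (w * l t)),
      mltoVal_cob hζN (mltoOm hζ) (fun σ _ => mltoOm_spec hζ σ), add_zero, hg, hg, hl'] at h1
    rw [map_nsmul, nsmul_eq_mul, ZMod.natCast_zmod_val]
    exact h1
  -- `w u = z ^ 2`
  have h3 : ((w.val : ℕ) : A ⧸ I) * u = Ideal.Quotient.mk I (r φ 1 1) ^ 2 := by
    rw [← hdet, hu, ← map_mul, ← map_pow]
    congr 1
    have := h.inv00 hφ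
    linear_combination (r φ 1 1 ^ 2) * this
  rw [sub_mul, one_mul, ← h3, mul_assoc, ← nsmul_eq_mul, key, sub_self]

/-- **the valuation element vanishes iff all the cocycles have unit generators** -/
theorem MltoOrdForm.valEl_eq_zero_iff (h : MltoOrdForm 𝔓 r) (hI : Finite (A ⧸ I))
    (hm : (𝔓.p : A) ^ m ∈ I) {ζ : Qb} (hζ : IsPrimitiveRoot ζ (𝔓.p ^ m)) {g : A ⧸ I}
    (hg : ∀ l : A ⧸ I →+ ZMod (𝔓.p ^ m), mltoVal 𝔓 (𝔓.p ^ m) ζ (mltoCoc r I l) = l g) :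
    g = 0 ↔ ∀ l : A ⧸ I →+ ZMod (𝔓.p ^ m),
      ∃ y, MltoGen 𝔓 (𝔓.p ^ m) ζ (mltoCoc r I l) y ∧ 𝔓.v.Is y 0 := by
  constructor
  · intro h0 l
    obtain ⟨y, hy⟩ := h.gen_exists hI hm hζ l
    exact hy.exists_unit hζ.pow_eq_one (by rw [hg, h0, map_zero])
  · intro hall
    apply mlto_valEl_unique (𝔓 := 𝔓) hI hm
    intro l
    obtain ⟨y, hy, hy0⟩ := hall l
    rw [← hg, hy.val_eq_zero_of_unit hζ.pow_eq_one hy0, map_zero]

end Val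

end

end Fermat.Agent.MLT
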